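import Mathlib

/-!
Spaces of modular forms for a subgroup of SL(2,ℤ) as submodules of all functions on the upper
half plane, with translates indexed by left cosets.
-/

set_option autoImplicit false

noncomputable section

open UpperHalfPlane Filter Topology Complex Function
open scoped MatrixGroups ModularForm Manifold

namespace FLTAgent.ES

local notation "SL2Z" => Matrix.SpecialLinearGroup (Fin 2) ℤ

theorem periodic_of_slash_T_pow {k : ℤ} {f : ℍ → ℂ} {h : ℕ}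
    (hf : f ∣[k] (ModularGroup.T ^ h) = f) : Periodic (f ∘ ofComplex) (h : ℝ) := by
  intro w
  by_cases hw : 0 < w.im
  · have h1 : 0 < (w + ((h : ℝ) : ℂ)).im := by simp [hw]
    simp only [comp_apply, ofComplex_apply_of_im_pos h1, ofComplex_apply_of_im_pos hw]
    have h2 := congrFun hf ⟨w, hw⟩
    rw [← zpow_natCast, ModularForm.SL_slash_apply, ModularGroup.denom_apply] at h2
    have e10 : (ModularGroup.T ^ (h : ℤ)) 1 0 = 0 := by rw [ModularGroup.coe_T_zpow]; simp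
    have e11 : (ModularGroup.T ^ (h : ℤ)) 1 1 = 1 := by rw [ModularGroup.coe_T_zpow]; simp
    rw [e10, e11] at h2
    simp only [Int.cast_zero, zero_mul, Int.cast_one, zero_add, one_zpow, mul_one] at h2
    rw [UpperHalfPlane.modular_T_zpow_smul] at h2
    convert h2 using 2
    ext
    simp [add_comm]
  · have h1 : (w + ((h : ℝ) : ℂ)).im ≤ 0 := by simpa using not_lt.mp hw
    simp only [comp_apply, ofComplex_apply_of_im_nonpos h1,
      ofComplex_apply_of_im_nonpos (not_lt.mp hw)]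

/-- The space of weight `k` forms for `Γ`. -/
def forms (Γ : Subgroup SL2Z) (k : ℤ) : Submodule ℂ (ℍ → ℂ) where
  carrier := {f | (∀ γ ∈ Γ, f ∣[k] γ = f) ∧ MDiff f ∧ ∀ g : SL2Z, IsBoundedAtImInfty (f ∣[k] g)}
  zero_mem' := ⟨fun γ _ => by simp, mdifferentiable_const, fun g => by
    rw [SlashAction.zero_slash]; exact const_boundedAtFilter atImInfty (0 : ℂ)⟩
  add_mem' := by
    rintro f g ⟨hf1, hf2, hf3⟩ ⟨hg1, hg2, hg3⟩
    exact ⟨fun γ hγ => by rw [SlashAction.add_slash, hf1 γ hγ, hg1 γ hγ], hf2.add hg2,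
      fun σ => by rw [SlashAction.add_slash]; exact (hf3 σ).add (hg3 σ)⟩
  smul_mem' := by
    rintro c f ⟨hf1, hf2, hf3⟩
    exact ⟨fun γ hγ => by rw [ModularForm.SL_smul_slash, hf1 γ hγ], hf2.const_smul c,
      fun σ => by rw [ModularForm.SL_smul_slash]; exact (hf3 σ).smul c⟩

variable {Γ : Subgroup SL2Z} {k l : ℤ} {f g : ℍ → ℂ}

theorem mem_forms_iff : f ∈ forms Γ k ↔ (∀ γ ∈ Γ, f ∣[k] γ = f) ∧ MDiff f ∧
    ∀ g : SL2Z, IsBoundedAtImInfty (f ∣[k] g) := Iff.rfl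

theorem forms_mdiff (hf : f ∈ forms Γ k) : MDiff f := hf.2.1

theorem forms_slash (hf : f ∈ forms Γ k) {γ : SL2Z} (hγ : γ ∈ Γ) : f ∣[k] γ = f := hf.1 γ hγ

theorem forms_bdd (hf : f ∈ forms Γ k) (σ : SL2Z) : IsBoundedAtImInfty (f ∣[k] σ) := hf.2.2 σ

theorem forms_mul (hf : f ∈ forms Γ k) (hg : g ∈ forms Γ l) : f * g ∈ forms Γ (k + l) :=
  ⟨fun γ hγ => by rw [ModularForm.mul_slash_SL2, hf.1 γ hγ, hg.1 γ hγ], hf.2.1.mul hg.2.1,
    fun σ => by rw [ModularForm.mul_slash_SL2]; exact (hf.2.2 σ).mul (hg.2.2 σ)⟩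

theorem forms_mul_of_eq {m : ℤ} (hf : f ∈ forms Γ k) (hg : g ∈ forms Γ l) (hm : k + l = m) :
    f * g ∈ forms Γ m := hm ▸ forms_mul hf hg

theorem forms_one : (1 : ℍ → ℂ) ∈ forms Γ 0 :=
  ⟨fun γ _ => ModularForm.is_invariant_one γ, mdifferentiable_const, fun σ => by
    rw [ModularForm.is_invariant_one]; exact const_boundedAtFilter atImInfty (1 : ℂ)⟩

theorem forms_pow (hf : f ∈ forms Γ k) (n : ℕ) : f ^ n ∈ forms Γ (n * k) := by
  induction n with
  | zero => simpa using forms_one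
  | succ n ih =>
    rw [pow_succ]
    exact forms_mul_of_eq ih hf (by push_cast; ring)

theorem forms_mono {Γ' : Subgroup SL2Z} (h : Γ ≤ Γ') (hf : f ∈ forms Γ' k) : f ∈ forms Γ k :=
  ⟨fun γ hγ => hf.1 γ (h hγ), hf.2.1, hf.2.2⟩

theorem mdiff_slash_SL (hf : MDiff f) (σ : SL2Z) : MDiff (f ∣[k] σ) := by
  rw [ModularForm.SL_slash]
  exact MDifferentiable.slash hf k _

theorem forms_of_modularForm {G : Subgroup (GL (Fin 2) ℝ)} [G.IsArithmetic] {F : Type*}
    [FunLike F ℍ ℂ] [ModularFormClass F G k] (f : F)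
    (hG : ∀ γ ∈ Γ, (γ : GL (Fin 2) ℝ) ∈ G) : (⇑f : ℍ → ℂ) ∈ forms Γ k :=
  ⟨fun γ hγ => by rw [ModularForm.SL_slash]; exact SlashInvariantFormClass.slash_action_eq f _ (hG γ hγ),
    ModularFormClass.holo f, fun σ => ModularFormClass.bdd_at_infty_slash f σ⟩

/-- A level one modular form out of an element of `forms ⊤ k`. -/
def toLevelOne (hf : f ∈ forms ⊤ k) : ModularForm 𝒮ℒ k where
  toFun := f
  slash_action_eq' := by
    rintro _ ⟨γ, rfl⟩
    exact hf.1 γ (Subgroup.mem_top γ)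
  holo' := hf.2.1
  bdd_at_cusps' := by
    intro c hc
    rw [OnePoint.isBoundedAt_iff_forall_SL2Z hc]
    exact fun σ _ => hf.2.2 σ

@[simp] theorem toLevelOne_apply (hf : f ∈ forms ⊤ k) (τ : ℍ) : toLevelOne hf τ = f τ := rfl

theorem levelOne_mem {F : Type*} [FunLike F ℍ ℂ] [ModularFormClass F 𝒮ℒ k] (f : F) :
    (⇑f : ℍ → ℂ) ∈ forms Γ k :=
  forms_of_modularForm f (fun γ _ => ⟨γ, rfl⟩)

/-- Translate of `f` attached to a left coset. -/
def cosetSlash (k : ℤ) (f : ℍ → ℂ) (x : SL2Z ⧸ Γ) : ℍ → ℂ := f ∣[k] (x.out)⁻¹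

theorem cosetSlash_mk (hf : f ∈ forms Γ k) (σ : SL2Z) :
    cosetSlash k f (σ : SL2Z ⧸ Γ) = f ∣[k] σ⁻¹ := by
  obtain ⟨⟨γ, hγ⟩, h⟩ := QuotientGroup.mk_out_eq_mul Γ σ
  rw [cosetSlash, h, mul_inv_rev, SlashAction.slash_mul, hf.1 _ (Γ.inv_mem hγ)]

theorem cosetSlash_slash (hf : f ∈ forms Γ k) (x : SL2Z ⧸ Γ) (σ : SL2Z) :
    (cosetSlash k f x) ∣[k] σ = cosetSlash k f (σ⁻¹ • x) := by
  induction x using QuotientGroup.induction_on with
  | H z =>
    rw [MulAction.Quotient.smul_coe, cosetSlash_mk hf, cosetSlash_mk hf, smul_eq_mul, mul_inv_rev,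
      inv_inv, SlashAction.slash_mul]

theorem cosetSlash_one (hf : f ∈ forms Γ k) : cosetSlash k f ((1 : SL2Z) : SL2Z ⧸ Γ) = f := by
  rw [cosetSlash_mk hf, inv_one, SlashAction.slash_one]

theorem cosetSlash_bdd (hf : f ∈ forms Γ k) (x : SL2Z ⧸ Γ) :
    IsBoundedAtImInfty (cosetSlash k f x) := hf.2.2 _

theorem cosetSlash_mdiff (hf : f ∈ forms Γ k) (x : SL2Z ⧸ Γ) : MDiff (cosetSlash k f x) :=
  mdiff_slash_SL hf.2.1 _

theorem cosetSlash_add (f g : ℍ → ℂ) (x : SL2Z ⧸ Γ) :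
    cosetSlash k (f + g) x = cosetSlash k f x + cosetSlash k g x := SlashAction.add_slash ..

theorem cosetSlash_smul (c : ℂ) (f : ℍ → ℂ) (x : SL2Z ⧸ Γ) :
    cosetSlash k (c • f) x = c • cosetSlash k f x := ModularForm.SL_smul_slash ..

theorem cosetSlash_mul_levelOne {r : ℍ → ℂ} (hr : r ∈ forms ⊤ l) (x : SL2Z ⧸ Γ) :
    cosetSlash (l + k) (r * f) x = r * cosetSlash k f x := by
  rw [cosetSlash, ModularForm.mul_slash_SL2, hr.1 _ (Subgroup.mem_top _)]; rfl

/-- A positive integer which is a period at every cusp. -/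
def globalPeriod (Γ : Subgroup SL2Z) : ℕ := Γ.normalCore.index

theorem globalPeriod_pos [Γ.FiniteIndex] : 0 < globalPeriod Γ :=
  Nat.pos_of_ne_zero Subgroup.FiniteIndex.index_ne_zero

theorem T_pow_globalPeriod_smul (x : SL2Z ⧸ Γ) :
    (ModularGroup.T ^ globalPeriod Γ) • x = x := by
  induction x using QuotientGroup.induction_on with
  | H z =>
    rw [MulAction.Quotient.smul_coe, QuotientGroup.eq, smul_eq_mul, mul_inv_rev]
    have h := Γ.normalCore_le ((inferInstance : Γ.normalCore.Normal).conj_mem _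
      (Γ.normalCore.inv_mem (Subgroup.pow_index_mem Γ.normalCore ModularGroup.T)) z⁻¹)
    simpa [mul_assoc, globalPeriod] using h

end FLTAgent.ES
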