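import Mathlib
import Fermat.Prelude.Def_ModularCurve_PeriodMap
import Fermat.Agent.ES.Basic

/-!
An upper bound for the dimension of the parabolic homomorphisms of a finite index subgroup of
SL(2,ℤ) containing -1, in terms of the fixed spaces of S, ST, T on functions on the coset space.
-/

set_option autoImplicit false

noncomputable section

open ModularCurve.Period
open scoped MatrixGroups

namespace FLTAgent.ES

local notation "SL2Z" => Matrix.SpecialLinearGroup (Fin 2) ℤ

variable (Γ : Subgroup SL2Z)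

/-- Composition with the action of an element on the coset space. -/
def pullBy (g : SL2Z) : (SL2Z ⧸ Γ → ℂ) →ₗ[ℂ] (SL2Z ⧸ Γ → ℂ) :=
  LinearMap.funLeft ℂ ℂ (fun x => g • x)

@[simp] theorem pullBy_apply (g : SL2Z) (f : SL2Z ⧸ Γ → ℂ) (x : SL2Z ⧸ Γ) :
    pullBy Γ g f x = f (g • x) := rfl

/-- Functions on the coset space fixed by `g`. -/
def fixedFun (g : SL2Z) : Submodule ℂ (SL2Z ⧸ Γ → ℂ) :=
  LinearMap.ker (pullBy Γ g - LinearMap.id)

theorem mem_fixedFun {g : SL2Z} {f : SL2Z ⧸ Γ → ℂ} :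
    f ∈ fixedFun Γ g ↔ ∀ x, f (g • x) = f x := by
  simp [fixedFun, funext_iff, sub_eq_zero]

/-- Sum over the first `n` iterates. -/
def orbitSum (g : SL2Z) (n : ℕ) : (SL2Z ⧸ Γ → ℂ) →ₗ[ℂ] (SL2Z ⧸ Γ → ℂ) :=
  ∑ i ∈ Finset.range n, pullBy Γ (g ^ i)

@[simp] theorem orbitSum_apply (g : SL2Z) (n : ℕ) (f : SL2Z ⧸ Γ → ℂ) (x : SL2Z ⧸ Γ) :
    orbitSum Γ g n f x = ∑ i ∈ Finset.range n, f (g ^ i • x) := by
  simp [orbitSum]

theorem range_orbitSum {g : SL2Z} {n : ℕ} (hn : n ≠ 0) (hg : ∀ x : SL2Z ⧸ Γ, g ^ n • x = x) :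
    LinearMap.range (orbitSum Γ g n) = fixedFun Γ g := by
  apply le_antisymm
  · rintro _ ⟨f, rfl⟩
    rw [mem_fixedFun]
    intro x
    have h1 := Finset.sum_range_succ (fun i => f (g ^ i • x)) n
    have h2 := Finset.sum_range_succ' (fun i => f (g ^ i • x)) n
    simp only [hg, pow_zero, one_smul] at h1 h2
    rw [h1] at h2
    simp only [orbitSum_apply, smul_smul, ← pow_succ]
    exact (add_right_cancel h2).symm
  · intro f hf
    refine ⟨(n : ℂ)⁻¹ • f, ?_⟩
    have hpow : ∀ (i : ℕ) (x : SL2Z ⧸ Γ), f (g ^ i • x) = f x := by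
      intro i
      induction i with
      | zero => simp
      | succ i ih =>
        intro x
        rw [pow_succ', mul_smul, (mem_fixedFun Γ).mp hf, ih]
    funext x
    simp [hpow, hn]

theorem finrank_ker_orbitSum [Γ.FiniteIndex] {g : SL2Z} {n : ℕ} (hn : n ≠ 0)
    (hg : ∀ x : SL2Z ⧸ Γ, g ^ n • x = x) :
    Module.finrank ℂ (LinearMap.ker (orbitSum Γ g n)) + Module.finrank ℂ (fixedFun Γ g)
      = Nat.card (SL2Z ⧸ Γ) := by
  have : Fintype (SL2Z ⧸ Γ) := Fintype.ofFinite _
  rw [← range_orbitSum Γ hn hg, add_comm, LinearMap.finrank_range_add_finrank_ker,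
    Module.finrank_pi, Nat.card_eq_fintype_card]

variable {Γ}

theorem cocycle_mem (g : SL2Z) (x : SL2Z ⧸ Γ) : (g • x).out⁻¹ * g * x.out ∈ Γ := by
  rw [mul_assoc, ← QuotientGroup.eq, ← smul_eq_mul, ← MulAction.Quotient.smul_coe,
    QuotientGroup.out_eq', QuotientGroup.out_eq']

/-- The cocycle of a homomorphism on the coset space. -/
def cocycle (φ : Additive Γ →+ ℂ) (g : SL2Z) (x : SL2Z ⧸ Γ) : ℂ :=
  φ (Additive.ofMul ⟨_, cocycle_mem g x⟩)

theorem hom_ext_coe (φ : Additive Γ →+ ℂ) {a b : Γ} (h : (a : SL2Z) = b) :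
    φ (Additive.ofMul a) = φ (Additive.ofMul b) := by rw [Subtype.ext h]

theorem cocycle_mul (φ : Additive Γ →+ ℂ) (g h : SL2Z) (x : SL2Z ⧸ Γ) :
    cocycle φ (g * h) x = cocycle φ g (h • x) + cocycle φ h x := by
  rw [cocycle, cocycle, cocycle, ← map_add, ← ofMul_mul]
  apply hom_ext_coe
  simp only [Subgroup.coe_mul, mul_smul, ← mul_assoc]
  simp [mul_assoc]

theorem cocycle_one (φ : Additive Γ →+ ℂ) (x : SL2Z ⧸ Γ) : cocycle φ 1 x = 0 := by
  have := cocycle_mul φ 1 1 x
  simpa using this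

theorem cocycle_pow (φ : Additive Γ →+ ℂ) (g : SL2Z) (n : ℕ) (x : SL2Z ⧸ Γ) :
    cocycle φ (g ^ n) x = orbitSum Γ g n (cocycle φ g) x := by
  induction n with
  | zero => simp [cocycle_one]
  | succ n ih =>
    rw [pow_succ', cocycle_mul, ih, orbitSum_apply, orbitSum_apply, Finset.sum_range_succ, add_comm]

theorem cocycle_eq_zero {φ : Additive Γ →+ ℂ} (hφ : IsParabolicHom Γ φ) {g : SL2Z}
    (hg : (g : Matrix (Fin 2) (Fin 2) ℤ).trace ^ 2 = 4) {x : SL2Z ⧸ Γ} (hx : g • x = x) :
    cocycle φ g x = 0 := by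
  refine hφ ⟨_, cocycle_mem g x⟩ ?_
  have h : ((g • x).out⁻¹ * g * x.out : SL2Z) = x.out⁻¹ * g * x.out := by rw [hx]
  show (((g • x).out⁻¹ * g * x.out : SL2Z) : Matrix (Fin 2) (Fin 2) ℤ).trace ^ 2 = 4
  rw [h, Matrix.SpecialLinearGroup.coe_mul, Matrix.SpecialLinearGroup.coe_mul,
    Matrix.trace_mul_cycle, ← Matrix.SpecialLinearGroup.coe_mul, mul_inv_cancel,
    Matrix.SpecialLinearGroup.coe_one, one_mul]
  exact hg

theorem S_sq_eq : ModularGroup.S ^ 2 = (-1 : SL2Z) := by decide

theorem ST_cube_eq : (ModularGroup.S * ModularGroup.T) ^ 3 = (-1 : SL2Z) := by decide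

theorem neg_one_smul_coset (h : (-1 : SL2Z) ∈ Γ) (x : SL2Z ⧸ Γ) : (-1 : SL2Z) • x = x := by
  induction x using QuotientGroup.induction_on with
  | H z =>
    rw [MulAction.Quotient.smul_coe, QuotientGroup.eq, smul_eq_mul]
    simpa [inv_neg] using h

/-- The relevant pairs of functions: values of a cocycle on `S` and `T`. -/
def pairSpace (Γ : Subgroup SL2Z) :
    Submodule ℂ ((SL2Z ⧸ Γ → ℂ) × (SL2Z ⧸ Γ → ℂ)) :=
  (LinearMap.ker (orbitSum Γ ModularGroup.S 2)).prod
    (LinearMap.ker (orbitSum Γ ModularGroup.T (globalPeriod Γ)))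

/-- The relation coming from `ST`. -/
def relMap (Γ : Subgroup SL2Z) : pairSpace Γ →ₗ[ℂ] (SL2Z ⧸ Γ → ℂ) :=
  orbitSum Γ (ModularGroup.S * ModularGroup.T) 3 ∘ₗ
    (LinearMap.coprod (pullBy Γ ModularGroup.T) LinearMap.id) ∘ₗ (pairSpace Γ).subtype

theorem relMap_apply (p : pairSpace Γ) :
    relMap Γ p = orbitSum Γ (ModularGroup.S * ModularGroup.T) 3
      (fun x => p.1.1 (ModularGroup.T • x) + p.1.2 x) := rfl

theorem diff_mem_ker_orbitSum {g : SL2Z} {n : ℕ} (hg : ∀ x : SL2Z ⧸ Γ, g ^ n • x = x)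
    (d : SL2Z ⧸ Γ → ℂ) : (fun x => d x - d (g • x)) ∈ LinearMap.ker (orbitSum Γ g n) := by
  rw [LinearMap.mem_ker]
  funext x
  have h := Finset.sum_range_sub' (fun i => d (g ^ i • x)) n
  simp only [hg, pow_zero, one_smul, sub_self] at h
  simpa [smul_smul, ← pow_succ'] using h

theorem smul_generators_induction {P : SL2Z → Prop} (hS : P ModularGroup.S)
    (hT : P ModularGroup.T) (h1 : P 1) (hmul : ∀ a b, P a → P b → P (a * b))
    (hinv : ∀ a, P a → P a⁻¹) (g : SL2Z) : P g := by
  have hg : g ∈ Subgroup.closure ({ModularGroup.S, ModularGroup.T} : Set SL2Z) := by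
    rw [SpecialLinearGroup.SL2Z_generators]; exact Subgroup.mem_top g
  induction hg using Subgroup.closure_induction with
  | mem a ha =>
    rcases ha with rfl | ha
    · exact hS
    · rw [Set.mem_singleton_iff] at ha
      exact ha ▸ hT
  | one => exact h1
  | mul a b _ _ ha hb => exact hmul a b ha hb
  | inv a _ ha => exact hinv a ha

theorem const_of_invariant {y : SL2Z ⧸ Γ → ℂ} (hS : ∀ x, y (ModularGroup.S • x) = y x)
    (hT : ∀ x, y (ModularGroup.T • x) = y x) (x : SL2Z ⧸ Γ) :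
    y x = y ((1 : SL2Z) : SL2Z ⧸ Γ) := by
  have h : ∀ g : SL2Z, ∀ z, y (g • z) = y z :=
    smul_generators_induction (P := fun g => ∀ z, y (g • z) = y z) hS hT (by simp)
      (fun a b ha hb z => by rw [mul_smul, ha, hb])
      (fun a ha z => by rw [← ha (a⁻¹ • z), smul_inv_smul])
  induction x using QuotientGroup.induction_on with
  | H z =>
    rw [← h z ((1 : SL2Z) : SL2Z ⧸ Γ), MulAction.Quotient.smul_coe, smul_eq_mul, mul_one]

theorem fixed_ST_le_rank (hneg : (-1 : SL2Z) ∈ Γ) [Γ.FiniteIndex] :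
    Module.finrank ℂ (fixedFun Γ (ModularGroup.S * ModularGroup.T)) ≤
      Module.finrank ℂ (LinearMap.range (relMap Γ)) + 1 := by
  have : Fintype (SL2Z ⧸ Γ) := Fintype.ofFinite _
  set R := ModularGroup.S * ModularGroup.T
  let Λ : fixedFun Γ R →ₗ[ℂ] Module.Dual ℂ (LinearMap.range (relMap Γ)) :=
    LinearMap.mk₂ ℂ (fun (y : fixedFun Γ R) (v : LinearMap.range (relMap Γ)) =>
        ∑ x, y.1 x * v.1 x)
      (fun a b v => by simp [add_mul, Finset.sum_add_distrib])
      (fun c a v => by simp [Finset.mul_sum, mul_assoc])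
      (fun a v w => by simp [mul_add, Finset.sum_add_distrib])
      (fun c a v => by simp [Finset.mul_sum, mul_left_comm])
  have hker : LinearMap.ker Λ ≤
      (Submodule.span ℂ {(fun _ => (1 : ℂ))}).comap (fixedFun Γ R).subtype := by
    rintro ⟨y, hy⟩ hΛ
    have hy' := (mem_fixedFun Γ).mp hy
    have hy2 : ∀ x, y (R • R • x) = y x := fun x => by rw [hy', hy']
    have key : ∀ p : pairSpace Γ, ∑ x, y x * (p.1.1 (ModularGroup.T • x) + p.1.2 x) = 0 := by
      intro p
      have h := LinearMap.congr_fun hΛ ⟨relMap Γ p, LinearMap.mem_range_self _ p⟩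
      simp only [Λ, LinearMap.mk₂_apply, LinearMap.zero_apply] at h
      have hiter : ∀ (i : ℕ) (c : SL2Z ⧸ Γ → ℂ),
          ∑ x, y x * c (R ^ i • x) = ∑ x, y x * c x := by
        intro i
        induction i with
        | zero => simp
        | succ i ih =>
          intro c
          conv_rhs => rw [← ih c,
            ← Equiv.sum_comp (MulAction.toPerm R) (fun x => y x * c (R ^ i • x))]
          refine Finset.sum_congr rfl fun x _ => ?_
          rw [MulAction.toPerm_apply, hy', smul_smul, ← pow_succ]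
      rw [relMap_apply] at h
      simp only [orbitSum_apply, Finset.mul_sum] at h
      rw [Finset.sum_comm, Finset.sum_congr rfl (fun i _ =>
        hiter i (fun x => p.1.1 (ModularGroup.T • x) + p.1.2 x))] at h
      simp only [Finset.sum_const, Finset.card_range, nsmul_eq_mul] at h
      exact (mul_eq_zero.mp h).resolve_left (by norm_num)
    have hn := fun x => T_pow_globalPeriod_smul (Γ := Γ) x
    have hT : ∀ x, y (ModularGroup.T • x) = y x := by
      intro x0
      classical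
      have h := key ⟨(0, fun x => (Pi.single (ModularGroup.T • x0) (1 : ℂ) : _ → ℂ) x -
          (Pi.single (ModularGroup.T • x0) (1 : ℂ) : _ → ℂ) (ModularGroup.T • x)),
        Submodule.zero_mem _, diff_mem_ker_orbitSum hn _⟩
      simpa [mul_sub, Pi.single_apply, sub_eq_zero] using h
    have hS : ∀ x, y (ModularGroup.S • x) = y x := by
      intro x0
      classical
      have h := key ⟨(fun x => (Pi.single (ModularGroup.S • x0) (1 : ℂ) : _ → ℂ) x -
          (Pi.single (ModularGroup.S • x0) (1 : ℂ) : _ → ℂ) (ModularGroup.S • x), 0),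
        diff_mem_ker_orbitSum (fun x => by rw [S_sq_eq, neg_one_smul_coset hneg]) _,
        Submodule.zero_mem _⟩
      simp only [Pi.zero_apply, add_zero] at h
      rw [← Equiv.sum_comp (MulAction.toPerm ModularGroup.T)⁻¹] at h
      have hT' : ∀ x, y (ModularGroup.T⁻¹ • x) = y x := fun x => by
        rw [← hT (ModularGroup.T⁻¹ • x), smul_inv_smul]
      simpa [mul_sub, Pi.single_apply, sub_eq_zero, hT'] using h
    rw [Submodule.mem_comap, Submodule.mem_span_singleton]
    exact ⟨y ((1 : SL2Z) : SL2Z ⧸ Γ), funext fun x => by simp [const_of_invariant hS hT x]⟩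
  have h1 := Λ.finrank_range_add_finrank_ker
  have h2 : Module.finrank ℂ (LinearMap.range Λ) ≤ Module.finrank ℂ (LinearMap.range (relMap Γ)) :=
    (Submodule.finrank_le _).trans Subspace.dual_finrank_eq.le
  have h3 : Module.finrank ℂ (LinearMap.ker Λ) ≤ 1 := by
    refine (Submodule.finrank_mono hker).trans ?_
    rw [(Submodule.equivMapOfInjective _ (fixedFun Γ R).injective_subtype _).finrank_eq]
    exact (Submodule.finrank_mono (Submodule.map_comap_le _ _)).trans
      ((finrank_span_le_card ({fun _ => (1 : ℂ)} : Set (SL2Z ⧸ Γ → ℂ))).trans (by simp))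
  omega

/-- The linearisation map `(φ, f) ↦` values of the twisted cocycle. -/
def homPairMap (Γ : Subgroup SL2Z) :
    (parabolicHoms ℂ Γ ℂ) × (SL2Z ⧸ Γ → ℂ) →ₗ[ℂ] (SL2Z ⧸ Γ → ℂ) × (SL2Z ⧸ Γ → ℂ) where
  toFun p := (fun x => cocycle p.1.1 ModularGroup.S x + (p.2 x - p.2 (ModularGroup.S • x)),
    fun x => cocycle p.1.1 ModularGroup.T x + (p.2 x - p.2 (ModularGroup.T • x)))
  map_add' p q := by
    ext x <;> simp [cocycle] <;> ring
  map_smul' c p := by
    ext x <;> simp [cocycle] <;> ring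

theorem finrank_parabolicHoms_add_le (hneg : (-1 : SL2Z) ∈ Γ) [Γ.FiniteIndex] :
    Module.Finite ℂ (parabolicHoms ℂ Γ ℂ) ∧
    Module.finrank ℂ (parabolicHoms ℂ Γ ℂ) + Module.finrank ℂ (fixedFun Γ ModularGroup.S) +
      Module.finrank ℂ (fixedFun Γ (ModularGroup.S * ModularGroup.T)) +
      Module.finrank ℂ (fixedFun Γ ModularGroup.T) ≤ Nat.card (SL2Z ⧸ Γ) + 2 := by
  have : Fintype (SL2Z ⧸ Γ) := Fintype.ofFinite _
  have hn := fun x => T_pow_globalPeriod_smul (Γ := Γ) x
  have hS2 : ∀ x : SL2Z ⧸ Γ, ModularGroup.S ^ 2 • x = x := fun x => by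
    rw [S_sq_eq, neg_one_smul_coset hneg]
  have hR3 : ∀ x : SL2Z ⧸ Γ, (ModularGroup.S * ModularGroup.T) ^ 3 • x = x := fun x => by
    rw [ST_cube_eq, neg_one_smul_coset hneg]
  set Θ := homPairMap Γ
  let K : Submodule ℂ ((SL2Z ⧸ Γ → ℂ) × (SL2Z ⧸ Γ → ℂ)) :=
    (LinearMap.ker (relMap Γ)).map (pairSpace Γ).subtype
  have htrace : (((-1 : SL2Z) : Matrix (Fin 2) (Fin 2) ℤ)).trace ^ 2 = 4 := by decide
  have hΘ : LinearMap.range Θ ≤ K := by
    rintro _ ⟨⟨⟨φ, hφ⟩, f⟩, rfl⟩
    have hφ' := mem_parabolicHoms_iff.mp hφ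
    have ha : orbitSum Γ ModularGroup.S 2 (cocycle φ ModularGroup.S) = 0 := by
      funext x
      rw [← cocycle_pow, S_sq_eq, cocycle_eq_zero hφ' htrace (neg_one_smul_coset hneg x)]
      rfl
    have hb : orbitSum Γ ModularGroup.T (globalPeriod Γ) (cocycle φ ModularGroup.T) = 0 := by
      funext x
      rw [← cocycle_pow, cocycle_eq_zero hφ' ?_ (hn x)]
      · rfl
      · rw [← zpow_natCast, ModularGroup.coe_T_zpow]
        simp [Matrix.trace_fin_two]
    have ha' := LinearMap.mem_ker.mp (diff_mem_ker_orbitSum hS2 f)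
    have hb' := LinearMap.mem_ker.mp (diff_mem_ker_orbitSum hn f)
    refine ⟨⟨Θ (⟨φ, hφ⟩, f), ?_, ?_⟩, ?_, rfl⟩
    · refine LinearMap.mem_ker.mpr ?_
      show orbitSum Γ ModularGroup.S 2 (cocycle φ ModularGroup.S + fun x => _) = 0
      rw [map_add, ha, ha', add_zero]
    · refine LinearMap.mem_ker.mpr ?_
      show orbitSum Γ ModularGroup.T _ (cocycle φ ModularGroup.T + fun x => _) = 0
      rw [map_add, hb, hb', add_zero]
    · rw [SetLike.mem_coe, LinearMap.mem_ker, relMap_apply]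
      have hR : (fun x => (cocycle φ ModularGroup.S (ModularGroup.T • x) +
            (f (ModularGroup.T • x) - f (ModularGroup.S • ModularGroup.T • x))) +
            (cocycle φ ModularGroup.T x + (f x - f (ModularGroup.T • x))))
          = cocycle φ (ModularGroup.S * ModularGroup.T) +
            fun x => f x - f ((ModularGroup.S * ModularGroup.T) • x) := by
        funext x
        simp only [Pi.add_apply, cocycle_mul, mul_smul]
        ring
      refine (congrArg _ hR).trans ?_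
      rw [map_add, LinearMap.mem_ker.mp (diff_mem_ker_orbitSum hR3 f), add_zero]
      funext x
      rw [← cocycle_pow, ST_cube_eq, cocycle_eq_zero hφ' htrace (neg_one_smul_coset hneg x)]
      rfl
  have hkerΘ : ∀ (φ : parabolicHoms ℂ Γ ℂ) (f : SL2Z ⧸ Γ → ℂ), Θ (φ, f) = 0 →
      φ = 0 ∧ ∀ x, f x = f ((1 : SL2Z) : SL2Z ⧸ Γ) := by
    intro φ f h0
    have hgen : ∀ g : SL2Z, ∀ x, cocycle φ.1 g x = f (g • x) - f x := by
      apply smul_generators_induction
      · intro x
        have := congrFun (congrArg Prod.fst h0) x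
        simp only [Θ, homPairMap, LinearMap.coe_mk, AddHom.coe_mk, Prod.fst_zero, Pi.zero_apply]
          at this
        linear_combination this
      · intro x
        have := congrFun (congrArg Prod.snd h0) x
        simp only [Θ, homPairMap, LinearMap.coe_mk, AddHom.coe_mk, Prod.snd_zero, Pi.zero_apply]
          at this
        linear_combination this
      · intro x; simp [cocycle_one]
      · intro a b ha hb x
        rw [cocycle_mul, ha, hb, mul_smul]; ring
      · intro a ha x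
        have := cocycle_mul φ.1 a a⁻¹ x
        rw [mul_inv_cancel, cocycle_one, ha, smul_inv_smul] at this
        linear_combination -this
    have hφ0 : φ = 0 := by
      apply Subtype.ext
      refine AddMonoidHom.ext fun γ => ?_
      obtain ⟨γ, rfl⟩ := Additive.ofMul.surjective γ
      obtain ⟨γ₀, hγ₀⟩ := QuotientGroup.mk_out_eq_mul Γ (1 : SL2Z)
      rw [one_mul] at hγ₀
      have hfix : (γ : SL2Z) • ((1 : SL2Z) : SL2Z ⧸ Γ) = ((1 : SL2Z) : SL2Z ⧸ Γ) := by
        rw [MulAction.Quotient.smul_coe, QuotientGroup.eq, smul_eq_mul, mul_one, mul_one]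
        exact Γ.inv_mem γ.2
      have h := hgen (γ : SL2Z) ((1 : SL2Z) : SL2Z ⧸ Γ)
      rw [hfix, sub_self, cocycle,
        hom_ext_coe φ.1 (b := γ₀⁻¹ * γ * γ₀) (by simp [hfix, hγ₀])] at h
      rw [ofMul_mul, ofMul_mul, map_add, map_add, ofMul_inv, map_neg] at h
      simp only [ZeroMemClass.coe_zero, AddMonoidHom.zero_apply]
      linear_combination h
    refine ⟨hφ0, const_of_invariant (fun x => ?_) (fun x => ?_)⟩
    · have := hgen ModularGroup.S x
      rw [hφ0] at this
      simp [cocycle] at this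
      linear_combination -this
    · have := hgen ModularGroup.T x
      rw [hφ0] at this
      simp [cocycle] at this
      linear_combination -this
  have hfin : Module.Finite ℂ (parabolicHoms ℂ Γ ℂ) := by
    refine Module.Finite.of_injective (Θ ∘ₗ LinearMap.inl ℂ _ _) ?_
    rw [← LinearMap.ker_eq_bot, Submodule.eq_bot_iff]
    exact fun φ h => (hkerΘ φ 0 h).1
  refine ⟨hfin, ?_⟩
  have h1 := Θ.finrank_range_add_finrank_ker
  rw [Module.finrank_prod, Module.finrank_pi, ← Nat.card_eq_fintype_card] at h1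
  have hker1 : Module.finrank ℂ (LinearMap.ker Θ) ≤ 1 := by
    have hle : LinearMap.ker Θ ≤ Submodule.span ℂ
        {((0 : parabolicHoms ℂ Γ ℂ), fun _ : SL2Z ⧸ Γ => (1 : ℂ))} := by
      rintro ⟨φ, f⟩ h
      obtain ⟨rfl, hf⟩ := hkerΘ φ f h
      refine Submodule.mem_span_singleton.mpr ⟨f ((1 : SL2Z) : SL2Z ⧸ Γ), ?_⟩
      ext x <;> simp [hf x]
    exact (Submodule.finrank_mono hle).trans ((finrank_span_le_card _).trans (by simp))
  have h2 := (Submodule.finrank_mono hΘ).trans (Submodule.finrank_map_le _ _)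
  have h3 := (relMap Γ).finrank_range_add_finrank_ker
  have hpair : Module.finrank ℂ (pairSpace Γ)
      = Module.finrank ℂ (LinearMap.ker (orbitSum Γ ModularGroup.S 2)) +
        Module.finrank ℂ (LinearMap.ker (orbitSum Γ ModularGroup.T (globalPeriod Γ))) := by
    rw [← Module.finrank_prod]
    exact LinearEquiv.finrank_eq
      { toFun := fun p => (⟨p.1.1, p.2.1⟩, ⟨p.1.2, p.2.2⟩)
        invFun := fun p => ⟨(p.1.1, p.2.1), p.1.2, p.2.2⟩
        map_add' := fun _ _ => rfl
        map_smul' := fun _ _ => rfl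
        left_inv := fun _ => rfl
        right_inv := fun _ => rfl }
  have h4 := finrank_ker_orbitSum Γ two_ne_zero hS2
  have h5 := finrank_ker_orbitSum Γ globalPeriod_pos.ne' hn
  have h6 := fixed_ST_le_rank hneg
  omega

end FLTAgent.ES
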