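import Mathlib
import Fermat.Prelude.Def_ModularCurve_GenusNumerics
import Fermat.Agent.ES.Cocycle

/-!
Cosets of Γ₀(N) in SL(2,ℤ) as primitive pairs modulo `N` up to units; the index and the fixed
points of the two elliptic elements.
-/

set_option autoImplicit false

noncomputable section

open CongruenceSubgroup
open scoped MatrixGroups

namespace FLTAgent.ES

local notation "SL2Z" => Matrix.SpecialLinearGroup (Fin 2) ℤ

variable (N : ℕ) [NeZero N]

/-- The first column modulo `N`. -/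
def colPair (σ : SL2Z) : ZMod N × ZMod N := ((σ 0 0 : ZMod N), (σ 1 0 : ZMod N))

omit [NeZero N] in
theorem colPair_coprime (σ : SL2Z) : IsCoprime (colPair N σ).1 (colPair N σ).2 := by
  have h := σ.2
  rw [Matrix.det_fin_two] at h
  refine ⟨(σ 1 1 : ZMod N), -(σ 0 1 : ZMod N), ?_⟩
  have h' := congrArg (fun z : ℤ => (z : ZMod N)) h
  push_cast at h'
  simp only [colPair]
  linear_combination h'

omit [NeZero N] in
theorem colPair_mul (g σ : SL2Z) : colPair N (g * σ) =
    ((g 0 0 : ZMod N) * (colPair N σ).1 + (g 0 1 : ZMod N) * (colPair N σ).2,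
     (g 1 0 : ZMod N) * (colPair N σ).1 + (g 1 1 : ZMod N) * (colPair N σ).2) := by
  simp [colPair, Matrix.SpecialLinearGroup.coe_mul, Matrix.mul_apply, Fin.sum_univ_two]

omit [NeZero N] in
theorem coset_eq_iff (σ σ' : SL2Z) :
    (σ : SL2Z ⧸ Gamma0 N) = (σ' : SL2Z ⧸ Gamma0 N) ↔
      ∃ u : (ZMod N)ˣ, colPair N σ' = ((u : ZMod N) * (colPair N σ).1, (u : ZMod N) * (colPair N σ).2) := by
  rw [QuotientGroup.eq, Gamma0_mem]
  constructor
  · intro h
    set γ : SL2Z := σ⁻¹ * σ' with hγ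
    have hdet := γ.2
    rw [Matrix.det_fin_two] at hdet
    have hdet' := congrArg (fun z : ℤ => (z : ZMod N)) hdet
    push_cast at hdet'
    rw [h, mul_zero, sub_zero] at hdet'
    refine ⟨Units.mkOfMulEqOne _ _ hdet', ?_⟩
    rw [show σ' = σ * γ by rw [hγ, mul_inv_cancel_left], colPair_mul]
    simp [colPair, h, mul_comm]
  · rintro ⟨u, hu⟩
    simp only [colPair, Prod.mk.injEq] at hu
    simp [Matrix.SpecialLinearGroup.coe_mul, Matrix.SpecialLinearGroup.coe_inv,
      Matrix.adjugate_fin_two, Matrix.mul_apply, Fin.sum_univ_two]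
    linear_combination -(σ 1 0 : ZMod N) * hu.1 + (σ 0 0 : ZMod N) * hu.2

theorem exists_colPair_eq {a c : ZMod N} (h : IsCoprime a c) :
    ∃ σ : SL2Z, colPair N σ = (a, c) := by
  obtain ⟨x, y, hxy⟩ := h
  set C : ℕ := c.val + N with hC
  have hNpos : 0 < N := Nat.pos_of_ne_zero (NeZero.ne N)
  have hcast : (C : ZMod N) = c := by simp [hC, ZMod.natCast_val]
  set t : ℕ := ∏ p ∈ C.primeFactors.filter (fun p => ¬ p ∣ a.val), p with ht
  have hcop : Nat.Coprime (a.val + t * N) C := by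
    rw [Nat.coprime_iff_gcd_eq_one]
    by_contra hne
    obtain ⟨p, hp, hdvd⟩ := Nat.exists_prime_and_dvd hne
    have hp1 : p ∣ a.val + t * N := hdvd.trans (Nat.gcd_dvd_left _ _)
    have hp2 : p ∣ C := hdvd.trans (Nat.gcd_dvd_right _ _)
    by_cases hpa : p ∣ a.val
    · have hpN : ¬ p ∣ N := by
        intro hpN
        have hpc : p ∣ c.val := by rw [hC] at hp2; exact (Nat.dvd_add_left hpN).mp hp2
        have : Fact p.Prime := ⟨hp⟩
        have h1 := congrArg (ZMod.castHom hpN (ZMod p)) hxy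
        rw [map_add, map_mul, map_mul, map_one, ← ZMod.natCast_zmod_val a,
          ← ZMod.natCast_zmod_val c, map_natCast, map_natCast,
          (ZMod.natCast_eq_zero_iff _ _).mpr hpa, (ZMod.natCast_eq_zero_iff _ _).mpr hpc,
          mul_zero, mul_zero, add_zero] at h1
        exact zero_ne_one h1
      have hpt : ¬ p ∣ t := by
        rw [ht, hp.prime.dvd_finsetProd_iff]
        rintro ⟨q, hq, hpq⟩
        rw [Finset.mem_filter, Nat.mem_primeFactors] at hq
        have : p = q := (Nat.prime_dvd_prime_iff_eq hp hq.1.1).mp hpq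
        exact hq.2 (this ▸ hpa)
      have := (Nat.dvd_add_right hpa).mp hp1
      exact (hp.dvd_mul.mp this).elim hpt hpN
    · have hpt : p ∣ t := Finset.dvd_prod_of_mem _ (Finset.mem_filter.mpr
        ⟨Nat.mem_primeFactors.mpr ⟨hp, hp2, by omega⟩, hpa⟩)
      exact hpa ((Nat.dvd_add_left (hpt.mul_right N)).mp hp1)
  obtain ⟨u, v, huv⟩ := Int.isCoprime_iff_gcd_eq_one.mpr
    (show Int.gcd ((a.val + t * N : ℕ) : ℤ) (C : ℤ) = 1 from hcop)
  refine ⟨⟨!![((a.val + t * N : ℕ) : ℤ), -v; (C : ℤ), u], by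
    rw [Matrix.det_fin_two_of]; linear_combination huv⟩, ?_⟩
  simp [colPair, hcast, ZMod.natCast_val]

/-- Primitive pairs. -/
abbrev PrimPair (N : ℕ) : Type := {p : ZMod N × ZMod N // IsCoprime p.1 p.2}

/-- Coset times unit gives exactly a primitive pair. -/
def pairEquiv : (SL2Z ⧸ Gamma0 N) × (ZMod N)ˣ ≃ PrimPair N := by
  refine Equiv.ofBijective (fun q => ⟨((q.2 : ZMod N) * (colPair N q.1.out).1,
    (q.2 : ZMod N) * (colPair N q.1.out).2), ?_⟩) ⟨?_, ?_⟩
  · exact (isCoprime_mul_unit_left q.2.isUnit _ _).mpr (colPair_coprime N _)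
  · rintro ⟨x, u⟩ ⟨y, v⟩ h
    simp only [Subtype.mk.injEq, Prod.mk.injEq] at h
    have hxy : x = y := by
      rw [← QuotientGroup.out_eq' x, ← QuotientGroup.out_eq' y, coset_eq_iff]
      refine ⟨v⁻¹ * u, ?_⟩
      apply Prod.ext
      · simp only [Units.val_mul]
        rw [mul_assoc, h.1, Units.inv_mul_cancel_left]
      · simp only [Units.val_mul]
        rw [mul_assoc, h.2, Units.inv_mul_cancel_left]
    subst hxy
    obtain ⟨p, q, hpq⟩ := colPair_coprime N x.out
    refine Prod.ext rfl (Units.ext ?_)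
    linear_combination p * h.1 + q * h.2 - ((u : ZMod N) - v) * hpq
  · rintro ⟨⟨a, c⟩, h⟩
    obtain ⟨σ, hσ⟩ := exists_colPair_eq N h
    obtain ⟨u, hu⟩ := (coset_eq_iff N (σ : SL2Z ⧸ Gamma0 N).out σ).mp (QuotientGroup.out_eq' _)
    exact ⟨(σ, u), Subtype.ext (hu.symm.trans hσ)⟩

theorem card_primPair :
    Nat.card (PrimPair N) = Nat.card (SL2Z ⧸ Gamma0 N) * Nat.totient N := by
  rw [← Nat.card_congr (pairEquiv N), Nat.card_prod, Nat.card_eq_fintype_card (α := (ZMod N)ˣ),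
    ZMod.card_units_eq_totient]

omit [NeZero N] in
theorem card_primPair_mul {m n : ℕ} (h : Nat.Coprime m n) :
    Nat.card (PrimPair (m * n)) = Nat.card (PrimPair m) * Nat.card (PrimPair n) := by
  rw [← Nat.card_prod]
  set e := ZMod.chineseRemainder h
  have key : ∀ a c : ZMod (m * n), IsCoprime a c ↔
      IsCoprime (e a).1 (e c).1 ∧ IsCoprime (e a).2 (e c).2 := by
    intro a c
    constructor
    · exact fun h => ⟨h.map ((RingHom.fst _ _).comp e.toRingHom), h.map ((RingHom.snd _ _).comp e.toRingHom)⟩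
    · rintro ⟨⟨x, y, hxy⟩, x', y', hxy'⟩
      refine ⟨e.symm (x, x'), e.symm (y, y'), e.injective ?_⟩
      rw [map_add, map_mul, map_mul, e.apply_symm_apply, e.apply_symm_apply, map_one]
      exact Prod.ext hxy hxy'
  exact Nat.card_congr
    { toFun := fun p => (⟨((e p.1.1).1, (e p.1.2).1), ((key _ _).mp p.2).1⟩,
        ⟨((e p.1.1).2, (e p.1.2).2), ((key _ _).mp p.2).2⟩)
      invFun := fun q => ⟨(e.symm (q.1.1.1, q.2.1.1), e.symm (q.1.1.2, q.2.1.2)),
        (key _ _).mpr (by simp only [e.apply_symm_apply]; exact ⟨q.1.2, q.2.2⟩)⟩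
      left_inv := fun p => Subtype.ext (Prod.ext (e.symm_apply_apply _) (e.symm_apply_apply _))
      right_inv := fun q => by simp }

omit [NeZero N] in
theorem card_primPair_prime_pow {p : ℕ} (hp : p.Prime) (k : ℕ) :
    Nat.card (PrimPair (p ^ (k + 1))) + (p ^ k) ^ 2 = (p ^ (k + 1)) ^ 2 := by
  have : NeZero (p ^ (k + 1)) := ⟨pow_ne_zero _ hp.ne_zero⟩
  classical
  have hnu : Nat.card {a : ZMod (p ^ (k + 1)) // ¬ IsUnit a} = p ^ k := by
    have h1 : Nat.card {a : ZMod (p ^ (k + 1)) // IsUnit a} = p ^ k * (p - 1) := by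
      rw [← Nat.totient_prime_pow_succ hp, ← ZMod.card_units_eq_totient, ← Nat.card_eq_fintype_card]
      exact Nat.card_congr ((Equiv.subtypeEquivRight fun _ => Iff.rfl).trans
        (Equiv.ofBijective (fun a : {a : ZMod (p ^ (k + 1)) // IsUnit a} => a.2.unit)
          ⟨fun a b h => Subtype.ext (by simpa using congrArg (Units.val) h),
            fun u => ⟨⟨u, u.isUnit⟩, Units.ext rfl⟩⟩))
    have h2 : Nat.card {a : ZMod (p ^ (k + 1)) // IsUnit a} +
        Nat.card {a : ZMod (p ^ (k + 1)) // ¬ IsUnit a} = p ^ (k + 1) := by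
      rw [← Nat.card_sum, Nat.card_congr (Equiv.sumCompl _), Nat.card_zmod]
    obtain ⟨q, rfl⟩ : ∃ q, p = q + 1 := ⟨p - 1, by have := hp.pos; omega⟩
    have hq : q + 1 - 1 = q := Nat.add_sub_cancel q 1
    rw [h1, hq, pow_succ] at h2
    rw [mul_add _ q 1, mul_one] at h2
    exact Nat.add_left_cancel h2
  have hloc : ∀ a c : ZMod (p ^ (k + 1)), IsCoprime a c ↔ ¬ (¬ IsUnit a ∧ ¬ IsUnit c) := by
    intro a c
    have hunit : ∀ z : ZMod (p ^ (k + 1)), ¬ IsUnit z → (p : ZMod (p ^ (k + 1))) ∣ z := by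
      intro z hz
      rw [← ZMod.natCast_zmod_val z, ZMod.isUnit_iff_coprime, Nat.coprime_pow_right_iff (Nat.succ_pos k)] at hz
      have hdvd : p ∣ z.val := by
        by_contra h
        exact hz ((hp.coprime_iff_not_dvd.mpr h).symm)
      rw [← ZMod.natCast_zmod_val z]
      exact_mod_cast map_dvd (Nat.castRingHom (ZMod (p ^ (k + 1)))) hdvd
    constructor
    · rintro hcop ⟨ha, hc⟩
      have hu := hcop.isUnit_of_dvd' (hunit a ha) (hunit c hc)
      rw [ZMod.isUnit_iff_coprime, Nat.coprime_pow_right_iff (Nat.succ_pos k),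
        Nat.coprime_self] at hu
      exact hp.one_lt.ne' hu
    · intro h
      by_cases ha : IsUnit a
      · exact ⟨((ha.unit⁻¹ : (ZMod (p ^ (k + 1)))ˣ) : ZMod (p ^ (k + 1))), 0, by simp⟩
      · have hc := not_not.mp fun hc => h ⟨ha, hc⟩
        exact ⟨0, ((hc.unit⁻¹ : (ZMod (p ^ (k + 1)))ˣ) : ZMod (p ^ (k + 1))), by simp⟩
  have hsplit : Nat.card (PrimPair (p ^ (k + 1))) +
      Nat.card {q : ZMod (p ^ (k + 1)) × ZMod (p ^ (k + 1)) // ¬ IsUnit q.1 ∧ ¬ IsUnit q.2} =
        (p ^ (k + 1)) ^ 2 := by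
    let ee : PrimPair (p ^ (k + 1)) ≃ {q : ZMod (p ^ (k + 1)) × ZMod (p ^ (k + 1)) //
        ¬ (¬ IsUnit q.1 ∧ ¬ IsUnit q.2)} := Equiv.subtypeEquivRight fun q => hloc q.1 q.2
    rw [← Nat.card_sum, Nat.card_congr (((Equiv.sumCongr ee (Equiv.refl _)).trans
      (Equiv.sumComm _ _)).trans (Equiv.sumCompl _)), Nat.card_prod, Nat.card_zmod, sq]
  have hprod : Nat.card {q : ZMod (p ^ (k + 1)) × ZMod (p ^ (k + 1)) // ¬ IsUnit q.1 ∧ ¬ IsUnit q.2}
      = (p ^ k) ^ 2 := by
    rw [Nat.card_congr (Equiv.subtypeProdEquivProd (p := fun a : ZMod (p ^ (k + 1)) => ¬ IsUnit a)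
      (q := fun a : ZMod (p ^ (k + 1)) => ¬ IsUnit a)), Nat.card_prod, hnu, sq]
  omega

omit [NeZero N] in
theorem card_primPair_formula (hN : N ≠ 0) :
    (Nat.card (PrimPair N) : ℚ) = (N : ℚ) ^ 2 * ∏ p ∈ N.primeFactors, (1 - ((p : ℚ) ^ 2)⁻¹) := by
  induction N using Nat.recOnPosPrimePosCoprime with
  | zero => exact absurd rfl hN
  | one =>
    have : Unique (PrimPair 1) :=
      { default := ⟨(0, 0), ⟨0, 0, Subsingleton.elim _ _⟩⟩
        uniq := fun q => Subtype.ext (Subsingleton.elim _ _) }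
    simp
  | prime_pow p n hp hn =>
    obtain ⟨k, rfl⟩ : ∃ k, n = k + 1 := ⟨n - 1, by omega⟩
    have h := card_primPair_prime_pow hp k
    have h' : (Nat.card (PrimPair (p ^ (k + 1))) : ℚ) + ((p : ℚ) ^ k) ^ 2 = ((p : ℚ) ^ (k + 1)) ^ 2 := by
      exact_mod_cast h
    rw [Nat.primeFactors_prime_pow (Nat.succ_ne_zero k) hp, Finset.prod_singleton]
    have : (p : ℚ) ≠ 0 := by exact_mod_cast hp.ne_zero
    push_cast
    field_simp
    linear_combination (p : ℚ) ^ 2 * h'
  | coprime a b ha hb hab iha ihb =>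
    rw [card_primPair_mul hab, Nat.cast_mul, iha (by omega), ihb (by omega),
      hab.primeFactors_mul, Finset.prod_union hab.disjoint_primeFactors, Nat.cast_mul]
    ring

omit [NeZero N] in
theorem dedekindPsi_eq (hN : N ≠ 0) :
    (ModularCurve.dedekindPsi N : ℚ) = (N : ℚ) * ∏ p ∈ N.primeFactors, (1 + (p : ℚ)⁻¹) := by
  rw [ModularCurve.dedekindPsi, Nat.cast_sum, Finset.prod_one_add, Finset.mul_sum,
    Nat.sum_divisors_filter_squarefree hN]
  rw [Nat.factors_eq, show (N.primeFactorsList : Multiset ℕ).toFinset = N.primeFactors from rfl]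
  refine Finset.sum_congr rfl fun s hs => ?_
  rw [Finset.mem_powerset] at hs
  have hdvd : s.val.prod ∣ N := by
    have : (∏ p ∈ s, p) ∣ ∏ p ∈ N.primeFactors, p := Finset.prod_dvd_prod_of_subset _ _ _ hs
    rw [Finset.prod_eq_multiset_prod, Multiset.map_id'] at this
    exact this.trans (Nat.prod_primeFactors_dvd N)
  have hval : s.val.prod = ∏ p ∈ s, p := by
    rw [Finset.prod_eq_multiset_prod, Multiset.map_id']
  have hne : ((∏ p ∈ s, p : ℕ) : ℚ) ≠ 0 :=
    Nat.cast_ne_zero.mpr (Finset.prod_ne_zero_iff.mpr fun p hp =>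
      (Nat.pos_of_mem_primeFactors (hs hp)).ne')
  rw [Nat.cast_div hdvd (by rwa [hval]), Finset.prod_inv_distrib, div_eq_mul_inv, hval, Nat.cast_prod]

/-- The index of Γ₀(N). -/
theorem card_cosets_eq_psi : Nat.card (SL2Z ⧸ Gamma0 N) = ModularCurve.dedekindPsi N := by
  have hN : (N : ℕ) ≠ 0 := NeZero.ne N
  have hφ : (Nat.totient N : ℚ) ≠ 0 := by
    exact_mod_cast (Nat.totient_pos.mpr (Nat.pos_of_ne_zero hN)).ne'
  have h1 : ((Nat.card (SL2Z ⧸ Gamma0 N) : ℚ)) * Nat.totient N =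
      (ModularCurve.dedekindPsi N : ℚ) * Nat.totient N := by
    rw [← Nat.cast_mul, ← card_primPair, card_primPair_formula N hN, dedekindPsi_eq N hN,
      Nat.totient_eq_mul_prod_factors, mul_mul_mul_comm, ← Finset.prod_mul_distrib, sq]
    congr 1
    refine Finset.prod_congr rfl fun p _ => ?_
    rw [← inv_pow]
    ring
  exact_mod_cast mul_right_cancel₀ hφ h1

omit [NeZero N] in
theorem colPair_smul (g : SL2Z) (x : SL2Z ⧸ Gamma0 N) :
    g • x = x ↔ ∃ u : (ZMod N)ˣ,
      (g 0 0 : ZMod N) * (colPair N x.out).1 + (g 0 1 : ZMod N) * (colPair N x.out).2 =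
          (u : ZMod N) * (colPair N x.out).1 ∧
      (g 1 0 : ZMod N) * (colPair N x.out).1 + (g 1 1 : ZMod N) * (colPair N x.out).2 =
          (u : ZMod N) * (colPair N x.out).2 := by
  conv_lhs => rw [← QuotientGroup.out_eq' x, MulAction.Quotient.smul_coe, smul_eq_mul]
  rw [eq_comm, coset_eq_iff, colPair_mul]
  simp only [Prod.mk.injEq]

/-- Lower unipotent. -/
def lowerUni (x : ZMod N) : SL2Z :=
  ⟨!![1, 0; (x.val : ℤ), 1], by rw [Matrix.det_fin_two_of]; ring⟩

theorem colPair_lowerUni (x : ZMod N) : colPair N (lowerUni N x) = (1, x) := by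
  simp [colPair, lowerUni]

theorem lowerUni_out (x : ZMod N) : ∃ u : (ZMod N)ˣ,
    colPair N ((lowerUni N x : SL2Z) : SL2Z ⧸ Gamma0 N).out = ((u : ZMod N), (u : ZMod N) * x) := by
  obtain ⟨u, hu⟩ := (coset_eq_iff N (lowerUni N x) _).mp
    (QuotientGroup.out_eq' ((lowerUni N x : SL2Z) : SL2Z ⧸ Gamma0 N)).symm
  exact ⟨u, by rw [hu, colPair_lowerUni]; simp⟩

theorem lowerUni_inj {x y : ZMod N}
    (h : (lowerUni N x : SL2Z ⧸ Gamma0 N) = (lowerUni N y : SL2Z ⧸ Gamma0 N)) : x = y := by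
  obtain ⟨u, hu⟩ := (coset_eq_iff N _ _).mp h
  rw [colPair_lowerUni, colPair_lowerUni] at hu
  simp only [Prod.mk.injEq, mul_one] at hu
  rw [hu.2, ← hu.1, one_mul]

theorem eq_lowerUni {z : SL2Z ⧸ Gamma0 N} (v : (ZMod N)ˣ) (x : ZMod N)
    (h : colPair N z.out = ((v : ZMod N), (v : ZMod N) * x)) :
    (lowerUni N x : SL2Z ⧸ Gamma0 N) = z := by
  rw [← QuotientGroup.out_eq' z, coset_eq_iff]
  exact ⟨v, by rw [h, colPair_lowerUni]; simp⟩

theorem card_fixed_S :
    Nat.card {x : SL2Z ⧸ Gamma0 N // ModularGroup.S • x = x} = ModularCurve.nuTwo N := by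
  refine (Nat.card_congr (Equiv.ofBijective (fun x : {x : ZMod N // x ^ 2 + 1 = 0} =>
    (⟨(lowerUni N x.1 : SL2Z ⧸ Gamma0 N), ?_⟩ :
      {x : SL2Z ⧸ Gamma0 N // ModularGroup.S • x = x})) ⟨?_, ?_⟩)).symm
  · obtain ⟨v, hv⟩ := lowerUni_out N x.1
    rw [colPair_smul]
    have hx : IsUnit (-x.1) := IsUnit.of_mul_eq_one x.1 (by linear_combination -x.2)
    refine ⟨hx.unit, ?_⟩
    simp only [hv, IsUnit.unit_spec, ModularGroup.coe_S]
    simp
    exact ⟨by ring, by linear_combination (v : ZMod N) * x.2⟩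
  · exact fun a b h => Subtype.ext (lowerUni_inj N (congrArg Subtype.val h))
  · rintro ⟨z, hz⟩
    obtain ⟨u, h1, h2⟩ := (colPair_smul N ModularGroup.S z).mp hz
    obtain ⟨p, q, hpq⟩ := colPair_coprime N z.out
    simp only [ModularGroup.coe_S] at h1 h2
    simp at h1 h2
    set a := (colPair N z.out).1
    set c := (colPair N z.out).2
    have hc : c = -(u : ZMod N) * a := by linear_combination -h1
    have ha : IsUnit a := IsUnit.of_mul_eq_one (p - q * u) (by
      linear_combination hpq - q * hc)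
    have hu : (u : ZMod N) ^ 2 + 1 = 0 := by
      refine ha.mul_right_eq_zero.mp (?_ : a * ((u : ZMod N) ^ 2 + 1) = 0)
      linear_combination h2 + (u : ZMod N) * hc
    refine ⟨⟨-(u : ZMod N), by linear_combination hu⟩, Subtype.ext ?_⟩
    refine eq_lowerUni N ha.unit _ (Prod.ext ?_ ?_)
    · rfl
    · show c = a * -(u : ZMod N)
      linear_combination hc

theorem card_fixed_ST :
    Nat.card {x : SL2Z ⧸ Gamma0 N // (ModularGroup.S * ModularGroup.T) • x = x} =
      ModularCurve.nuThree N := by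
  refine (Nat.card_congr (Equiv.ofBijective (fun x : {x : ZMod N // x ^ 2 + x + 1 = 0} =>
    (⟨(lowerUni N x.1 : SL2Z ⧸ Gamma0 N), ?_⟩ :
      {x : SL2Z ⧸ Gamma0 N // (ModularGroup.S * ModularGroup.T) • x = x})) ⟨?_, ?_⟩)).symm
  · obtain ⟨v, hv⟩ := lowerUni_out N x.1
    rw [colPair_smul]
    have hx : IsUnit (-x.1) := IsUnit.of_mul_eq_one (x.1 + 1) (by linear_combination -x.2)
    refine ⟨hx.unit, ?_⟩
    simp only [hv, IsUnit.unit_spec, Matrix.SpecialLinearGroup.coe_mul, ModularGroup.coe_S,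
      ModularGroup.coe_T]
    simp
    exact ⟨by ring, by linear_combination (v : ZMod N) * x.2⟩
  · exact fun a b h => Subtype.ext (lowerUni_inj N (congrArg Subtype.val h))
  · rintro ⟨z, hz⟩
    obtain ⟨u, h1, h2⟩ := (colPair_smul N (ModularGroup.S * ModularGroup.T) z).mp hz
    obtain ⟨p, q, hpq⟩ := colPair_coprime N z.out
    simp only [Matrix.SpecialLinearGroup.coe_mul, ModularGroup.coe_S, ModularGroup.coe_T] at h1 h2
    simp at h1 h2
    set a := (colPair N z.out).1
    set c := (colPair N z.out).2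
    have hc : c = -(u : ZMod N) * a := by linear_combination -h1
    have ha : IsUnit a := IsUnit.of_mul_eq_one (p - q * u) (by
      linear_combination hpq - q * hc)
    have hu : (u : ZMod N) ^ 2 - u + 1 = 0 := by
      refine ha.mul_right_eq_zero.mp (?_ : a * ((u : ZMod N) ^ 2 - u + 1) = 0)
      linear_combination h2 + ((u : ZMod N) - 1) * hc
    refine ⟨⟨-(u : ZMod N), by linear_combination hu⟩, Subtype.ext ?_⟩
    refine eq_lowerUni N ha.unit _ (Prod.ext ?_ ?_)
    · rfl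
    · show c = a * -(u : ZMod N)
      linear_combination hc

end FLTAgent.ES
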