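import Mathlib
import Fermat.Agent.ES.Basic

/-!
Holomorphic periodic functions on the upper half plane: primitives, limits, maximum principle.
-/

set_option autoImplicit false

noncomputable section

open UpperHalfPlane Filter Topology Complex Function
open scoped MatrixGroups ModularForm Manifold

namespace FLTAgent.ES

local notation "SL2Z" => Matrix.SpecialLinearGroup (Fin 2) ℤ

theorem isPreconnected_Hset : IsPreconnected {z : ℂ | 0 < Complex.im z} :=
  (Complex.isConnected_of_upperHalfPlane (r := 0) subset_rfl (fun z hz => by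
    simp only [Set.mem_ofPred_eq] at hz ⊢; exact hz.le)).isPreconnected

/-- Two functions on the upper half plane with the same derivative differ by a constant. -/
theorem exists_const_of_hasDerivAt {F G g : ℍ → ℂ}
    (hF : ∀ τ : ℍ, HasDerivAt (F ∘ ofComplex) (g τ) ↑τ)
    (hG : ∀ τ : ℍ, HasDerivAt (G ∘ ofComplex) (g τ) ↑τ) : ∃ c : ℂ, ∀ τ, F τ - G τ = c := by
  have hd : ∀ τ : ℍ, HasDerivAt ((F ∘ ofComplex) - (G ∘ ofComplex)) 0 ↑τ := fun τ => by
    simpa using (hF τ).sub (hG τ)
  refine ⟨F UpperHalfPlane.I - G UpperHalfPlane.I, fun τ => ?_⟩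
  have h := isOpen_upperHalfPlaneSet.is_const_of_deriv_eq_zero isPreconnected_Hset
    (f := (F ∘ ofComplex) - (G ∘ ofComplex))
    (fun z hz => (hd ⟨z, hz⟩).differentiableAt.differentiableWithinAt)
    (fun z hz => (hd ⟨z, hz⟩).deriv) τ.im_pos UpperHalfPlane.I.im_pos
  simpa only [Pi.sub_apply, comp_apply, ofComplex_apply] using h

/-- A periodic bounded holomorphic function tends to the value of its cusp function at zero. -/
theorem tendsto_of_periodic {h : ℝ} (hh : 0 < h) {g : ℍ → ℂ}
    (hper : Periodic (g ∘ ofComplex) h) (hhol : MDiff g) (hb : IsBoundedAtImInfty g) :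
    Tendsto g atImInfty (𝓝 (UpperHalfPlane.cuspFunction h g 0)) := by
  have hc := (analyticAt_cuspFunction_zero hh hper hhol hb).continuousAt.tendsto.comp
    (qParam_tendsto_atImInfty hh)
  exact hc.congr fun τ => eq_cuspFunction τ hh.ne' hper

/-- Primitive of a periodic holomorphic function vanishing at infinity. -/
theorem exists_primitive {h : ℝ} (hh : 0 < h) {g : ℍ → ℂ}
    (hper : Periodic (g ∘ ofComplex) h) (hhol : MDiff g) (hz : IsZeroAtImInfty g) :
    ∃ P : ℍ → ℂ, (∀ τ : ℍ, HasDerivAt (P ∘ ofComplex) (g τ) ↑τ) ∧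
      Tendsto P atImInfty (𝓝 0) := by
  set Φ := UpperHalfPlane.cuspFunction h g with hΦ
  have hd : DifferentiableOn ℂ Φ (Metric.ball 0 1) :=
    differentiableOn_cuspFunction_ball hh hper hhol hz.isBoundedAtImInfty
  have h0 : Φ 0 = 0 := UpperHalfPlane.IsZeroAtImInfty.cuspFunction_apply_zero hz hh
  set Ψ := dslope Φ 0 with hΨ
  have hdΨ : DifferentiableOn ℂ Ψ (Metric.ball 0 1) :=
    (Complex.differentiableOn_dslope (Metric.ball_mem_nhds _ one_pos)).mpr hd
  have hfac : ∀ q, Φ q = q * Ψ q := by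
    intro q
    rcases eq_or_ne q 0 with rfl | hq
    · simp [h0]
    · rw [hΨ, dslope_of_ne _ hq, slope_def_field, h0, sub_zero, sub_zero, mul_div_cancel₀ _ hq]
  obtain ⟨Pi0, hPi⟩ := hdΨ.isExactOn_ball
  set C : ℂ := 2 * Real.pi * Complex.I / h with hC
  have hC0 : C ≠ 0 := by
    simp [hC, Real.pi_ne_zero, hh.ne']
  have hball : ∀ τ : ℍ, Periodic.qParam h (τ : ℂ) ∈ Metric.ball (0 : ℂ) 1 := fun τ =>
    mem_ball_zero_iff.mpr (Periodic.norm_qParam_lt_one hh τ.im_pos)
  refine ⟨fun τ => C⁻¹ * (Pi0 (Periodic.qParam h (τ : ℂ)) - Pi0 0), fun τ => ?_, ?_⟩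
  · have hq : HasDerivAt (Periodic.qParam h) (Periodic.qParam h (τ : ℂ) * C) (τ : ℂ) := by
      have h1 : HasDerivAt (fun z : ℂ => 2 * Real.pi * Complex.I * z / h) C (τ : ℂ) := by
        simpa [hC, mul_one] using ((hasDerivAt_id (τ : ℂ)).const_mul
          (2 * Real.pi * Complex.I)).div_const (h : ℂ)
      exact h1.cexp
    have hcomp := (((hPi _ (hball τ)).comp (τ : ℂ) hq).sub_const (Pi0 0)).const_mul C⁻¹
    have hval : C⁻¹ * (Ψ (Periodic.qParam h (τ : ℂ)) * (Periodic.qParam h (τ : ℂ) * C)) = g τ := by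
      rw [← eq_cuspFunction τ hh.ne' hper, ← hΦ, hfac]
      field_simp
    rw [hval] at hcomp
    refine hcomp.congr_of_eventuallyEq ?_
    filter_upwards [isOpen_upperHalfPlaneSet.mem_nhds τ.im_pos] with w hw
    simp [ofComplex_apply_of_im_pos hw]
  · have hcont : ContinuousAt Pi0 0 := (hPi 0 (Metric.mem_ball_self one_pos)).continuousAt
    have := ((hcont.tendsto.comp (qParam_tendsto_atImInfty hh)).sub_const (Pi0 0)).const_mul C⁻¹
    simpa using this

/-- If a periodic holomorphic function never exceeds in norm its limit at infinity,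
it is constant. -/
theorem const_of_norm_le_limit {h : ℝ} (hh : 0 < h) {g : ℍ → ℂ}
    (hper : Periodic (g ∘ ofComplex) h) (hhol : MDiff g) {L : ℂ}
    (hL : Tendsto g atImInfty (𝓝 L)) (hle : ∀ τ, ‖g τ‖ ≤ ‖L‖) : ∀ τ, g τ = L := by
  have hb : IsBoundedAtImInfty g := hL.isBigO_one ℝ
  have h0 : UpperHalfPlane.cuspFunction h g 0 = L :=
    tendsto_nhds_unique (tendsto_of_periodic hh hper hhol hb) hL
  have hd := differentiableOn_cuspFunction_ball hh hper hhol hb
  have hmax : IsMaxOn (norm ∘ UpperHalfPlane.cuspFunction h g) (Metric.ball 0 1) 0 := by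
    intro q hq
    simp only [Set.mem_ofPred_eq, comp_apply, h0]
    rcases eq_or_ne q 0 with rfl | hq0
    · rw [h0]
    · have hpos := Periodic.im_invQParam_pos_of_norm_lt_one hh (mem_ball_zero_iff.mp hq) hq0
      have h1 := eq_cuspFunction ⟨_, hpos⟩ hh.ne' hper
      simp only [Periodic.qParam_right_inv hh.ne' hq0] at h1
      rw [h1]
      exact hle _
  have := Complex.eqOn_of_isPreconnected_of_isMaxOn_norm (convex_ball (0 : ℂ) 1).isPreconnected
    Metric.isOpen_ball hd (Metric.mem_ball_self one_pos) hmax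
  intro τ
  have h2 := this (mem_ball_zero_iff.mpr (Periodic.norm_qParam_lt_one hh τ.im_pos))
  simp only [Function.const_apply, h0] at h2
  rwa [eq_cuspFunction τ hh.ne' hper] at h2

end FLTAgent.ES
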