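import Mathlib
import Fermat.Prelude.Def_ModularCurve_PeriodHomPair
import Fermat.Agent.ES.Basic
import Fermat.Agent.ES.Periodic

/-!
Equivariant primitives of weight two cusp forms, linearity of the period map, parabolicity,
and injectivity of the pair map.
-/

set_option autoImplicit false

noncomputable section

open UpperHalfPlane Filter Topology Complex Function CongruenceSubgroup
open scoped MatrixGroups ModularForm Manifold ComplexConjugate

namespace FLTAgent.ES

local notation "SL2Z" => Matrix.SpecialLinearGroup (Fin 2) ℤ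

theorem cuspForm_mem {Γ : Subgroup SL2Z} [Γ.FiniteIndex] {k : ℤ} (f : CuspForm Γ k) :
    (⇑f : ℍ → ℂ) ∈ forms Γ k :=
  forms_of_modularForm f (fun γ hγ => ⟨γ, hγ, rfl⟩)

theorem hasDerivAt_smulSL (σ : SL2Z) (τ : ℍ) :
    HasDerivAt (fun w => ((σ • ofComplex w : ℍ) : ℂ)) ((denom σ (τ : ℂ)) ^ (-2 : ℤ)) ↑τ := by
  have hdet : (σ : GL (Fin 2) ℝ).val.det = 1 := by
    rw [← Matrix.GeneralLinearGroup.val_det_apply]; simp
  have hg : 0 < (σ : GL (Fin 2) ℝ).val.det := by rw [hdet]; exact one_pos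
  have h := (hasStrictDerivAt_smul hg τ).hasDerivAt
  refine h.congr_deriv ?_
  rw [hdet, ofReal_one, zpow_neg, one_div, ← zpow_natCast]
  rfl

/-- Change of variables for primitives. -/
theorem hasDerivAt_comp_smul {F f : ℍ → ℂ} (hF : ∀ τ : ℍ, HasDerivAt (F ∘ ofComplex) (f τ) ↑τ)
    (σ : SL2Z) (τ : ℍ) :
    HasDerivAt ((fun w => F (σ • w)) ∘ ofComplex) ((f ∣[(2 : ℤ)] σ) τ) ↑τ := by
  have h2 := hasDerivAt_smulSL σ τ
  have h := (hF (σ • τ)).comp_of_eq (τ : ℂ) h2 (by simp [ofComplex_apply])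
  rw [ModularForm.SL_slash_apply]
  refine h.congr_of_eventuallyEq ?_
  filter_upwards [isOpen_upperHalfPlaneSet.mem_nhds τ.im_pos] with w _
  simp [ofComplex_apply]

/-- The translate by an integer. -/
theorem coe_T_pow_smul (n : ℕ) (τ : ℍ) :
    ((ModularGroup.T ^ n • τ : ℍ) : ℂ) = (τ : ℂ) + n := by
  rw [← zpow_natCast, modular_T_zpow_smul, coe_vadd]
  push_cast
  ring

variable {N : ℕ} [NeZero N]

omit [NeZero N] in
theorem Gamma0_neg_one_mem : (-1 : SL2Z) ∈ Gamma0 N := by
  simp [Gamma0_mem]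

theorem slash_T_period {k : ℤ} {Γ : Subgroup SL2Z} [Γ.FiniteIndex] {f : ℍ → ℂ}
    (hf : f ∈ forms Γ k) (σ : SL2Z) :
    (f ∣[k] σ) ∣[k] (ModularGroup.T ^ globalPeriod Γ) = f ∣[k] σ := by
  have h1 : f ∣[k] σ = cosetSlash k f ((σ⁻¹ : SL2Z) : SL2Z ⧸ Γ) := by
    rw [cosetSlash_mk hf, inv_inv]
  rw [h1, cosetSlash_slash hf]
  congr 1
  rw [inv_smul_eq_iff, T_pow_globalPeriod_smul]

theorem periodic_slash {k : ℤ} {Γ : Subgroup SL2Z} [Γ.FiniteIndex] {f : ℍ → ℂ}
    (hf : f ∈ forms Γ k) (σ : SL2Z) :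
    Periodic ((f ∣[k] σ) ∘ ofComplex) (globalPeriod Γ : ℝ) :=
  periodic_of_slash_T_pow (slash_T_period hf σ)

theorem exists_hasEquivariantPrimitive (f : CuspForm (Gamma0 N) 2) :
    ∃ F, ModularCurve.HasEquivariantPrimitive N f F := by
  have hf := cuspForm_mem f
  have hn : (0 : ℝ) < globalPeriod (Gamma0 N) := by exact_mod_cast globalPeriod_pos
  have hprim : ∀ σ : SL2Z, ∃ P : ℍ → ℂ,
      (∀ τ : ℍ, HasDerivAt (P ∘ ofComplex) (((⇑f : ℍ → ℂ) ∣[(2 : ℤ)] σ) τ) ↑τ) ∧
        Tendsto P atImInfty (𝓝 0) := fun σ =>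
    exists_primitive hn (periodic_slash hf σ) (mdiff_slash_SL hf.2.1 σ)
      (CuspFormClass.zero_at_infty_slash f σ)
  obtain ⟨F, hF, hF0⟩ := hprim 1
  simp only [SlashAction.slash_one] at hF
  refine ⟨F, hF, hF0, fun γ => ?_, fun δ => ?_⟩
  · refine exists_const_of_hasDerivAt (g := ⇑f) (fun τ => ?_) hF
    exact (congrFun (hf.1 _ γ.2) τ) ▸ hasDerivAt_comp_smul hF (γ : SL2Z) τ
  · obtain ⟨P, hP, hP0⟩ := hprim δ
    obtain ⟨c, hc⟩ := exists_const_of_hasDerivAt (fun τ => hasDerivAt_comp_smul hF δ τ) hP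
    refine ⟨c, ?_⟩
    have h := hP0.add_const c
    simp only [zero_add] at h
    exact h.congr fun w => by rw [← hc w]; ring

omit [NeZero N] in
/-- Any primitive as in the definition computes the period map. -/
theorem periodMap_eq {f : CuspForm (Gamma0 N) 2} {F : ℍ → ℂ}
    (hF : ModularCurve.HasEquivariantPrimitive N f F) :
    ModularCurve.periodMap N f = hF.2.2.1.periodHom := by
  obtain ⟨F₀, h₀, he⟩ := ModularCurve.periodMap_def N f hF
  rw [he]
  obtain ⟨c, hc⟩ := exists_const_of_hasDerivAt h₀.1 hF.1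
  refine AddMonoidHom.ext fun γ => ?_
  obtain ⟨γ, rfl⟩ := Additive.ofMul.surjective γ
  simp only [ModularCurve.Period.IsEquivariantPrimitive.periodHom_apply,
    ModularCurve.Period.IsEquivariantPrimitive.period]
  linear_combination hc ((γ : SL2Z) • UpperHalfPlane.I) - hc UpperHalfPlane.I

omit [NeZero N] in
theorem periodMap_apply {f : CuspForm (Gamma0 N) 2} {F : ℍ → ℂ}
    (hF : ModularCurve.HasEquivariantPrimitive N f F) (γ : Gamma0 N) (z : ℍ) :
    ModularCurve.periodMap N f (Additive.ofMul γ) = F ((γ : SL2Z) • z) - F z := by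
  rw [periodMap_eq hF, ModularCurve.Period.IsEquivariantPrimitive.periodHom_apply,
    hF.2.2.1.sub_eq_period]

theorem existsPeriodMapLinear : ModularCurve.ExistsPeriodMapLinear N := by
  refine ⟨{ toFun := ModularCurve.periodMap N, map_add' := ?_, map_smul' := ?_ }, fun f => rfl⟩
  · intro f g
    obtain ⟨F, hF⟩ := exists_hasEquivariantPrimitive f
    obtain ⟨G, hG⟩ := exists_hasEquivariantPrimitive g
    have h : ModularCurve.HasEquivariantPrimitive N (f + g) (F + G) := by
      refine ⟨fun τ => (hF.1 τ).add (hG.1 τ), by simpa [Pi.add_def] using hF.2.1.add hG.2.1, fun γ => ?_,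
        fun δ => ?_⟩
      · obtain ⟨a, ha⟩ := hF.2.2.1 γ
        obtain ⟨b, hb⟩ := hG.2.2.1 γ
        exact ⟨a + b, fun z => by simp only [Pi.add_apply, ← ha z, ← hb z]; ring⟩
      · obtain ⟨a, ha⟩ := hF.2.2.2 δ
        obtain ⟨b, hb⟩ := hG.2.2.2 δ
        exact ⟨a + b, ha.add hb⟩
    refine AddMonoidHom.ext fun γ => ?_
    obtain ⟨γ, rfl⟩ := Additive.ofMul.surjective γ
    rw [AddMonoidHom.add_apply, periodMap_apply h γ UpperHalfPlane.I,
      periodMap_apply hF γ UpperHalfPlane.I, periodMap_apply hG γ UpperHalfPlane.I]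
    simp only [Pi.add_apply]
    ring
  · intro c f
    obtain ⟨F, hF⟩ := exists_hasEquivariantPrimitive f
    have h : ModularCurve.HasEquivariantPrimitive N (c • f) (c • F) := by
      refine ⟨fun τ => (hF.1 τ).const_smul c, by simpa [Pi.smul_def] using hF.2.1.const_smul c, fun γ => ?_,
        fun δ => ?_⟩
      · obtain ⟨a, ha⟩ := hF.2.2.1 γ
        exact ⟨c * a, fun z => by simp only [Pi.smul_apply, smul_eq_mul, ← ha z]; ring⟩
      · obtain ⟨a, ha⟩ := hF.2.2.2 δ
        exact ⟨c • a, ha.const_smul c⟩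
    refine AddMonoidHom.ext fun γ => ?_
    obtain ⟨γ, rfl⟩ := Additive.ofMul.surjective γ
    rw [periodMap_apply h γ UpperHalfPlane.I]
    show _ = c • ModularCurve.periodMap N f (Additive.ofMul γ)
    rw [periodMap_apply hF γ UpperHalfPlane.I]
    simp only [Pi.smul_apply, smul_eq_mul]
    ring

omit [NeZero N] in
/-- Translates of an equivariant primitive are periodic. -/
theorem primitive_periodic {f : CuspForm (Gamma0 N) 2} {F : ℍ → ℂ}
    (hF : ModularCurve.HasEquivariantPrimitive N f F) (δ : SL2Z) (w : ℍ) :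
    F (δ • ModularGroup.T ^ globalPeriod (Gamma0 N) • w) = F (δ • w) := by
  set n := globalPeriod (Gamma0 N)
  have hmem : δ * ModularGroup.T ^ n * δ⁻¹ ∈ Gamma0 N := by
    have h := T_pow_globalPeriod_smul (Γ := Gamma0 N) ((δ⁻¹ : SL2Z) : SL2Z ⧸ Gamma0 N)
    rw [MulAction.Quotient.smul_coe, QuotientGroup.eq, smul_eq_mul] at h
    simpa [mul_assoc] using (Gamma0 N).inv_mem h
  obtain ⟨c, hc⟩ := hF.2.2.1 ⟨_, hmem⟩
  obtain ⟨L, hL⟩ := hF.2.2.2 δ
  have hshift : Tendsto (fun w : ℍ => ModularGroup.T ^ n • w) atImInfty atImInfty := by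
    have hg : ((ModularGroup.T ^ n : SL2Z) : GL (Fin 2) ℝ) 1 0 = 0 := by
      show algebraMap ℤ ℝ ((ModularGroup.T ^ n : SL2Z) 1 0) = 0
      rw [← zpow_natCast, ModularGroup.coe_T_zpow]
      simp
    exact tendsto_smul_atImInfty hg
  have hc' : ∀ w : ℍ, F (δ • ModularGroup.T ^ n • w) - F (δ • w) = c := fun w => by
    simpa [mul_smul] using hc (δ • w)
  have hc0 : c = 0 := by
    have hd := (hL.comp hshift).sub hL
    rw [sub_self] at hd
    exact tendsto_nhds_unique (tendsto_const_nhds.congr fun w => (hc' w).symm) hd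
  linear_combination hc' w + hc0

/-- An upper triangular conjugate of an element with trace ±2. -/
theorem exists_conj_upper {γ : SL2Z}
    (h : (γ : Matrix (Fin 2) (Fin 2) ℤ).trace ^ 2 = 4) :
    ∃ σ : SL2Z, (σ⁻¹ * γ * σ) 1 0 = 0 := by
  set a := γ 0 0 with ha
  set b := γ 0 1 with hb
  set c := γ 1 0 with hc
  set d := γ 1 1 with hd
  have hdet : a * d - b * c = 1 := by
    have := γ.2
    rwa [Matrix.det_fin_two] at this
  rw [Matrix.trace_fin_two, ← ha, ← hd] at h
  by_cases hc0 : c = 0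
  · exact ⟨1, by simpa using hc0⟩
  obtain ⟨e, he⟩ : ∃ e, a + d = 2 * e := by
    have h2 : (a + d - 2) * (a + d + 2) = 0 := by linear_combination h
    rcases mul_eq_zero.mp h2 with h' | h'
    · exact ⟨1, by linear_combination h'⟩
    · exact ⟨-1, by linear_combination h'⟩
  have he2 : e * e = 1 := by
    rw [he] at h
    linarith
  obtain ⟨p, q, hp, hq, hcop⟩ : ∃ p q : ℤ, ∃ _ : (a - e) * q = c * p, ∃ _ : q ≠ 0,
      IsCoprime p q := by
    obtain ⟨g, x, y, hg0, hcop, hx, hy⟩ :=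
      Int.exists_gcd_one' (m := a - e) (n := c) (Int.gcd_pos_of_ne_zero_right _ hc0)
    refine ⟨x, y, by rw [hx, hy]; ring, ?_, Int.isCoprime_iff_gcd_eq_one.mpr hcop⟩
    rintro rfl
    exact hc0 (by simpa using hy)
  obtain ⟨x, y, hxy⟩ := hcop
  let σ : SL2Z := ⟨!![p, -y; q, x], by rw [Matrix.det_fin_two_of]; linear_combination hxy⟩
  refine ⟨σ, ?_⟩
  have hσ : (σ : Matrix (Fin 2) (Fin 2) ℤ) = !![p, -y; q, x] := rfl
  have hval : (σ⁻¹ * γ * σ) 1 0 = c * p * p + (d - a) * p * q - b * q * q := by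
    rw [Matrix.SpecialLinearGroup.coe_mul, Matrix.SpecialLinearGroup.coe_mul,
      Matrix.SpecialLinearGroup.coe_inv, hσ, Matrix.adjugate_fin_two]
    simp [Matrix.mul_apply, Fin.sum_univ_two, Matrix.vecMul, dotProduct, ← ha, ← hb, ← hc, ← hd]
    ring
  rw [hval]
  have key : c * (c * p * p + (d - a) * p * q - b * q * q) = 0 := by
    linear_combination -(c * p + (a - e) * q + (d - a) * q) * hp + q * q * hdet
      - q * q * e * he - q * q * he2
  exact (mul_eq_zero.mp key).resolve_left hc0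

theorem periodMap_mem_parabolicHoms (f : CuspForm (Gamma0 N) 2) :
    ModularCurve.periodMap N f ∈
      ModularCurve.Period.parabolicHoms ℂ (Gamma0 N) ℂ := by
  obtain ⟨F, hF⟩ := exists_hasEquivariantPrimitive f
  rw [ModularCurve.Period.mem_parabolicHoms_iff]
  intro γ hγ
  obtain ⟨σ, hσ⟩ := exists_conj_upper hγ
  set u : SL2Z := σ⁻¹ * γ * σ with hu
  have hc : ∀ w : ℍ, F (σ • u • w) - F (σ • w) = ModularCurve.periodMap N f (Additive.ofMul γ) := by
    intro w
    rw [periodMap_apply hF γ (σ • w), ← mul_smul, ← mul_smul, hu]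
    group
  obtain ⟨L, hL⟩ := hF.2.2.2 σ
  have hshift : Tendsto (fun w : ℍ => u • w) atImInfty atImInfty :=
    tendsto_smul_atImInfty (by simpa using hσ)
  have hd := (hL.comp hshift).sub hL
  rw [sub_self] at hd
  exact tendsto_nhds_unique (tendsto_const_nhds.congr fun w => (hc w).symm) hd

/-- Holomorphic `G` with invariant real part and periodic translates having limits is constant. -/
theorem const_of_re_invariant {Γ : Subgroup SL2Z} [Γ.FiniteIndex] {G : ℍ → ℂ} {n : ℝ}
    (hn : 0 < n) (hG : MDiff G)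
    (hinv : ∀ γ ∈ Γ, ∀ τ : ℍ, (G (γ • τ)).re = (G τ).re)
    (hper : ∀ σ : SL2Z, Periodic ((fun w => G (σ • w)) ∘ ofComplex) n)
    (hlim : ∀ σ : SL2Z, ∃ L, Tendsto (fun w => G (σ • w)) atImInfty (𝓝 L)) :
    ∀ τ : ℍ, deriv (G ∘ ofComplex) (τ : ℂ) = 0 := by
  classical
  have : Fintype (SL2Z ⧸ Γ) := Fintype.ofFinite _
  set g : ℍ → ℂ := fun τ => Complex.exp (G τ) with hgdef
  have hgd : DifferentiableOn ℂ (g ∘ ofComplex) {z : ℂ | 0 < z.im} :=
    (UpperHalfPlane.mdifferentiable_iff.mp hG).cexp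
  have hgm : MDiff g := UpperHalfPlane.mdifferentiable_iff.mpr hgd
  have hgc : Continuous g := hgm.continuous
  have hginv : ∀ γ ∈ Γ, ∀ τ : ℍ, ‖g (γ • τ)‖ = ‖g τ‖ := fun γ hγ τ => by
    simp only [hgdef, Complex.norm_exp, hinv γ hγ τ]
  suffices hconst : ∃ C, ∀ τ, g τ = C by
    obtain ⟨C, hC⟩ := hconst
    intro τ
    have hd := (UpperHalfPlane.mdifferentiableAt_iff.mp (hG τ)).hasDerivAt.cexp
    have h0 : deriv (g ∘ ofComplex) (τ : ℂ) = 0 := by
      rw [show g ∘ ofComplex = fun _ => C from funext fun z => hC _]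
      exact deriv_const _ _
    rw [show g ∘ ofComplex = fun z => Complex.exp ((G ∘ ofComplex) z) from rfl, hd.deriv,
      mul_eq_zero] at h0
    exact h0.resolve_left (Complex.exp_ne_zero _)
  let rep : SL2Z ⧸ Γ → SL2Z := fun x => x.out⁻¹
  choose L hL using fun x : SL2Z ⧸ Γ => hlim (rep x)
  have hgL : ∀ x, Tendsto (fun w => g (rep x • w)) atImInfty (𝓝 (Complex.exp (L x))) :=
    fun x => (Complex.continuous_exp.tendsto _).comp (hL x)
  obtain ⟨x₀, -, hx₀⟩ := Finset.exists_max_image Finset.univ (fun x => ‖Complex.exp (L x)‖)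
    ⟨((1 : SL2Z) : SL2Z ⧸ Γ), Finset.mem_univ _⟩
  by_cases hex : ∃ τ₁, ‖Complex.exp (L x₀)‖ < ‖g τ₁‖
  · obtain ⟨τ₁, hτ₁⟩ := hex
    have hev : ∀ᶠ w in atImInfty, ∀ x, ‖g (rep x • w)‖ < ‖g τ₁‖ :=
      eventually_all.mpr fun x => (hgL x).norm.eventually
        (eventually_lt_nhds ((hx₀ x (Finset.mem_univ x)).trans_lt hτ₁))
    rw [Filter.Eventually, atImInfty_mem] at hev
    obtain ⟨B, hB⟩ := hev
    set K := (⋃ x, (fun w : ℍ => rep x • w) '' ModularGroup.truncatedFundamentalDomain B) ∪ {τ₁}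
    have hK : IsCompact K :=
      (isCompact_iUnion fun x => (ModularGroup.isCompact_truncatedFundamentalDomain B).image
        (continuous_const_smul (Matrix.SpecialLinearGroup.mapGL ℝ (rep x)))).union isCompact_singleton
    obtain ⟨τ₂, hτ₂, hmax⟩ := hK.exists_isMaxOn ⟨τ₁, Or.inr rfl⟩ hgc.norm.continuousOn
    have hglob : ∀ τ, ‖g τ‖ ≤ ‖g τ₂‖ := by
      intro τ
      obtain ⟨h, hh⟩ := ModularGroup.exists_smul_mem_fd τ
      obtain ⟨⟨γ, hγ⟩, hout⟩ := QuotientGroup.mk_out_eq_mul Γ h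
      set x : SL2Z ⧸ Γ := (h : SL2Z ⧸ Γ)
      have hval : ‖g (rep x • h • τ)‖ = ‖g τ‖ := by
        have : rep x • h • τ = γ⁻¹ • τ := by
          simp only [rep, hout, smul_smul]
          group
        rw [this, hginv _ (Γ.inv_mem hγ)]
      rw [← hval]
      by_cases hle : (h • τ).im ≤ B
      · exact hmax (Or.inl (Set.mem_iUnion.mpr ⟨x, ⟨h • τ, ⟨hh, hle⟩, rfl⟩⟩))
      · exact (hB _ (le_of_not_ge hle) x).le.trans (hmax (Or.inr rfl))
    have hcon := Complex.eqOn_of_isPreconnected_of_isMaxOn_norm isPreconnected_Hset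
      isOpen_upperHalfPlaneSet hgd τ₂.im_pos (fun z hz => by
        simpa [ofComplex_apply_of_im_pos hz, ofComplex_apply] using hglob ⟨z, hz⟩)
    exact ⟨g τ₂, fun τ => by simpa [ofComplex_apply] using hcon τ.im_pos⟩
  · push Not at hex
    have hc := const_of_norm_le_limit (g := fun w => g (rep x₀ • w)) hn
      (fun z => congrArg Complex.exp (hper (rep x₀) z))
      (UpperHalfPlane.mdifferentiable_iff.mpr (by
        have : MDiff fun w : ℍ => G ((Matrix.SpecialLinearGroup.mapGL ℝ (rep x₀)) • w) :=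
          hG.comp (mdifferentiable_smul (by simp))
        exact (UpperHalfPlane.mdifferentiable_iff.mp this).cexp))
      (hgL x₀) (fun w => hex _)
    exact ⟨_, fun τ => by simpa [smul_inv_smul] using hc ((rep x₀)⁻¹ • τ)⟩

/-- `τ ↦ -conj τ`. -/
def flipPt (τ : ℍ) : ℍ := ⟨-conj (τ : ℂ), by simpa using τ.im_pos⟩

@[simp] theorem coe_flipPt (τ : ℍ) : (flipPt τ : ℂ) = -conj (τ : ℂ) := rfl

theorem flipPt_flipPt (τ : ℍ) : flipPt (flipPt τ) = τ := UpperHalfPlane.ext (by simp)

theorem flipPt_smul (σ : SL2Z) (τ : ℍ) :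
    flipPt (σ • τ) = ModularCurve.Period.jConjSL σ • flipPt τ := by
  apply UpperHalfPlane.ext
  rw [coe_flipPt, coe_specialLinearGroup_apply, coe_specialLinearGroup_apply]
  simp only [algebraMap_int_eq, Int.coe_castRingHom, map_div₀, map_add, map_mul, Complex.conj_ofReal,
    coe_flipPt, ModularCurve.Period.jConjSL_coe, ModularCurve.Period.jConjMat_apply_zero_zero,
    ModularCurve.Period.jConjMat_apply_zero_one, ModularCurve.Period.jConjMat_apply_one_zero,
    ModularCurve.Period.jConjMat_apply_one_one]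
  push_cast
  rw [← neg_div]
  congr 1 <;> ring

theorem tendsto_flipPt : Tendsto flipPt atImInfty atImInfty := by
  simp only [atImInfty, tendsto_comap_iff]
  refine Tendsto.congr (fun τ => ?_) tendsto_comap
  show (τ : ℂ).im = (-conj (τ : ℂ)).im
  simp

/-- The reflected conjugate of a function. -/
def reflect (F : ℍ → ℂ) : ℍ → ℂ := fun τ => conj (F (flipPt τ))

theorem hasDerivAt_reflect {F f : ℍ → ℂ} (hF : ∀ τ : ℍ, HasDerivAt (F ∘ ofComplex) (f τ) ↑τ)
    (τ : ℍ) : HasDerivAt (reflect F ∘ ofComplex) (-(conj (f (flipPt τ)))) ↑τ := by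
  have h1 : HasDerivAt (fun z => (F ∘ ofComplex) (-z)) (-(f (flipPt τ))) (conj (τ : ℂ)) := by
    have h := hF (flipPt τ)
    rw [coe_flipPt] at h
    have hn : HasDerivAt (fun z : ℂ => -z) (-1) (conj (τ : ℂ)) := (hasDerivAt_id _).neg
    have := h.comp (conj (τ : ℂ)) hn
    simpa [comp_def] using this
  have h2 := h1.conj_conj
  rw [Complex.conj_conj, map_neg] at h2
  refine h2.congr_of_eventuallyEq ?_
  filter_upwards [isOpen_upperHalfPlaneSet.mem_nhds τ.im_pos] with z hz
  have hz' : 0 < (-conj z).im := by simpa using hz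
  simp only [comp_apply, reflect, ofComplex_apply_of_im_pos hz, ofComplex_apply_of_im_pos hz']
  rfl

theorem periodHomPair_apply (f g : CuspForm (Gamma0 N) 2) (γ : Gamma0 N) :
    ModularCurve.periodHomPair N (f, g) (Additive.ofMul γ) =
      ModularCurve.periodMap N (f + g) (Additive.ofMul γ) +
        ModularCurve.periodMap N (f - g) (Additive.ofMul (ModularCurve.Period.jConjGamma0 N γ)) := by
  obtain ⟨pml, hpml, h⟩ := ModularCurve.periodHomPair_def N existsPeriodMapLinear
  rw [h, ← hpml, ← hpml, map_add, map_sub]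
  simp [hpml]
  ring

theorem periodHomPair_injective : Function.Injective (ModularCurve.periodHomPair N) := by
  rw [← LinearMap.ker_eq_bot, Submodule.eq_bot_iff]
  rintro ⟨f, g⟩ h0
  rw [LinearMap.mem_ker] at h0
  obtain ⟨U, hU⟩ := exists_hasEquivariantPrimitive (f + g)
  obtain ⟨V, hV⟩ := exists_hasEquivariantPrimitive (f - g)
  set n := globalPeriod (Gamma0 N) with hndef
  have hn : (0 : ℝ) < n := by exact_mod_cast globalPeriod_pos
  have hrel : ∀ γ ∈ Gamma0 N, ∀ τ : ℍ,
      (U (γ • τ) - U τ) + conj (reflect V (γ • τ) - reflect V τ) = 0 := by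
    intro γ hγ τ
    have h1 := periodHomPair_apply f g (⟨γ, hγ⟩ : Gamma0 N)
    rw [h0, AddMonoidHom.zero_apply, periodMap_apply hU _ τ, periodMap_apply hV _ (flipPt τ),
      ModularCurve.Period.jConjGamma0_coe, ← flipPt_smul] at h1
    simpa [reflect] using h1.symm
  have hT : ∀ (F : ℍ → ℂ), (∀ w, F (ModularGroup.T ^ n • w) = F w) →
      Periodic (F ∘ ofComplex) (n : ℝ) := by
    intro F hF
    apply periodic_of_slash_T_pow (k := 0)
    funext w
    rw [ModularForm.SL_slash_apply, neg_zero, zpow_zero, mul_one]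
    exact hF w
  have hperU : ∀ σ : SL2Z, ∀ w, U (σ • ModularGroup.T ^ n • w) = U (σ • w) :=
    primitive_periodic hU
  have hperV : ∀ σ : SL2Z, ∀ w, reflect V (σ • ModularGroup.T ^ n • w) = reflect V (σ • w) := by
    intro σ w
    simp only [reflect]
    congr 1
    have hj : ModularCurve.Period.jConjSL ModularGroup.T = ModularGroup.T⁻¹ := by
      apply Subtype.ext
      rw [ModularCurve.Period.jConjSL_coe, ModularGroup.coe_T, ModularGroup.coe_T_inv]
      ext i j
      fin_cases i <;> fin_cases j <;> simp [ModularCurve.Period.jConjMat]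
    rw [flipPt_smul, flipPt_smul, flipPt_smul, map_pow, hj]
    have := primitive_periodic hV (ModularCurve.Period.jConjSL σ)
      ((ModularGroup.T⁻¹) ^ n • flipPt w)
    rwa [smul_smul (ModularGroup.T ^ n), inv_pow, mul_inv_cancel, one_smul, ← inv_pow, eq_comm]
      at this
  have hlimV : ∀ σ : SL2Z, ∃ L, Tendsto (fun w => reflect V (σ • w)) atImInfty (𝓝 L) := by
    intro σ
    obtain ⟨L, hL⟩ := hV.2.2.2 (ModularCurve.Period.jConjSL σ)
    refine ⟨conj L, ((Complex.continuous_conj.tendsto _).comp (hL.comp tendsto_flipPt)).congr ?_⟩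
    intro w
    simp only [comp_apply, reflect, flipPt_smul]
  have hUd : MDiff U := UpperHalfPlane.mdifferentiable_iff.mpr
    fun z hz => ((hU.1 ⟨z, hz⟩).differentiableAt).differentiableWithinAt
  have hVd : MDiff (reflect V) := UpperHalfPlane.mdifferentiable_iff.mpr
    fun z hz => ((hasDerivAt_reflect hV.1 ⟨z, hz⟩).differentiableAt).differentiableWithinAt
  have hmain : ∀ a b : ℂ, (∀ γ ∈ Gamma0 N, ∀ τ : ℍ, (a * (U (γ • τ) - U τ)
        + b * (reflect V (γ • τ) - reflect V τ)).re = 0) →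
      ∀ τ, a * (f + g) τ - b * conj ((f - g) (flipPt τ)) = 0 := by
    intro a b hab τ
    have hd := const_of_re_invariant (Γ := Gamma0 N) (G := fun w => a * U w + b * reflect V w) hn
      (by
        rw [UpperHalfPlane.mdifferentiable_iff] at hUd hVd ⊢
        exact (hUd.const_mul a).add (hVd.const_mul b))
      (fun γ hγ w => by
        have := hab γ hγ w
        simp only [Complex.add_re, Complex.mul_re, Complex.sub_re, Complex.sub_im] at this ⊢
        linarith)
      (fun σ => hT (fun w => a * U (σ • w) + b * reflect V (σ • w)) fun w => by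
        simp only [hperU, hperV])
      (fun σ => by
        obtain ⟨L, hL⟩ := hU.2.2.2 σ
        obtain ⟨L', hL'⟩ := hlimV σ
        exact ⟨_, (hL.const_mul a).add (hL'.const_mul b)⟩) τ
    have he : HasDerivAt ((fun w => a * U w + b * reflect V w) ∘ ofComplex) _ (τ : ℂ) :=
      ((hU.1 τ).const_mul a).add ((hasDerivAt_reflect hV.1 τ).const_mul b)
    rw [he.deriv] at hd
    linear_combination hd
  have hsum := hmain 1 1 fun γ hγ τ => by
    have := congrArg Complex.re (hrel γ hγ τ)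
    simpa [Complex.add_re] using this
  have hdiff := hmain Complex.I (-Complex.I) fun γ hγ τ => by
    have := congrArg Complex.im (hrel γ hγ τ)
    simp only [Complex.add_im, Complex.conj_im, Complex.zero_im, Complex.sub_im] at this
    simp only [Complex.mul_re, Complex.add_re, Complex.neg_re, Complex.neg_im, Complex.I_re,
      Complex.I_im, Complex.sub_im]
    linarith
  have e1 : ∀ τ, (f + g) τ = 0 := fun τ => by
    have hd := mul_left_cancel₀ Complex.I_ne_zero
      (show Complex.I * ((f + g) τ + conj ((f - g) (flipPt τ))) = Complex.I * 0 by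
        linear_combination hdiff τ)
    linear_combination (1 / 2 : ℂ) * hsum τ + (1 / 2 : ℂ) * hd
  have e2 : ∀ τ, (f - g) τ = 0 := fun τ => by
    have := hsum (flipPt τ)
    rw [e1, flipPt_flipPt] at this
    have h2 : conj ((f - g) τ) = 0 := by linear_combination -this
    simpa only [map_eq_zero] using h2
  refine Prod.ext ?_ ?_ <;> ext τ
  · have := e1 τ; have := e2 τ
    simp only [FunLike.coe_add, FunLike.coe_sub, Pi.add_apply, Pi.sub_apply] at *
    simp only [Prod.fst_zero, FunLike.coe_zero, Pi.zero_apply]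
    linear_combination (1 / 2 : ℂ) * e1 τ + (1 / 2 : ℂ) * e2 τ
  · have := e1 τ; have := e2 τ
    simp only [FunLike.coe_add, FunLike.coe_sub, Pi.add_apply, Pi.sub_apply] at *
    simp only [Prod.snd_zero, FunLike.coe_zero, Pi.zero_apply]
    linear_combination (1 / 2 : ℂ) * e1 τ - (1 / 2 : ℂ) * e2 τ

theorem range_periodHomPair_le :
    LinearMap.range (ModularCurve.periodHomPair N) ≤
      ModularCurve.Period.parabolicHoms ℂ (Gamma0 N) ℂ := by
  obtain ⟨pml, hpml, h⟩ := ModularCurve.periodHomPair_def N existsPeriodMapLinear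
  rintro _ ⟨⟨f, g⟩, rfl⟩
  rw [h]
  simp only [LinearMap.coprod_apply, LinearMap.comp_apply, LinearMap.add_apply,
    LinearMap.sub_apply, LinearMap.id_apply, hpml]
  exact add_mem (add_mem (periodMap_mem_parabolicHoms f)
      (ModularCurve.Period.charInvolution_mem_parabolicHoms N ℂ ℂ (periodMap_mem_parabolicHoms f)))
    (sub_mem (periodMap_mem_parabolicHoms g)
      (ModularCurve.Period.charInvolution_mem_parabolicHoms N ℂ ℂ (periodMap_mem_parabolicHoms g)))

end FLTAgent.ES
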