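import Mathlib
import Fermat.Agent.ES.Basic
import Fermat.Agent.ES.Periodic

/-!
Level one facts: the generators E₄, E₆, Δ, the derivative identities, and the decomposition of
every level one space into multiples of E₄ and E₆.
-/

set_option autoImplicit false

noncomputable section

open UpperHalfPlane Filter Topology Complex Function EisensteinSeries
open scoped MatrixGroups ModularForm Manifold

namespace FLTAgent.ES

local notation "SL2Z" => Matrix.SpecialLinearGroup (Fin 2) ℤ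

/-- `E₄` as a function. -/
def e4 : ℍ → ℂ := ⇑ModularForm.E₄
/-- `E₆` as a function. -/
def e6 : ℍ → ℂ := ⇑ModularForm.E₆
/-- `Δ` as a function. -/
def dlt : ℍ → ℂ := ModularForm.discriminant

theorem e4_mem {Γ : Subgroup SL2Z} : e4 ∈ forms Γ 4 := levelOne_mem ModularForm.E₄
theorem e6_mem {Γ : Subgroup SL2Z} : e6 ∈ forms Γ 6 := levelOne_mem ModularForm.E₆
theorem dlt_mem {Γ : Subgroup SL2Z} : dlt ∈ forms Γ 12 := by
  have h := levelOne_mem (Γ := Γ) (k := 12) CuspForm.discriminant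
  rwa [CuspForm.coe_discriminant] at h

theorem dlt_ne_zero (τ : ℍ) : dlt τ ≠ 0 := ModularForm.discriminant_ne_zero τ

theorem dlt_eq (τ : ℍ) : dlt τ = (e4 τ ^ 3 - e6 τ ^ 2) / 1728 :=
  ModularForm.discriminant_eq_E₄_cube_sub_E₆_sq τ

theorem e4_ne_or_e6_ne (τ : ℍ) : e4 τ ≠ 0 ∨ e6 τ ≠ 0 := by
  by_contra h
  push Not at h
  exact dlt_ne_zero τ (by rw [dlt_eq, h.1, h.2]; ring)

theorem top_periodic {k : ℤ} {f : ℍ → ℂ} (hf : f ∈ forms ⊤ k) :
    Periodic (f ∘ ofComplex) (1 : ℝ) := by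
  simpa using periodic_of_slash_T_pow (h := 1) (k := k) (f := f)
    (hf.1 _ (Subgroup.mem_top _))

theorem top_bdd {k : ℤ} {f : ℍ → ℂ} (hf : f ∈ forms ⊤ k) : IsBoundedAtImInfty f := by
  simpa [SlashAction.slash_one] using hf.2.2 1

/-- The value at infinity of a level one form. -/
def valInf (f : ℍ → ℂ) : ℂ := UpperHalfPlane.cuspFunction 1 f 0

theorem tendsto_valInf {k : ℤ} {f : ℍ → ℂ} (hf : f ∈ forms ⊤ k) :
    Tendsto f atImInfty (𝓝 (valInf f)) :=
  tendsto_of_periodic one_pos (top_periodic hf) hf.2.1 (top_bdd hf)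

theorem valInf_eq_coeff {k : ℤ} {f : ℍ → ℂ} (_hf : f ∈ forms ⊤ k) :
    (qExpansion 1 f).coeff 0 = valInf f := by
  simp [qExpansion_coeff, valInf]

theorem e4_tendsto : Tendsto e4 atImInfty (𝓝 1) := by
  have h := tendsto_valInf e4_mem
  rwa [← valInf_eq_coeff e4_mem, e4, E_qExpansion_coeff_zero _ ⟨2, rfl⟩] at h

theorem e6_tendsto : Tendsto e6 atImInfty (𝓝 1) := by
  have h := tendsto_valInf e6_mem
  rwa [← valInf_eq_coeff e6_mem, e6, E_qExpansion_coeff_zero _ ⟨3, rfl⟩] at h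

theorem dlt_tendsto : Tendsto dlt atImInfty (𝓝 0) := ModularForm.discriminant_isZeroAtImInfty

theorem levelOne_neg {k : ℤ} (hk : k < 0) {f : ℍ → ℂ} (hf : f ∈ forms ⊤ k) : f = 0 :=
  ModularFormClass.levelOne_neg_weight_eq_zero hk (toLevelOne hf)

theorem levelOne_odd {k : ℤ} (hk : Odd k) {f : ℍ → ℂ} (hf : f ∈ forms ⊤ k) : f = 0 :=
  congrArg DFunLike.coe (ModularForm.levelOne_odd_weight_eq_zero hk (toLevelOne hf))

theorem levelOne_two {f : ℍ → ℂ} (hf : f ∈ forms ⊤ 2) : f = 0 :=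
  congrArg DFunLike.coe
    (rank_zero_iff_forall_zero.mp ModularForm.levelOne_weight_two_rank_zero (toLevelOne hf))

theorem levelOne_zero {f : ℍ → ℂ} (hf : f ∈ forms ⊤ 0) : ∃ c : ℂ, f = c • 1 := by
  obtain ⟨c, hc⟩ := ModularFormClass.levelOne_weight_zero_const (toLevelOne hf)
  exact ⟨c, funext fun τ => by simpa using congrFun hc τ⟩

/-- Division of a level one form vanishing at infinity by Δ. -/
theorem exists_dlt_mul {k : ℤ} {f : ℍ → ℂ} (hf : f ∈ forms ⊤ k)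
    (h0 : Tendsto f atImInfty (𝓝 0)) : ∃ s ∈ forms ⊤ (k - 12), f = dlt * s := by
  have hcusp : (qExpansion 1 (toLevelOne hf)).coeff 0 = 0 := by
    show (qExpansion 1 f).coeff 0 = 0
    rw [valInf_eq_coeff hf]
    exact tendsto_nhds_unique (tendsto_valInf hf) h0
  refine ⟨_, levelOne_mem
    (CuspForm.discriminantEquiv (ModularForm.toCuspForm (toLevelOne hf) hcusp)), ?_⟩
  exact (ModularForm.discriminant_mul_discriminantEquiv
    (ModularForm.toCuspForm (toLevelOne hf) hcusp)).symm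

/-- Decomposition of level one forms along E₄ and E₆. -/
theorem levelOne_decomp {k : ℤ} {r : ℍ → ℂ} (hr : r ∈ forms ⊤ k) :
    ∃ c : ℂ, ∃ a ∈ forms ⊤ (k - 4), ∃ b ∈ forms ⊤ (k - 6),
      (k ≠ 0 → c = 0) ∧ r = c • 1 + e4 * a + e6 * b := by
  rcases lt_trichotomy k 0 with hk | rfl | hk
  · exact ⟨0, 0, zero_mem _, 0, zero_mem _, fun _ => rfl, by simp [levelOne_neg hk hr]⟩
  · obtain ⟨c, hc⟩ := levelOne_zero hr
    exact ⟨c, 0, zero_mem _, 0, zero_mem _, by simp, by simp [hc]⟩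
  rcases Int.even_or_odd k with hev | hodd
  swap
  · exact ⟨0, 0, zero_mem _, 0, zero_mem _, fun _ => rfl, by simp [levelOne_odd hodd hr]⟩
  rcases eq_or_ne k 2 with rfl | hk2
  · exact ⟨0, 0, zero_mem _, 0, zero_mem _, fun _ => rfl, by simp [levelOne_two hr]⟩
  obtain ⟨a₀, ha₀, b₀, hb₀, he⟩ : ∃ a₀ ∈ forms ⊤ (k - 4), ∃ b₀ ∈ forms ⊤ (k - 6),
      Tendsto (e4 * a₀ + e6 * b₀) atImInfty (𝓝 1) := by
    obtain ⟨m, rfl⟩ := hev
    rcases Int.even_or_odd m with ⟨n, rfl⟩ | ⟨n, rfl⟩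
    · obtain ⟨j, rfl⟩ : ∃ j : ℕ, n = j + 1 := ⟨(n - 1).toNat, by omega⟩
      refine ⟨e4 ^ j, ?_, 0, zero_mem _, ?_⟩
      · have := forms_pow (e4_mem (Γ := ⊤)) j
        rwa [show ((j : ℤ) + 1 + ((j : ℤ) + 1)) + ((j : ℤ) + 1 + ((j : ℤ) + 1)) - 4 = (j : ℤ) * 4
          by ring]
      · simpa [Pi.mul_def, Pi.pow_def] using e4_tendsto.mul (e4_tendsto.pow j)
    · obtain ⟨j, rfl⟩ : ∃ j : ℕ, n = j + 1 := ⟨(n - 1).toNat, by omega⟩
      refine ⟨0, zero_mem _, e4 ^ j, ?_, ?_⟩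
      · have := forms_pow (e4_mem (Γ := ⊤)) j
        rwa [show 2 * ((j : ℤ) + 1) + 1 + (2 * ((j : ℤ) + 1) + 1) - 6 = (j : ℤ) * 4 by ring]
      · simpa [Pi.mul_def, Pi.pow_def] using e6_tendsto.mul (e4_tendsto.pow j)
  set c := valInf r with hc
  have he' : e4 * a₀ + e6 * b₀ ∈ forms ⊤ k :=
    add_mem (forms_mul_of_eq e4_mem ha₀ (by ring)) (forms_mul_of_eq e6_mem hb₀ (by ring))
  obtain ⟨s, hs, hseq⟩ := exists_dlt_mul (sub_mem hr (Submodule.smul_mem _ c he'))
    (by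
      have h := (tendsto_valInf hr).sub (he.const_smul c)
      rwa [← hc, smul_eq_mul, mul_one, sub_self] at h)
  refine ⟨0, c • a₀ + (1 / 1728 : ℂ) • (e4 ^ 2 * s), ?_, c • b₀ - (1 / 1728 : ℂ) • (e6 * s), ?_,
    fun _ => rfl, ?_⟩
  · exact add_mem (Submodule.smul_mem _ _ ha₀) (Submodule.smul_mem _ _
      (forms_mul_of_eq (forms_pow e4_mem 2) hs (by push_cast; ring)))
  · exact sub_mem (Submodule.smul_mem _ _ hb₀) (Submodule.smul_mem _ _
      (forms_mul_of_eq e6_mem hs (by ring)))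
  · funext τ
    have h := congrFun hseq τ
    simp only [Pi.sub_apply, Pi.smul_apply, Pi.add_apply, Pi.mul_apply, Pi.pow_apply, smul_eq_mul,
      dlt_eq, zero_mul] at h ⊢
    linear_combination h

/-! ### Derivative identities -/

theorem deriv_periodic_tendsto_zero {h : ℝ} (hh : 0 < h) {g : ℍ → ℂ}
    (hper : Periodic (g ∘ ofComplex) h) (hhol : MDiff g) (hb : IsBoundedAtImInfty g) :
    Tendsto (fun τ : ℍ => deriv (g ∘ ofComplex) ↑τ) atImInfty (𝓝 0) := by
  set Φ := UpperHalfPlane.cuspFunction h g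
  have han := analyticAt_cuspFunction_zero hh hper hhol hb
  set C : ℂ := 2 * Real.pi * Complex.I / h with hC
  have hlim := ((han.deriv.continuousAt.tendsto.comp (qParam_tendsto_atImInfty hh)).mul
    ((qParam_tendsto_atImInfty hh).mul_const C))
  simp only [zero_mul, mul_zero] at hlim
  refine hlim.congr fun τ => ?_
  have hq : HasDerivAt (Periodic.qParam h) (Periodic.qParam h (τ : ℂ) * C) (τ : ℂ) := by
    have h1 : HasDerivAt (fun z : ℂ => 2 * Real.pi * Complex.I * z / h) C (τ : ℂ) := by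
      simpa [hC, mul_one] using ((hasDerivAt_id (τ : ℂ)).const_mul
        (2 * Real.pi * Complex.I)).div_const (h : ℂ)
    exact h1.cexp
  have hd := (UpperHalfPlane.differentiableAt_cuspFunction hh hper hhol hb
    (Periodic.norm_qParam_lt_one hh τ.im_pos)).hasDerivAt.comp (τ : ℂ) hq
  refine ((hd.congr_of_eventuallyEq ?_).deriv).symm
  filter_upwards [isOpen_upperHalfPlaneSet.mem_nhds τ.im_pos] with w hw
  simp [← eq_cuspFunction (⟨w, hw⟩ : ℍ) hh.ne' hper, ofComplex_apply_of_im_pos hw]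

theorem serre_mem {k : ℤ} {f : ℍ → ℂ} (hf : f ∈ forms ⊤ k) :
    Derivative.serreDerivative k f ∈ forms ⊤ (k + 2) := by
  have hinv : ∀ γ : SL2Z, Derivative.serreDerivative (k : ℂ) f ∣[k + 2] γ
      = Derivative.serreDerivative k f := fun γ =>
    Derivative.serreDerivative_slash_invariant hf.2.1 (hf.1 γ (Subgroup.mem_top γ))
  refine ⟨fun γ _ => hinv γ, Derivative.serreDerivative_mdifferentiable _ hf.2.1, fun σ => ?_⟩
  rw [hinv σ, Derivative.serreDerivative_eq]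
  have h1 : IsBoundedAtImInfty (Derivative.normalizedDerivOfComplex f) :=
    (((deriv_periodic_tendsto_zero one_pos (top_periodic hf) hf.2.1 (top_bdd hf)).const_mul
      ((2 * Real.pi * Complex.I)⁻¹)).isBigO_one ℝ)
  have h2 : IsBoundedAtImInfty (fun z => (k : ℂ) * 12⁻¹ * E2 z * f z) :=
    ((const_boundedAtFilter atImInfty ((k : ℂ) * 12⁻¹)).mul isBoundedAtImInfty_E2).mul (top_bdd hf)
  exact Asymptotics.IsBigO.sub h1 h2

theorem deriv_eq_serre (k : ℂ) (f : ℍ → ℂ) (τ : ℍ) :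
    deriv (f ∘ ofComplex) ↑τ =
      2 * Real.pi * Complex.I *
        (Derivative.serreDerivative k f τ + k * 12⁻¹ * E2 τ * f τ) := by
  have : (2 * Real.pi * Complex.I : ℂ) ≠ 0 := by simp [Real.pi_ne_zero]
  simp only [Derivative.serreDerivative_apply, Derivative.normalizedDerivOfComplex]
  field_simp
  ring

theorem E2_per : Periodic (E2 ∘ ofComplex) (1 : ℝ) := by
  have h0 : E2 ∣[(2:ℤ)] (ModularGroup.T ^ 1) = E2 := by
    rw [pow_one, E2_slash_action, D2_T]; simp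
  have := periodic_of_slash_T_pow (h := 1) (k := 2) (f := E2) h0
  simpa using this
theorem E2_an : AnalyticAt ℂ (UpperHalfPlane.cuspFunction 1 E2) 0 :=
  analyticAt_cuspFunction_zero one_pos E2_per E2_mdifferentiable isBoundedAtImInfty_E2
theorem E2_sum : ∀ τ : ℍ, HasSum (fun m : ℕ => (if m = 0 then 1 else -24 * (ArithmeticFunction.sigma 1 m : ℂ)) • Periodic.qParam (1:ℝ) (τ:ℂ) ^ m) (E2 τ) := by
  intro τ
  simpa only [Periodic.qParam, ofReal_one, div_one] using hasSum_qExpansion_E2 τ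
theorem E2_c : UpperHalfPlane.cuspFunction 1 E2 0 = 1 := by
  have hp := hasFPowerSeriesOnBall_cuspFunction one_pos E2_an E2_sum
  have hc := hp.hasFPowerSeriesAt.coeff_zero (fun _ => (0 : ℂ))
  rw [FormalMultilinearSeries.ofScalars_apply_eq] at hc
  simpa using hc.symm

theorem E2_tendsto : Tendsto E2 atImInfty (𝓝 1) := by
  have h := tendsto_of_periodic one_pos E2_per E2_mdifferentiable isBoundedAtImInfty_E2
  rwa [E2_c] at h

theorem serre_e4 (τ : ℍ) : Derivative.serreDerivative (4 : ℂ) e4 τ = -(1 / 3) * e6 τ := by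
  have hm := serre_mem (e4_mem (Γ := ⊤))
  obtain ⟨c, hc⟩ : ∃ c : ℂ, Derivative.serreDerivative ((4 : ℤ) : ℂ) e4 = c • e6 := by
    obtain ⟨c0, a, ha, b, hb, hc0, h⟩ := levelOne_decomp hm
    obtain ⟨c, hc⟩ := levelOne_zero (f := b) (by simpa using hb)
    exact ⟨c, by rw [h, hc0 (by norm_num), levelOne_two (f := a) (by simpa using ha), hc]; simp⟩
  have hlim : Tendsto (Derivative.serreDerivative ((4 : ℤ) : ℂ) e4) atImInfty (𝓝 (-(1 / 3))) := by
    rw [Derivative.serreDerivative_eq]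
    have := ((deriv_periodic_tendsto_zero one_pos (top_periodic e4_mem) (e4_mem (Γ := ⊤)).2.1
      (top_bdd e4_mem)).const_mul ((2 * Real.pi * Complex.I)⁻¹)).sub
      ((E2_tendsto.const_mul (((4 : ℤ) : ℂ) * 12⁻¹)).mul e4_tendsto)
    convert this using 2 <;> norm_num [Derivative.normalizedDerivOfComplex]
  have hc' : c = -(1 / 3) := by
    refine tendsto_nhds_unique ?_ (hc ▸ hlim)
    simpa [Pi.smul_def] using e6_tendsto.const_smul c
  simpa [hc'] using congrFun hc τ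

theorem serre_e6 (τ : ℍ) : Derivative.serreDerivative (6 : ℂ) e6 τ = -(1 / 2) * e4 τ ^ 2 := by
  have hm := serre_mem (e6_mem (Γ := ⊤))
  obtain ⟨c, hc⟩ : ∃ c : ℂ, Derivative.serreDerivative ((6 : ℤ) : ℂ) e6 = c • e4 ^ 2 := by
    obtain ⟨c0, a, ha, b, hb, hc0, h⟩ := levelOne_decomp hm
    obtain ⟨c1, a1, ha1, b1, hb1, hc1, h1⟩ := levelOne_decomp (k := 4) (r := a) (by simpa using ha)
    obtain ⟨c, hc⟩ := levelOne_zero (f := a1) (by simpa using ha1)
    refine ⟨c, ?_⟩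
    rw [h, hc0 (by norm_num), h1, hc1 (by norm_num), hc, levelOne_two (f := b) (by simpa using hb),
      levelOne_neg (k := -2) (by norm_num) (f := b1) (by simpa using hb1)]
    simp [sq]
  have hlim : Tendsto (Derivative.serreDerivative ((6 : ℤ) : ℂ) e6) atImInfty (𝓝 (-(1 / 2))) := by
    rw [Derivative.serreDerivative_eq]
    have := ((deriv_periodic_tendsto_zero one_pos (top_periodic e6_mem) (e6_mem (Γ := ⊤)).2.1
      (top_bdd e6_mem)).const_mul ((2 * Real.pi * Complex.I)⁻¹)).sub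
      ((E2_tendsto.const_mul (((6 : ℤ) : ℂ) * 12⁻¹)).mul e6_tendsto)
    convert this using 2 <;> norm_num [Derivative.normalizedDerivOfComplex]
  have hc' : c = -(1 / 2) := by
    refine tendsto_nhds_unique ?_ (hc ▸ hlim)
    simpa [Pi.smul_def, Pi.pow_def] using (e4_tendsto.pow 2).const_smul c
  simpa [hc'] using congrFun hc τ

theorem deriv_e4 (τ : ℍ) : deriv (e4 ∘ ofComplex) ↑τ =
    2 * Real.pi * Complex.I * (-(1 / 3) * e6 τ + 3⁻¹ * E2 τ * e4 τ) := by
  rw [deriv_eq_serre 4, serre_e4]; ring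

theorem deriv_e6 (τ : ℍ) : deriv (e6 ∘ ofComplex) ↑τ =
    2 * Real.pi * Complex.I * (-(1 / 2) * e4 τ ^ 2 + 2⁻¹ * E2 τ * e6 τ) := by
  rw [deriv_eq_serre 6, serre_e6]; ring

theorem deriv_dlt (τ : ℍ) :
    deriv (dlt ∘ ofComplex) ↑τ = 2 * Real.pi * Complex.I * (E2 τ * dlt τ) := by
  have hm := fun (f : ℍ → ℂ) (hf : MDiff f) =>
    (UpperHalfPlane.mdifferentiableAt_iff.mp (hf τ)).hasDerivAt
  have h4 := hm e4 (e4_mem (Γ := ⊤)).2.1
  have h6 := hm e6 (e6_mem (Γ := ⊤)).2.1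
  have he : dlt ∘ ofComplex = fun z => ((e4 ∘ ofComplex) z ^ 3 - (e6 ∘ ofComplex) z ^ 2) / 1728 :=
    funext fun z => dlt_eq _
  have hder : HasDerivAt (fun z => ((e4 ∘ ofComplex) z ^ 3 - (e6 ∘ ofComplex) z ^ 2) / 1728) _ ↑τ :=
    ((h4.pow 3).sub (h6.pow 2)).div_const 1728
  rw [he, hder.deriv, deriv_e4, deriv_e6, dlt_eq]
  simp only [comp_apply, ofComplex_apply]
  push_cast
  ring

end FLTAgent.ES
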