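import Mathlib
import Fermat.Agent.ES.Basic
import Fermat.Agent.ES.Periodic
import Fermat.Agent.ES.LevelOne

/-!
The forms of all weights for a finite index subgroup are free over level one forms: generators,
spanning and independence.
-/

set_option autoImplicit false

noncomputable section

open UpperHalfPlane Filter Topology Complex Function
open scoped MatrixGroups ModularForm Manifold

namespace FLTAgent.ES

local notation "SL2Z" => Matrix.SpecialLinearGroup (Fin 2) ℤ

variable {Γ : Subgroup SL2Z} [Γ.FiniteIndex]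

/-- A bundled modular form from an element of `forms Γ k`. -/
def toForm {k : ℤ} {f : ℍ → ℂ} (hf : f ∈ forms Γ k) : ModularForm Γ k where
  toFun := f
  slash_action_eq' := by
    rintro _ ⟨γ, hγ, rfl⟩
    exact hf.1 γ hγ
  holo' := hf.2.1
  bdd_at_cusps' := by
    intro c hc
    rw [Subgroup.IsArithmetic.isCusp_iff_isCusp_SL2Z] at hc
    rw [OnePoint.isBoundedAt_iff_forall_SL2Z hc]
    exact fun σ _ => hf.2.2 σ

theorem forms_neg {k : ℤ} (hk : k < 0) {f : ℍ → ℂ} (hf : f ∈ forms Γ k) : f = 0 := by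
  have h := congrArg DFunLike.coe (ModularForm.isZero_of_neg_weight hk (toForm hf))
  exact h

theorem bdd_of_mul {p f : ℍ → ℂ} (hp : Tendsto p atImInfty (𝓝 1))
    (h : IsBoundedAtImInfty (p * f)) : IsBoundedAtImInfty f := by
  have hev : ∀ᶠ τ in atImInfty, p τ ≠ 0 := hp.eventually_ne one_ne_zero
  have h' : IsBoundedAtImInfty (fun τ => (p τ)⁻¹ * (p * f) τ) :=
    ((hp.inv₀ one_ne_zero).isBigO_one ℝ).mul h |>.congr_right (fun _ => by simp)
  refine h'.congr' ?_ Filter.EventuallyEq.rfl
  filter_upwards [hev] with τ hτ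
  simp [hτ]

omit [Γ.FiniteIndex] in
theorem forms_regular {K : ℤ} {A B : ℍ → ℂ} (hA : A ∈ forms Γ (K - 4)) (hB : B ∈ forms Γ (K - 6))
    (h : e4 * A + e6 * B = 0) : ∃ G ∈ forms Γ (K - 10), A = e6 * G ∧ B = -(e4 * G) := by
  have hp : ∀ τ, e4 τ * A τ + e6 τ * B τ = 0 := fun τ => congrFun h τ
  classical
  set G : ℍ → ℂ := fun τ => if e6 τ = 0 then -B τ / e4 τ else A τ / e6 τ with hG
  have hGA : A = e6 * G := by
    funext τ
    by_cases h6 : e6 τ = 0
    · have h4 : e4 τ ≠ 0 := (e4_ne_or_e6_ne τ).resolve_right (by simp [h6])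
      have := hp τ
      rw [h6, zero_mul, add_zero, mul_eq_zero] at this
      simp [this.resolve_left h4, h6]
    · simp [hG, h6, mul_div_cancel₀]
  have hGB : B = -(e4 * G) := by
    funext τ
    by_cases h6 : e6 τ = 0
    · have h4 : e4 τ ≠ 0 := (e4_ne_or_e6_ne τ).resolve_right (by simp [h6])
      simp [hG, h6, mul_div_cancel₀, h4]
    · simp only [hG, h6, if_false, Pi.neg_apply, Pi.mul_apply]
      field_simp
      linear_combination hp τ
  have hinv : ∀ σ : SL2Z, e6 * (G ∣[K - 10] σ) = A ∣[K - 4] σ ∧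
      -(e4 * (G ∣[K - 10] σ)) = B ∣[K - 6] σ := by
    intro σ
    constructor
    · rw [hGA, show K - 4 = 6 + (K - 10) by ring, ModularForm.mul_slash_SL2,
        (e6_mem (Γ := ⊤)).1 σ (Subgroup.mem_top σ)]
    · rw [hGB, show K - 6 = 4 + (K - 10) by ring, SlashAction.neg_slash, ModularForm.mul_slash_SL2,
        (e4_mem (Γ := ⊤)).1 σ (Subgroup.mem_top σ)]
  refine ⟨G, ⟨fun γ hγ => ?_, ?_, fun σ => ?_⟩, hGA, hGB⟩
  · obtain ⟨h1, h2⟩ := hinv γ
    rw [hA.1 γ hγ] at h1
    rw [hB.1 γ hγ] at h2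
    funext τ
    rcases e4_ne_or_e6_ne τ with h4 | h6
    · refine mul_left_cancel₀ h4 (neg_injective ?_)
      exact (congrFun h2 τ).trans (congrFun hGB τ)
    · exact mul_left_cancel₀ h6 ((congrFun h1 τ).trans (congrFun hGA τ))
  · rw [UpperHalfPlane.mdifferentiable_iff]
    intro z hz
    have hd4 := UpperHalfPlane.mdifferentiable_iff.mp (e4_mem (Γ := ⊤)).2.1
    have hd6 := UpperHalfPlane.mdifferentiable_iff.mp (e6_mem (Γ := ⊤)).2.1
    have hdA := UpperHalfPlane.mdifferentiable_iff.mp hA.2.1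
    have hdB := UpperHalfPlane.mdifferentiable_iff.mp hB.2.1
    have hnhds := isOpen_upperHalfPlaneSet.mem_nhds hz
    have hat : ∀ {u : ℂ → ℂ}, DifferentiableOn ℂ u {w | 0 < w.im} → DifferentiableAt ℂ u z :=
      fun hu => (hu z hz).differentiableAt hnhds
    refine DifferentiableAt.differentiableWithinAt ?_
    rcases e4_ne_or_e6_ne (ofComplex z) with h4 | h6
    · refine (((hat hdB).neg).div (hat hd4) h4).congr_of_eventuallyEq ?_
      filter_upwards [(hat hd4).continuousAt.eventually_ne h4] with w hw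
      have hB' : B (ofComplex w) = -(e4 (ofComplex w) * G (ofComplex w)) := congrFun hGB _
      simp only [comp_apply, Pi.div_apply, Pi.neg_apply, hB', neg_neg]
      exact (mul_div_cancel_left₀ _ hw).symm
    · refine ((hat hdA).div (hat hd6) h6).congr_of_eventuallyEq ?_
      filter_upwards [(hat hd6).continuousAt.eventually_ne h6] with w hw
      have hA' : A (ofComplex w) = e6 (ofComplex w) * G (ofComplex w) := congrFun hGA _
      simp only [comp_apply, Pi.div_apply, hA']
      exact (mul_div_cancel_left₀ _ hw).symm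
  · exact bdd_of_mul e6_tendsto (by rw [(hinv σ).1]; exact hA.2.2 σ)

variable (Γ)

/-- Forms of weight `k` coming from lower weight. -/
def oldPart (k : ℤ) : Submodule ℂ (ℍ → ℂ) :=
  (forms Γ (k - 4)).map (LinearMap.mulLeft ℂ e4) ⊔ (forms Γ (k - 6)).map (LinearMap.mulLeft ℂ e6)

omit [Γ.FiniteIndex] in
theorem oldPart_le (k : ℤ) : oldPart Γ k ≤ forms Γ k := by
  refine sup_le ?_ ?_
  · rintro _ ⟨a, ha, rfl⟩
    exact forms_mul_of_eq e4_mem ha (by ring)
  · rintro _ ⟨b, hb, rfl⟩
    exact forms_mul_of_eq e6_mem hb (by ring)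

omit [Γ.FiniteIndex] in
theorem exists_newPart (k : ℤ) :
    ∃ C : Submodule ℂ (ℍ → ℂ), Disjoint (oldPart Γ k) C ∧ oldPart Γ k ⊔ C = forms Γ k := by
  obtain ⟨Q, hQ⟩ := Submodule.exists_isCompl (oldPart Γ k)
  refine ⟨Q ⊓ forms Γ k, hQ.disjoint.mono_right inf_le_left, ?_⟩
  rw [← sup_inf_assoc_of_le Q (oldPart_le Γ k), hQ.sup_eq_top, top_inf_eq]

/-- A chosen complement of `oldPart` in the forms of weight `k`. -/
def newPart (k : ℤ) : Submodule ℂ (ℍ → ℂ) := (exists_newPart Γ k).choose

omit [Γ.FiniteIndex] in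
theorem newPart_disjoint (k : ℤ) : Disjoint (oldPart Γ k) (newPart Γ k) :=
  (exists_newPart Γ k).choose_spec.1

omit [Γ.FiniteIndex] in
theorem old_sup_new (k : ℤ) : oldPart Γ k ⊔ newPart Γ k = forms Γ k :=
  (exists_newPart Γ k).choose_spec.2

/-- Index type of the generators. -/
abbrev Gen : Type := Σ k : ℤ, Module.Basis.ofVectorSpaceIndex ℂ (newPart Γ k)

variable {Γ}

/-- The generator functions. -/
def gen (i : Gen Γ) : ℍ → ℂ := ((Module.Basis.ofVectorSpace ℂ (newPart Γ i.1)) i.2).1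

omit [Γ.FiniteIndex] in
theorem gen_mem (i : Gen Γ) : gen i ∈ forms Γ i.1 := by
  rw [← old_sup_new]
  exact Submodule.mem_sup_right (Subtype.mem _)

theorem wt_nonneg (i : Gen Γ) : 0 ≤ i.1 := by
  by_contra h
  exact (Module.Basis.ofVectorSpace ℂ (newPart Γ i.1)).ne_zero i.2
    (Subtype.ext (forms_neg (not_le.mp h) (gen_mem i)))

omit [Γ.FiniteIndex] in
theorem wt_even (hneg : (-1 : SL2Z) ∈ Γ) (i : Gen Γ) : Even i.1 := by
  by_contra h
  refine (Module.Basis.ofVectorSpace ℂ (newPart Γ i.1)).ne_zero i.2 (Subtype.ext ?_)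
  show gen i = 0
  funext τ
  have h1 := congrFun ((gen_mem i).1 _ hneg) τ
  rw [ModularForm.SL_slash_apply, ModularGroup.SL_neg_smul, one_smul,
    ModularGroup.denom_apply] at h1
  simp [(Int.not_even_iff_odd.mp h).neg.neg_one_zpow] at h1
  simpa using self_eq_neg.mp h1.symm

/-- A combination of the generators of weight `K`. -/
def IsComb (K : ℤ) (f : ℍ → ℂ) : Prop :=
  ∃ r : Gen Γ →₀ (ℍ → ℂ), (∀ i, r i ∈ forms ⊤ (K - i.1)) ∧
    f = r.sum fun i a => a * gen i

omit [Γ.FiniteIndex] in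
theorem IsComb.add {K : ℤ} {f g : ℍ → ℂ} (hf : IsComb (Γ := Γ) K f) (hg : IsComb (Γ := Γ) K g) :
    IsComb (Γ := Γ) K (f + g) := by
  obtain ⟨r, hr, rfl⟩ := hf
  obtain ⟨s, hs, rfl⟩ := hg
  refine ⟨r + s, fun i => add_mem (hr i) (hs i), ?_⟩
  rw [Finsupp.sum_add_index' (fun _ => zero_mul _) (fun _ _ _ => add_mul _ _ _)]

omit [Γ.FiniteIndex] in
theorem IsComb.mul {K l : ℤ} {f e : ℍ → ℂ} (he : e ∈ forms ⊤ l) (hf : IsComb (Γ := Γ) K f) :
    IsComb (Γ := Γ) (l + K) (e * f) := by
  obtain ⟨r, hr, rfl⟩ := hf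
  refine ⟨r.mapRange (fun a => e * a) (mul_zero e), fun i => ?_, ?_⟩
  · rw [Finsupp.mapRange_apply]
    exact forms_mul_of_eq he (hr i) (by ring)
  · rw [Finsupp.sum_mapRange_index (by simp), Finsupp.mul_sum]
    simp [mul_assoc]

omit [Γ.FiniteIndex] in
theorem isComb_new {K : ℤ} {f : ℍ → ℂ} (hf : f ∈ newPart Γ K) : IsComb (Γ := Γ) K f := by
  set b := Module.Basis.ofVectorSpace ℂ (newPart Γ K)
  set e : Module.Basis.ofVectorSpaceIndex ℂ (newPart Γ K) ↪ Gen Γ :=
    Function.Embedding.sigmaMk (β := fun k => Module.Basis.ofVectorSpaceIndex ℂ (newPart Γ k)) K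
  refine ⟨((b.repr ⟨f, hf⟩).mapRange (fun c : ℂ => c • (1 : ℍ → ℂ)) (zero_smul ℂ _)).embDomain e,
    fun i => ?_, ?_⟩
  · by_cases hi : i ∈ Set.range e
    · obtain ⟨j, rfl⟩ := hi
      rw [Finsupp.embDomain_apply_self, Finsupp.mapRange_apply]
      simp only [e, Function.Embedding.sigmaMk_apply, sub_self]
      exact Submodule.smul_mem _ _ forms_one
    · rw [Finsupp.embDomain_of_notMem_range _ _ _ hi]
      exact zero_mem _
  · rw [Finsupp.sum_embDomain, Finsupp.sum_mapRange_index (by simp)]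
    have h := congrArg Subtype.val (b.linearCombination_repr ⟨f, hf⟩)
    simp only [Finsupp.linearCombination_apply, Finsupp.sum, Submodule.coe_sum,
      Submodule.coe_smul] at h ⊢
    refine h.symm.trans ?_
    exact Finset.sum_congr rfl fun j _ => by simp [gen, e, b]; rfl

theorem isComb_forms : ∀ {K : ℤ} {f : ℍ → ℂ}, f ∈ forms Γ K → IsComb (Γ := Γ) K f := by
  suffices h : ∀ n : ℕ, ∀ K : ℤ, K < n → ∀ f ∈ forms Γ K, IsComb (Γ := Γ) K f from
    fun {K f} hf => h (K.toNat + 1) K (by omega) f hf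
  intro n
  induction n with
  | zero =>
    intro K hK f hf
    rw [forms_neg hK hf]
    exact ⟨0, fun i => zero_mem _, by simp⟩
  | succ n ih =>
    intro K hK f hf
    rw [← old_sup_new, Submodule.mem_sup] at hf
    obtain ⟨u, hu, v, hv, rfl⟩ := hf
    refine IsComb.add ?_ (isComb_new hv)
    rw [oldPart, Submodule.mem_sup] at hu
    obtain ⟨_, ⟨a, ha, rfl⟩, _, ⟨b, hb, rfl⟩, rfl⟩ := hu
    refine IsComb.add ?_ ?_
    · simpa [LinearMap.mulLeft_apply] using (ih (K - 4) (by omega) a ha).mul (e4_mem (Γ := ⊤))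
    · simpa [LinearMap.mulLeft_apply] using (ih (K - 6) (by omega) b hb).mul (e6_mem (Γ := ⊤))

theorem gen_independent : ∀ {K : ℤ} (r : Gen Γ →₀ (ℍ → ℂ)),
    (∀ i, r i ∈ forms ⊤ (K - i.1)) → (r.sum fun i a => a * gen i) = 0 → r = 0 := by
  suffices h : ∀ n : ℕ, ∀ K : ℤ, K < n → ∀ r : Gen Γ →₀ (ℍ → ℂ),
      (∀ i, r i ∈ forms ⊤ (K - i.1)) → (r.sum fun i a => a * gen i) = 0 → r = 0 from
    fun {K} r hr h0 => h (K.toNat + 1) K (by omega) r hr h0
  intro n
  induction n with
  | zero =>
    intro K hK r hr _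
    ext1 i
    have := wt_nonneg i
    exact levelOne_neg (by omega) (hr i)
  | succ n ih =>
    intro K hK r hr h0
    classical
    choose c a ha b hb hc hdec using fun i => levelOne_decomp (hr i)
    set s := r.support
    have hsum : ∑ i ∈ s, (c i • gen i + e4 * (a i * gen i) + e6 * (b i * gen i)) = 0 := by
      refine Eq.trans (Finset.sum_congr rfl fun i _ => ?_) h0
      rw [hdec i]
      funext τ
      simp only [Pi.add_apply, Pi.mul_apply, Pi.smul_apply, Pi.one_apply, smul_eq_mul]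
      ring
    set A := ∑ i ∈ s, a i * gen i
    set B := ∑ i ∈ s, b i * gen i
    have hA : A ∈ forms Γ (K - 4) := Submodule.sum_mem _ fun i _ =>
      forms_mul_of_eq (forms_mono le_top (ha i)) (gen_mem i) (by ring)
    have hB : B ∈ forms Γ (K - 6) := Submodule.sum_mem _ fun i _ =>
      forms_mul_of_eq (forms_mono le_top (hb i)) (gen_mem i) (by ring)
    rw [Finset.sum_add_distrib, Finset.sum_add_distrib, ← Finset.mul_sum, ← Finset.mul_sum] at hsum
    set C := ∑ i ∈ s, c i • gen i with hCdef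
    have hCnew : C ∈ newPart Γ K := Submodule.sum_mem _ fun i _ => by
      by_cases hi : i.1 = K
      · subst hi
        exact Submodule.smul_mem _ _ (Subtype.mem _)
      · rw [hc i (by omega), zero_smul]
        exact zero_mem _
    have hCold : C ∈ oldPart Γ K := by
      have heq : C = -(e4 * A + e6 * B) := by linear_combination hsum
      rw [heq]
      exact neg_mem (add_mem (Submodule.mem_sup_left ⟨A, hA, rfl⟩)
        (Submodule.mem_sup_right ⟨B, hB, rfl⟩))
    have hC0 : C = 0 := Submodule.disjoint_def.mp (newPart_disjoint Γ K) C hCold hCnew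
    have hczero : ∀ i ∈ s, c i = 0 := by
      intro i hi
      by_contra hci
      have hiK : i.1 = K := by
        by_contra h
        exact hci (hc i (by omega))
      obtain ⟨k, j⟩ := i
      simp only at hiK
      subst hiK
      set bb := Module.Basis.ofVectorSpace ℂ (newPart Γ k)
      set e : Module.Basis.ofVectorSpaceIndex ℂ (newPart Γ k) → Gen Γ := fun j => ⟨k, j⟩
      have hinj : Set.InjOn e (e ⁻¹' ↑s) := fun x _ y _ hxy => eq_of_heq (Sigma.mk.inj_iff.mp hxy).2
      have hsumK : ∑ j ∈ s.preimage e hinj, c (e j) • bb j = 0 := by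
        apply Subtype.ext
        rw [Submodule.coe_sum, ZeroMemClass.coe_zero, ← hC0, hCdef]
        simp only [Submodule.coe_smul]
        exact Finset.sum_preimage e s hinj (fun i => c i • gen i) fun i _ hnr => by
          obtain ⟨k', j'⟩ := i
          by_cases hk' : k' = k
          · subst hk'; exact absurd ⟨j', rfl⟩ hnr
          · rw [hc _ (by simp only; omega), zero_smul]
      exact hci (linearIndependent_iff'.mp bb.linearIndependent _ _ hsumK j
        (Finset.mem_preimage.mpr hi))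
    have hAB : e4 * A + e6 * B = 0 := by linear_combination hsum - hC0
    obtain ⟨G, hG, hAG, hBG⟩ := forms_regular hA hB hAB
    obtain ⟨g, hg, hgG⟩ := isComb_forms hG
    set af : Gen Γ →₀ (ℍ → ℂ) := Finsupp.indicator s (fun i _ => a i) with haf
    set bf : Gen Γ →₀ (ℍ → ℂ) := Finsupp.indicator s (fun i _ => b i) with hbf
    have haf_sum : (af.sum fun i x => x * gen i) = A :=
      Finsupp.sum_indicator_index (fun i => a i) (fun i _ => zero_mul _)
    have hbf_sum : (bf.sum fun i x => x * gen i) = B :=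
      Finsupp.sum_indicator_index (fun i => b i) (fun i _ => zero_mul _)
    have hafmem : ∀ i, af i ∈ forms ⊤ ((K - 4) - i.1) := fun i => by
      by_cases hi : i ∈ s
      · rw [haf, Finsupp.indicator_of_mem hi, show K - 4 - i.1 = K - i.1 - 4 by ring]; exact ha i
      · rw [haf, Finsupp.indicator_of_notMem hi]; exact zero_mem _
    have hbfmem : ∀ i, bf i ∈ forms ⊤ ((K - 6) - i.1) := fun i => by
      by_cases hi : i ∈ s
      · rw [hbf, Finsupp.indicator_of_mem hi, show K - 6 - i.1 = K - i.1 - 6 by ring]; exact hb i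
      · rw [hbf, Finsupp.indicator_of_notMem hi]; exact zero_mem _
    have hg6 : ∀ i, (g.mapRange (fun x => e6 * x) (mul_zero e6)) i ∈ forms ⊤ ((K - 4) - i.1) :=
      fun i => by rw [Finsupp.mapRange_apply]; exact forms_mul_of_eq e6_mem (hg i) (by ring)
    have hg4 : ∀ i, (g.mapRange (fun x => e4 * x) (mul_zero e4)) i ∈ forms ⊤ ((K - 6) - i.1) :=
      fun i => by rw [Finsupp.mapRange_apply]; exact forms_mul_of_eq e4_mem (hg i) (by ring)
    have hsumneg : ∀ (u : Gen Γ →₀ (ℍ → ℂ)),
        ((-u).sum fun i x => x * gen i) = -(u.sum fun i x => x * gen i) := fun u => by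
      rw [Finsupp.sum_neg_index (fun i => zero_mul _)]
      simp only [neg_mul, Finsupp.sum_neg]
    have hA' := ih (K - 4) (by omega) (af + -(g.mapRange (fun x => e6 * x) (mul_zero e6)))
      (fun i => add_mem (hafmem i) (neg_mem (hg6 i))) (by
        rw [Finsupp.sum_add_index' (fun _ => zero_mul _) (fun _ _ _ => add_mul _ _ _), haf_sum,
          hsumneg, Finsupp.sum_mapRange_index (by simp)]
        simp only [mul_assoc, ← Finsupp.mul_sum, ← hgG]
        rw [hAG]; ring)
    have hB' := ih (K - 6) (by omega) (bf + g.mapRange (fun x => e4 * x) (mul_zero e4))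
      (fun i => add_mem (hbfmem i) (hg4 i)) (by
        rw [Finsupp.sum_add_index' (fun _ => zero_mul _) (fun _ _ _ => add_mul _ _ _), hbf_sum,
          Finsupp.sum_mapRange_index (by simp)]
        simp only [mul_assoc, ← Finsupp.mul_sum, ← hgG]
        rw [hBG]; ring)
    ext1 i
    by_cases hi : i ∈ s
    · have e1 := DFunLike.congr_fun hA' i
      have e2 := DFunLike.congr_fun hB' i
      simp only [Finsupp.add_apply, Finsupp.neg_apply, Finsupp.mapRange_apply, Finsupp.zero_apply,
        haf, hbf, Finsupp.indicator_of_mem hi] at e1 e2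
      rw [Finsupp.zero_apply, hdec i, hczero i hi, zero_smul, zero_add]
      linear_combination e4 * e1 + e6 * e2
    · simpa [s] using hi

end FLTAgent.ES
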