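import Mathlib
import Fermat.Agent.ES.LevelOne

/-!
The modular invariant separates orbits of SL(2,ℤ) on the upper half plane, and for every point
there is a level one form whose zeros are exactly the orbit of that point, all simple.
-/

set_option autoImplicit false

noncomputable section

open UpperHalfPlane Filter Topology Complex Function
open scoped MatrixGroups ModularForm Manifold

namespace FLTAgent.ES

local notation "SL2Z" => Matrix.SpecialLinearGroup (Fin 2) ℤ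

/-- The modular invariant `E₄³/Δ`. -/
def jfun : ℍ → ℂ := fun τ => e4 τ ^ 3 / dlt τ

/-- Two points are in the same orbit. -/
def SameOrbit (a b : ℍ) : Prop := ∃ γ : SL2Z, γ • a = b

theorem SameOrbit.symm {a b : ℍ} (h : SameOrbit a b) : SameOrbit b a := by
  obtain ⟨γ, rfl⟩ := h
  exact ⟨γ⁻¹, inv_smul_smul γ a⟩

theorem SameOrbit.trans {a b c : ℍ} (h : SameOrbit a b) (h' : SameOrbit b c) : SameOrbit a c := by
  obtain ⟨γ, rfl⟩ := h
  obtain ⟨δ, rfl⟩ := h'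
  exact ⟨δ * γ, mul_smul δ γ a⟩

theorem top_apply_smul {k : ℤ} {f : ℍ → ℂ} (hf : f ∈ forms ⊤ k) (γ : SL2Z) (τ : ℍ) :
    f (γ • τ) = denom γ τ ^ k * f τ :=
  (ModularForm.slash_action_eq'_iff k f γ τ).mp (congrFun (hf.1 γ (Subgroup.mem_top γ)) τ)

theorem jfun_smul (γ : SL2Z) (τ : ℍ) : jfun (γ • τ) = jfun τ := by
  unfold jfun
  rw [top_apply_smul e4_mem, top_apply_smul dlt_mem]
  have := denom_ne_zero (γ : GL (Fin 2) ℝ) τ
  field_simp

theorem jfun_sameOrbit {a b : ℍ} (h : SameOrbit a b) : jfun b = jfun a := by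
  obtain ⟨γ, rfl⟩ := h
  exact jfun_smul γ a

theorem mdiff_jfun : MDiff jfun := by
  rw [UpperHalfPlane.mdifferentiable_iff]
  exact ((UpperHalfPlane.mdifferentiable_iff.mp (e4_mem (Γ := ⊤)).2.1).pow 3).div
    (UpperHalfPlane.mdifferentiable_iff.mp (dlt_mem (Γ := ⊤)).2.1) (fun z _ => dlt_ne_zero _)

theorem continuous_jfun : Continuous jfun := mdiff_jfun.continuous

theorem jfun_sub_1728 (τ : ℍ) : jfun τ - 1728 = e6 τ ^ 2 / dlt τ := by
  have := dlt_ne_zero τ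
  rw [jfun, div_sub' this, dlt_eq]
  congr 1
  ring

theorem jfun_ne_of_e4_e6 {τ : ℍ} (h : jfun τ ≠ 0 ∧ jfun τ ≠ 1728) : e4 τ ≠ 0 ∧ e6 τ ≠ 0 := by
  refine ⟨fun h4 => h.1 (by simp [jfun, h4]), fun h6 => h.2 ?_⟩
  have := jfun_sub_1728 τ
  simpa [h6, sub_eq_zero] using this

theorem hasDerivAt_jfun (τ : ℍ) : HasDerivAt (jfun ∘ ofComplex)
    (-(2 * Real.pi * Complex.I) * (e4 τ ^ 2 * e6 τ / dlt τ)) ↑τ := by
  have hm := fun (f : ℍ → ℂ) (hf : MDiff f) =>
    (UpperHalfPlane.mdifferentiableAt_iff.mp (hf τ)).hasDerivAt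
  have h4 := hm e4 (e4_mem (Γ := ⊤)).2.1
  have hd := hm dlt (dlt_mem (Γ := ⊤)).2.1
  have h := (h4.pow 3).div hd (by simpa [ofComplex_apply] using dlt_ne_zero τ)
  refine h.congr_deriv ?_
  simp only [comp_apply, ofComplex_apply, Pi.pow_apply]
  rw [deriv_e4, deriv_dlt]
  have := dlt_ne_zero τ
  field_simp
  push_cast
  ring

theorem deriv_jfun_ne_zero {τ : ℍ} (h : jfun τ ≠ 0 ∧ jfun τ ≠ 1728) :
    deriv (jfun ∘ ofComplex) ↑τ ≠ 0 := by
  obtain ⟨h4, h6⟩ := jfun_ne_of_e4_e6 h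
  simp [(hasDerivAt_jfun τ).deriv, h4, h6, dlt_ne_zero, Real.pi_ne_zero]

theorem jfun_injOn_nhds {τ : ℍ} (h : jfun τ ≠ 0 ∧ jfun τ ≠ 1728) :
    ∃ U ∈ 𝓝 τ, Set.InjOn jfun U := by
  have han : AnalyticAt ℂ (jfun ∘ ofComplex) ↑τ :=
    ((UpperHalfPlane.mdifferentiable_iff.mp mdiff_jfun).analyticAt
      (isOpen_upperHalfPlaneSet.mem_nhds τ.im_pos))
  have hs := han.hasStrictDerivAt
  have hinv := hs.eventually_left_inverse (deriv_jfun_ne_zero h)
  refine ⟨_, isOpenEmbedding_coe.continuous.continuousAt.preimage_mem_nhds hinv,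
    fun a ha b hb hab => ?_⟩
  have ha' : HasStrictDerivAt.localInverse _ _ _ hs (deriv_jfun_ne_zero h)
      ((jfun ∘ ofComplex) (a : ℂ)) = a := ha
  have hb' : HasStrictDerivAt.localInverse _ _ _ hs (deriv_jfun_ne_zero h)
      ((jfun ∘ ofComplex) (b : ℂ)) = b := hb
  simp only [comp_apply, ofComplex_apply, hab] at ha' hb'
  exact UpperHalfPlane.ext (ha'.symm.trans hb')

/-- Near infinity the invariant determines the point up to translation. -/
theorem jfun_sameOrbit_atImInfty :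
    ∃ B : ℝ, ∀ a b : ℍ, B ≤ a.im → B ≤ b.im → jfun a = jfun b → SameOrbit a b := by
  set A := UpperHalfPlane.cuspFunction 1 e4
  set D := UpperHalfPlane.cuspFunction 1 dlt
  have hA := analyticAt_cuspFunction_zero one_pos (top_periodic e4_mem) (e4_mem (Γ := ⊤)).2.1
    (top_bdd e4_mem)
  have hD := analyticAt_cuspFunction_zero one_pos (top_periodic dlt_mem) (dlt_mem (Γ := ⊤)).2.1
    (top_bdd dlt_mem)
  have hA0 : A 0 = 1 :=
    tendsto_nhds_unique (tendsto_valInf e4_mem) e4_tendsto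
  have hD0 : D 0 = 0 :=
    tendsto_nhds_unique (tendsto_valInf dlt_mem) dlt_tendsto
  have hD1 : deriv D 0 = 1 := by
    simpa [qExpansion_coeff, iteratedDeriv_one, D, dlt] using ModularForm.discriminant_qExpansion_coeff_one
  set Φ : ℂ → ℂ := fun q => D q / A q ^ 3
  have hs : HasStrictDerivAt Φ 1 0 := by
    have h := hD.hasStrictDerivAt.div (hA.hasStrictDerivAt.pow 3) (by simp [hA0, A] : _ ≠ (0:ℂ))
    refine h.congr_deriv ?_
    simp only [Pi.pow_apply]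
    rw [show UpperHalfPlane.cuspFunction 1 e4 0 = 1 from hA0,
      show UpperHalfPlane.cuspFunction 1 dlt 0 = 0 from hD0,
      show deriv (UpperHalfPlane.cuspFunction 1 dlt) 0 = 1 from hD1]
    simp
  have hinv := hs.eventually_left_inverse one_ne_zero
  have hev := (qParam_tendsto_atImInfty one_pos).eventually hinv
  rw [Filter.Eventually, atImInfty_mem] at hev
  obtain ⟨B, hB⟩ := hev
  refine ⟨B, fun a b ha hb hab => ?_⟩
  have hΦ : ∀ τ : ℍ, Φ (Periodic.qParam 1 (τ : ℂ)) = (jfun τ)⁻¹ := fun τ => by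
    simp only [Φ, A, D, jfun, inv_div,
      eq_cuspFunction τ one_ne_zero (top_periodic dlt_mem),
      eq_cuspFunction τ one_ne_zero (top_periodic e4_mem)]
  have e1 : HasStrictDerivAt.localInverse Φ 1 0 hs one_ne_zero
      (Φ (Periodic.qParam 1 (a : ℂ))) = Periodic.qParam 1 (a : ℂ) := hB a ha
  have e2 : HasStrictDerivAt.localInverse Φ 1 0 hs one_ne_zero
      (Φ (Periodic.qParam 1 (b : ℂ))) = Periodic.qParam 1 (b : ℂ) := hB b hb
  rw [hΦ, hab] at e1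
  rw [hΦ, e1] at e2
  simp only [Periodic.qParam, ofReal_one, div_one] at e2
  obtain ⟨n, hn⟩ := Complex.exp_eq_exp_iff_exists_int.mp e2
  refine SameOrbit.symm ⟨ModularGroup.T ^ n, ?_⟩
  rw [modular_T_zpow_smul]
  apply UpperHalfPlane.ext
  have h2 : (2 * Real.pi * Complex.I : ℂ) ≠ 0 := by simp [Real.pi_ne_zero]
  rw [coe_vadd]
  push_cast
  refine mul_left_cancel₀ h2 ?_
  linear_combination -hn

/-- The values of the invariant on truncated fundamental domains. -/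
theorem jfun_large (R : ℝ) :
    ∃ B : ℝ, ∀ τ ∈ ModularGroup.fd, ‖jfun τ‖ ≤ R → τ.im ≤ B := by
  have hq : Tendsto (fun τ => dlt τ / e4 τ ^ 3) atImInfty (𝓝 0) := by
    have := dlt_tendsto.div (e4_tendsto.pow 3) (by norm_num)
    simp only [Pi.div_def] at this
    simpa using this
  have hev : ∀ᶠ τ in atImInfty, ¬ ‖jfun τ‖ ≤ R := by
    have h4 : ∀ᶠ τ in atImInfty, e4 τ ≠ 0 := e4_tendsto.eventually_ne one_ne_zero
    have hsmall : ∀ᶠ τ in atImInfty, ‖dlt τ / e4 τ ^ 3‖ < (|R| + 1)⁻¹ := by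
      have := (tendsto_zero_iff_norm_tendsto_zero.mp hq).eventually (eventually_lt_nhds
        (inv_pos.mpr (by positivity : (0 : ℝ) < |R| + 1)))
      exact this
    filter_upwards [h4, hsmall] with τ h hs hle
    rw [← inv_div, ← jfun, norm_inv] at hs
    have hpos : 0 < ‖jfun τ‖ := norm_pos_iff.mpr (div_ne_zero (pow_ne_zero _ h) (dlt_ne_zero τ))
    rw [inv_lt_inv₀ hpos (by positivity)] at hs
    linarith [le_abs_self R]
  rw [Filter.Eventually, atImInfty_mem] at hev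
  obtain ⟨B, hB⟩ := hev
  exact ⟨B, fun τ _ hle => le_of_not_ge fun h => hB τ h hle⟩

/-- The set of values taken on two different orbits. -/
def doubleValues : Set ℂ :=
  {c | ∃ a b : ℍ, jfun a = c ∧ jfun b = c ∧ ¬ SameOrbit a b}

theorem not_sameOrbit_nhds {a b : ℍ} (h : ¬ SameOrbit a b) :
    ∀ᶠ p in 𝓝 a ×ˢ 𝓝 b, ¬ SameOrbit p.1 p.2 := by
  obtain ⟨K, hK, hKa⟩ := exists_compact_mem_nhds a
  obtain ⟨L, hL, hLb⟩ := exists_compact_mem_nhds b
  let 𝒢 : Subgroup (GL (Fin 2) ℝ) := 𝒮ℒ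
  have hfin := ProperlyDiscontinuousSMul.finite_disjoint_inter_image (Γ := 𝒢) hK hL
  have hsep : ∀ g : 𝒢, ∀ᶠ p in 𝓝 a ×ˢ 𝓝 b, g • p.1 ≠ p.2 := by
    rintro ⟨g, γ, rfl⟩
    have hne : (Matrix.SpecialLinearGroup.mapGL ℝ γ) • a ≠ b := fun he => h ⟨γ, he⟩
    have hcont : Continuous fun τ : ℍ => (Matrix.SpecialLinearGroup.mapGL ℝ γ) • τ :=
      continuous_const_smul _
    exact (((hcont.tendsto a).comp tendsto_fst).prodMk_nhds tendsto_snd).eventually
      (isOpen_ne_fun continuous_fst continuous_snd |>.mem_nhds hne)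
  filter_upwards [prod_mem_prod hKa hLb, hfin.eventually_all.mpr fun g _ => hsep g] with p hp hall
  rintro ⟨γ, hγ⟩
  exact hall (⟨Matrix.SpecialLinearGroup.mapGL ℝ γ, γ, rfl⟩ : (𝒢 : Subgroup (GL (Fin 2) ℝ)))
    ⟨p.2, ⟨p.1, hp.1, hγ⟩, hp.2⟩ hγ

theorem jfun_map_nhds (a : ℍ) : 𝓝 (jfun a) ≤ map jfun (𝓝 a) := by
  have han := (UpperHalfPlane.mdifferentiable_iff.mp mdiff_jfun).analyticOnNhd
    isOpen_upperHalfPlaneSet
  rcases (han _ a.im_pos).eventually_constant_or_nhds_le_map_nhds with hc | hle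
  · exfalso
    have hconst := han.eqOn_of_preconnected_of_eventuallyEq analyticOnNhd_const
      isPreconnected_Hset a.im_pos hc
    obtain ⟨B, hB⟩ := jfun_large ‖jfun a‖
    have hval : ∀ τ : ℍ, jfun τ = jfun a := fun τ => by
      simpa [ofComplex_apply] using hconst τ.im_pos
    let t : ℝ := max B 1 + 1
    have ht : 0 < t := by positivity
    let τ : ℍ := ⟨⟨0, t⟩, ht⟩
    have hfd : τ ∈ ModularGroup.fd := by
      constructor
      · simp [τ, Complex.normSq_apply]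
        nlinarith [le_max_right B 1]
      · simp [τ, UpperHalfPlane.re]
    have := hB τ hfd (by rw [hval τ])
    simp [τ, t, UpperHalfPlane.im] at this
    linarith [le_max_left B 1]
  · have h : (𝓝 (a : ℂ)) = map UpperHalfPlane.coe (𝓝 a) := (isOpenEmbedding_coe.map_nhds_eq a).symm
    rw [h, Filter.map_map] at hle
    simpa [comp_def, ofComplex_apply] using hle

theorem isOpen_doubleValues : IsOpen doubleValues := by
  rw [isOpen_iff_mem_nhds]
  rintro c ⟨a, b, ha, hb, hab⟩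
  obtain ⟨U, hU, V, hV, hUV⟩ := Filter.mem_prod_iff.mp (not_sameOrbit_nhds hab)
  have h1 : jfun '' U ∈ 𝓝 c := ha ▸ jfun_map_nhds a (image_mem_map hU)
  have h2 : jfun '' V ∈ 𝓝 c := hb ▸ jfun_map_nhds b (image_mem_map hV)
  filter_upwards [h1, h2] with d hd1 hd2
  obtain ⟨a', ha', rfl⟩ := hd1
  obtain ⟨b', hb', hbd⟩ := hd2
  exact ⟨a', b', rfl, hbd, hUV (Set.mk_mem_prod ha' hb')⟩

theorem not_doubleValues_nhds {c : ℂ} (hc : c ≠ 0 ∧ c ≠ 1728) (hV : c ∉ doubleValues) :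
    ∀ᶠ d in 𝓝 c, d ∉ doubleValues := by
  obtain ⟨B, hB⟩ := jfun_large (‖c‖ + 1)
  set K := ModularGroup.truncatedFundamentalDomain B
  have hK := ModularGroup.isCompact_truncatedFundamentalDomain B
  have hloc : ∀ p ∈ K ×ˢ K, ∀ᶠ z : ℂ × (ℍ × ℍ) in 𝓝 (c, p),
      ¬ (jfun z.2.1 = z.1 ∧ jfun z.2.2 = z.1 ∧ ¬ SameOrbit z.2.1 z.2.2) := by
    rintro ⟨a, b⟩ -
    by_cases hab : jfun a = c ∧ jfun b = c
    · obtain ⟨γ, hγ⟩ : SameOrbit a b := by
        by_contra h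
        exact hV ⟨a, b, hab.1, hab.2, h⟩
      obtain ⟨U, hU, hinj⟩ := jfun_injOn_nhds (τ := b) (by rw [hab.2]; exact hc)
      have hcont : Continuous fun z : ℂ × (ℍ × ℍ) => γ • z.2.1 :=
        (continuous_const_smul (Matrix.SpecialLinearGroup.mapGL ℝ γ)).comp (continuous_fst.comp continuous_snd)
      have h1 := hcont.continuousAt.preimage_mem_nhds (x := (c, (a, b))) (hγ.symm ▸ hU)
      have h2 : Prod.snd ∘ Prod.snd ⁻¹' U ∈ 𝓝 (c, (a, b)) :=
        (continuous_snd.comp continuous_snd).continuousAt.preimage_mem_nhds hU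
      filter_upwards [h1, h2] with z hz1 hz2
      rintro ⟨e1, e2, e3⟩
      exact e3 ⟨γ, hinj hz1 hz2 (by rw [jfun_smul, e1, e2])⟩
    · have hopen : IsOpen {z : ℂ × (ℍ × ℍ) | jfun z.2.1 ≠ z.1 ∨ jfun z.2.2 ≠ z.1} :=
        (isOpen_ne_fun (continuous_jfun.comp (by fun_prop)) continuous_fst).union
          (isOpen_ne_fun (continuous_jfun.comp (by fun_prop)) continuous_fst)
      have hmem : (c, (a, b)) ∈ {z : ℂ × (ℍ × ℍ) | jfun z.2.1 ≠ z.1 ∨ jfun z.2.2 ≠ z.1} :=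
        not_and_or.mp hab
      filter_upwards [hopen.mem_nhds hmem] with z hz
      rintro ⟨e1, e2, -⟩
      exact hz.elim (fun h => h e1) (fun h => h e2)
  have h := (hK.prod hK).eventually_forall_of_forall_eventually
    (P := fun (d : ℂ) (p : ℍ × ℍ) => ¬ (jfun p.1 = d ∧ jfun p.2 = d ∧ ¬ SameOrbit p.1 p.2)) hloc
  filter_upwards [h, Metric.ball_mem_nhds c one_pos] with d hd hball
  rintro ⟨a, b, ha, hb, hab⟩
  obtain ⟨g, hg⟩ := ModularGroup.exists_smul_mem_fd a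
  obtain ⟨g', hg'⟩ := ModularGroup.exists_smul_mem_fd b
  have hnorm : ‖d‖ ≤ ‖c‖ + 1 := by
    have := norm_le_norm_add_norm_sub' d c
    rw [Metric.mem_ball, dist_eq_norm] at hball
    linarith
  refine hd (g • a, g' • b) ⟨⟨hg, hB _ hg ?_⟩, hg', hB _ hg' ?_⟩
    ⟨by rw [jfun_smul, ha], by rw [jfun_smul, hb], ?_⟩
  · rwa [jfun_smul, ha]
  · rwa [jfun_smul, hb]
  · exact fun h => hab (SameOrbit.trans (SameOrbit.trans ⟨g, rfl⟩ h) ⟨g'⁻¹, inv_smul_smul g' b⟩)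

theorem doubleValues_eq_empty : doubleValues = ∅ := by
  obtain ⟨B, hB⟩ := jfun_sameOrbit_atImInfty
  obtain ⟨M, hM⟩ := (ModularGroup.isCompact_truncatedFundamentalDomain B).exists_bound_of_continuousOn
    continuous_jfun.continuousOn
  have hbig : ∀ c : ℂ, M < ‖c‖ → c ∉ doubleValues := by
    rintro c hc ⟨a, b, ha, hb, hab⟩
    obtain ⟨g, hg⟩ := ModularGroup.exists_smul_mem_fd a
    obtain ⟨g', hg'⟩ := ModularGroup.exists_smul_mem_fd b
    have hi : ∀ τ : ℍ, τ ∈ ModularGroup.fd → jfun τ = c → B ≤ τ.im := fun τ hτ hj =>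
      le_of_not_ge fun hle => absurd (hM τ ⟨hτ, hle⟩) (by rw [hj]; linarith)
    have h1 := hi _ hg (by rw [jfun_smul, ha])
    have h2 := hi _ hg' (by rw [jfun_smul, hb])
    exact hab ((SameOrbit.trans ⟨g, rfl⟩
      (hB _ _ h1 h2 (by rw [jfun_smul, jfun_smul, ha, hb]))).trans ⟨g'⁻¹, inv_smul_smul g' b⟩)
  have hconn : IsPreconnected ({0, 1728} : Set ℂ)ᶜ :=
    ((Set.toFinite _).countable.isConnected_compl_of_one_lt_rank
      (by rw [Complex.rank_real_complex]; norm_num)).isPreconnected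
  have hsub : doubleValues ⊆ {0, 1728} := by
    intro c hc
    by_contra hc'
    let W : Set ℂ := {d | d ∉ doubleValues ∧ d ≠ 0 ∧ d ≠ 1728}
    have hW : IsOpen W := by
      rw [isOpen_iff_mem_nhds]
      rintro d ⟨h1, h2, h3⟩
      filter_upwards [not_doubleValues_nhds ⟨h2, h3⟩ h1, eventually_ne_nhds h2,
        eventually_ne_nhds h3] with e e1 e2 e3
      exact ⟨e1, e2, e3⟩
    set d : ℂ := ((max M 1728 + 1 : ℝ) : ℂ) with hd
    have hdpos : 0 < max M 1728 + 1 := by positivity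
    have hdW : d ∈ W := by
      refine ⟨hbig d ?_, by simp [hd]; exact_mod_cast hdpos.ne', ?_⟩
      · rw [hd, norm_real, Real.norm_eq_abs, abs_of_pos hdpos]
        linarith [le_max_left M 1728]
      · intro h
        rw [hd, show (1728 : ℂ) = ((1728 : ℝ) : ℂ) by norm_num, ofReal_inj] at h
        linarith [le_max_right M 1728]
    have hcov : ({0, 1728} : Set ℂ)ᶜ ⊆ doubleValues ∪ W := by
      intro e he
      by_cases h : e ∈ doubleValues
      · exact Or.inl h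
      · simp only [Set.mem_compl_iff, Set.mem_insert_iff, Set.mem_singleton_iff, not_or] at he
        exact Or.inr ⟨h, he⟩
    obtain ⟨e, -, he1, he2⟩ := hconn _ _ isOpen_doubleValues hW hcov ⟨c, hc', hc⟩
      ⟨d, by simp [hdW.2.1, hdW.2.2], hdW⟩
    exact he2.1 he1
  by_contra hne
  obtain ⟨c, hc⟩ := Set.nonempty_iff_ne_empty.mpr hne
  exact infinite_of_mem_nhds c (isOpen_doubleValues.mem_nhds hc) ((Set.toFinite _).subset hsub)

/-- The modular invariant separates the orbits. -/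
theorem sameOrbit_of_jfun_eq {a b : ℍ} (h : jfun a = jfun b) : SameOrbit a b := by
  by_contra hab
  exact (Set.eq_empty_iff_forall_notMem.mp doubleValues_eq_empty) _ ⟨a, b, rfl, h.symm, hab⟩

theorem sameOrbit_iff {a b : ℍ} : SameOrbit a b ↔ jfun a = jfun b :=
  ⟨fun h => (jfun_sameOrbit h).symm, sameOrbit_of_jfun_eq⟩

/-- A level one form with simple zeros exactly on the orbit of `τ₀`. -/
structure OrbitForm (τ₀ : ℍ) where
  /-- the weight -/
  wt : ℤ
  /-- the form -/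
  p : ℍ → ℂ
  mem : p ∈ forms ⊤ wt
  zero_iff : ∀ τ, p τ = 0 ↔ SameOrbit τ₀ τ
  simple : ∀ τ, p τ = 0 → deriv (p ∘ ofComplex) ↑τ ≠ 0
  lim : Tendsto p atImInfty (𝓝 1)
  wt_cases : (wt = 4 ∧ e4 τ₀ = 0 ∧ p = e4) ∨ (wt = 6 ∧ e6 τ₀ = 0 ∧ p = e6) ∨
    (wt = 12 ∧ e4 τ₀ ≠ 0 ∧ e6 τ₀ ≠ 0)

theorem exists_orbitForm (τ₀ : ℍ) : Nonempty (OrbitForm τ₀) := by
  by_cases h4 : e4 τ₀ = 0
  · refine ⟨⟨4, e4, e4_mem, fun τ => ?_, fun τ hτ => ?_, e4_tendsto, Or.inl ⟨rfl, h4, rfl⟩⟩⟩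
    · rw [sameOrbit_iff]
      simp [jfun, h4, dlt_ne_zero, eq_comm (a := (0 : ℂ))]
    · simp [deriv_e4, hτ, Real.pi_ne_zero, (e4_ne_or_e6_ne τ).resolve_left (by simp [hτ])]
  by_cases h6 : e6 τ₀ = 0
  · refine ⟨⟨6, e6, e6_mem, fun τ => ?_, fun τ hτ => ?_, e6_tendsto, Or.inr (Or.inl ⟨rfl, h6, rfl⟩)⟩⟩
    · rw [sameOrbit_iff]
      have h0 : jfun τ₀ = 1728 := by simpa [h6, sub_eq_zero] using jfun_sub_1728 τ₀
      rw [h0, eq_comm (a := (1728 : ℂ)), ← sub_eq_zero (a := jfun τ), jfun_sub_1728]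
      simp [dlt_ne_zero]
    · simp [deriv_e6, hτ, Real.pi_ne_zero, (e4_ne_or_e6_ne τ).resolve_right (by simp [hτ])]
  set c := jfun τ₀ with hc
  refine ⟨⟨12, e4 ^ 3 - c • dlt, ?_, fun τ => ?_, fun τ hτ => ?_, ?_, Or.inr (Or.inr ⟨rfl, h4, h6⟩)⟩⟩
  · exact sub_mem (forms_pow e4_mem 3) (Submodule.smul_mem _ _ dlt_mem)
  · rw [sameOrbit_iff, ← hc, eq_comm (a := c), jfun, div_eq_iff (dlt_ne_zero τ)]
    simp [sub_eq_zero]
  · simp only [Pi.sub_apply, Pi.pow_apply, Pi.smul_apply, smul_eq_mul, sub_eq_zero] at hτ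
    have hjτ : jfun τ = c := by rw [jfun, div_eq_iff (dlt_ne_zero τ)]; exact hτ
    have hc0 : jfun τ ≠ 0 ∧ jfun τ ≠ 1728 := by
      rw [hjτ, hc]
      refine ⟨div_ne_zero (pow_ne_zero _ h4) (dlt_ne_zero _), fun h => h6 ?_⟩
      have h' := jfun_sub_1728 τ₀
      rw [h, sub_self, eq_comm, div_eq_zero_iff] at h'
      exact eq_zero_of_pow_eq_zero (h'.resolve_right (dlt_ne_zero _))
    obtain ⟨hτ4, hτ6⟩ := jfun_ne_of_e4_e6 hc0
    have hm := fun (f : ℍ → ℂ) (hf : MDiff f) =>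
      (UpperHalfPlane.mdifferentiableAt_iff.mp (hf τ)).hasDerivAt
    have hd : HasDerivAt ((e4 ^ 3 - c • dlt : ℍ → ℂ) ∘ ofComplex) _ ↑τ :=
      ((hm e4 (e4_mem (Γ := ⊤)).2.1).pow 3).sub ((hm dlt (dlt_mem (Γ := ⊤)).2.1).const_mul c)
    rw [hd.deriv]
    simp only [comp_apply, ofComplex_apply, deriv_e4, deriv_dlt]
    have : ((3 : ℕ) : ℂ) * e4 τ ^ (3 - 1) * (2 * Real.pi * Complex.I *
        (-(1 / 3) * e6 τ + 3⁻¹ * EisensteinSeries.E2 τ * e4 τ)) - c * (2 * Real.pi * Complex.I * (EisensteinSeries.E2 τ * dlt τ))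
        = -(2 * Real.pi * Complex.I) * (e4 τ ^ 2 * e6 τ) := by
      push_cast
      linear_combination (2 * Real.pi * Complex.I * EisensteinSeries.E2 τ) * hτ
    rw [this]
    simp [hτ4, hτ6, Real.pi_ne_zero]
  · have := (e4_tendsto.pow 3).sub (dlt_tendsto.const_smul c)
    simpa [Pi.sub_def, Pi.pow_def, Pi.smul_def] using this

end FLTAgent.ES
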