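import Mathlib
import Fermat.Agent.ES.Basic
import Fermat.Agent.ES.LevelOne
import Fermat.Agent.ES.JInjective
import Fermat.Agent.ES.FreeModule

/-!
Division of a form by a level one form with simple zeros on a single orbit.
-/

set_option autoImplicit false

noncomputable section

open UpperHalfPlane Filter Topology Complex Function
open scoped MatrixGroups ModularForm Manifold

namespace FLTAgent.ES

local notation "SL2Z" => Matrix.SpecialLinearGroup (Fin 2) ℤ

theorem forms_apply_smul {Γ : Subgroup SL2Z} {k : ℤ} {f : ℍ → ℂ} (hf : f ∈ forms Γ k)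
    (σ : SL2Z) (τ : ℍ) :
    cosetSlash k f ((σ⁻¹ : SL2Z) : SL2Z ⧸ Γ) τ = f (σ • τ) * denom σ τ ^ (-k) := by
  rw [cosetSlash_mk hf, inv_inv, ModularForm.SL_slash_apply]

theorem exists_div {Γ : Subgroup SL2Z} {K : ℤ} {τ₀ : ℍ} (P : OrbitForm τ₀) {F : ℍ → ℂ}
    (hF : F ∈ forms Γ K) (hvan : ∀ x : SL2Z ⧸ Γ, cosetSlash K F x τ₀ = 0) :
    ∃ G ∈ forms Γ (K - P.wt), F = P.p * G := by
  classical
  have hzero : ∀ τ, P.p τ = 0 → F τ = 0 := by
    intro τ hτ
    obtain ⟨γ, rfl⟩ := (P.zero_iff τ).mp hτ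
    have h := hvan ((γ⁻¹ : SL2Z) : SL2Z ⧸ Γ)
    rw [forms_apply_smul hF] at h
    exact (mul_eq_zero.mp h).resolve_right (zpow_ne_zero _ (denom_ne_zero _ _))
  set u : ℂ → ℂ := F ∘ ofComplex with hu
  set v : ℂ → ℂ := P.p ∘ ofComplex with hv
  set G : ℍ → ℂ := fun τ =>
    if P.p τ = 0 then deriv u (τ : ℂ) / deriv v (τ : ℂ) else F τ / P.p τ with hGdef
  have hFG : F = P.p * G := by
    funext τ
    by_cases h : P.p τ = 0
    · simp [h, hzero τ h]
    · simp [hGdef, h, mul_div_cancel₀]
  have hdu := UpperHalfPlane.mdifferentiable_iff.mp hF.2.1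
  have hdv := UpperHalfPlane.mdifferentiable_iff.mp P.mem.2.1
  have hGd : MDiff G := by
    rw [UpperHalfPlane.mdifferentiable_iff]
    intro z hz
    refine DifferentiableAt.differentiableWithinAt ?_
    have hnhds := isOpen_upperHalfPlaneSet.mem_nhds hz
    have hu1 : DifferentiableAt ℂ u z := (hdu z hz).differentiableAt hnhds
    have hv1 : DifferentiableAt ℂ v z := (hdv z hz).differentiableAt hnhds
    by_cases h : v z = 0
    · have hus : DifferentiableAt ℂ (dslope u z) z :=
        (((Complex.differentiableOn_dslope hnhds).mpr hdu) z hz).differentiableAt hnhds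
      have hvs : DifferentiableAt ℂ (dslope v z) z :=
        (((Complex.differentiableOn_dslope hnhds).mpr hdv) z hz).differentiableAt hnhds
      have hzcoe : ((ofComplex z : ℍ) : ℂ) = z := by rw [ofComplex_apply_of_im_pos hz]
      have hne : dslope v z z ≠ 0 := by
        rw [dslope_same]
        have h' := P.simple (ofComplex z) h
        rwa [hzcoe] at h'
      have hu0 : u z = 0 := hzero _ h
      refine (hus.div hvs hne).congr_of_eventuallyEq ?_
      filter_upwards [hvs.continuousAt.eventually_ne hne, hnhds] with w hw hwim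
      rcases eq_or_ne w z with rfl | hwz
      · have h' : P.p (ofComplex w) = 0 := h
        simp [comp_apply, hGdef, h', dslope_same, hzcoe]
      · rw [dslope_of_ne _ hwz, slope_def_field, h, sub_zero] at hw
        have hw' : P.p (ofComplex w) ≠ 0 := fun h0 => hw (by simp [v, h0])
        simp only [comp_apply, Pi.div_apply, hGdef, hw', if_false, dslope_of_ne _ hwz,
          slope_def_field, hu0, h, sub_zero]
        rw [div_div_div_cancel_right₀ (sub_ne_zero.mpr hwz)]
        simp [u, v]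
    · refine (hu1.div hv1 h).congr_of_eventuallyEq ?_
      filter_upwards [hv1.continuousAt.eventually_ne h] with w hw
      have hw' : P.p (ofComplex w) ≠ 0 := hw
      simp [comp_apply, hGdef, hw', u, v]
  have hmul : ∀ σ : SL2Z, P.p * (G ∣[K - P.wt] σ) = F ∣[K] σ := by
    intro σ
    conv_rhs => rw [hFG, show K = P.wt + (K - P.wt) by ring]
    rw [ModularForm.mul_slash_SL2, P.mem.1 σ (Subgroup.mem_top σ)]
  refine ⟨G, ⟨fun γ hγ => ?_, hGd, fun σ => bdd_of_mul P.lim (by rw [hmul]; exact hF.2.2 σ)⟩, hFG⟩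
  have hev : ∀ᶠ τ in atImInfty, P.p τ ≠ 0 := P.lim.eventually_ne one_ne_zero
  rw [Filter.Eventually, atImInfty_mem] at hev
  obtain ⟨A, hA⟩ := hev
  let τ₁ : ℍ := ⟨⟨0, max A 1⟩, by positivity⟩
  have hτ₁ : P.p τ₁ ≠ 0 := hA τ₁ (le_max_left A 1)
  have hD : (G ∣[K - P.wt] γ) - G = 0 := by
    refine UpperHalfPlane.eq_zero_of_frequently ((mdiff_slash_SL hGd γ).sub hGd) (τ := τ₁) ?_
    refine Filter.Eventually.frequently ?_
    filter_upwards [nhdsWithin_le_nhds (P.mem.2.1.continuous.continuousAt.eventually_ne hτ₁)]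
      with w hw
    have h := congrFun (hmul γ) w
    rw [hF.1 γ hγ, congrFun hFG w] at h
    simp only [Pi.mul_apply] at h
    simp [mul_left_cancel₀ hw h]
  exact sub_eq_zero.mp hD

end FLTAgent.ES
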