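import Mathlib
import Fermat.Agent.ES.Cocycle
import Fermat.Agent.ES.FreeModule
import Fermat.Agent.ES.Division

/-!
Values of the generators at the translates of a point: independence at every point, and the
numbers of generators in weight classes.
-/

set_option autoImplicit false

noncomputable section

open UpperHalfPlane Filter Topology Complex Function
open scoped MatrixGroups ModularForm Manifold

namespace FLTAgent.ES

local notation "SL2Z" => Matrix.SpecialLinearGroup (Fin 2) ℤ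

variable {Γ : Subgroup SL2Z} [Γ.FiniteIndex]

/-- Values of a generator at the translates of `τ`. -/
def evalVec (τ : ℍ) (i : Gen Γ) : SL2Z ⧸ Γ → ℂ := fun x => cosetSlash i.1 (gen i) x τ

omit [Γ.FiniteIndex] in
theorem cosetSlash_sum_gen {K : ℤ} (s : Finset (Gen Γ)) (r : Gen Γ → ℍ → ℂ)
    (hr : ∀ i, r i ∈ forms ⊤ (K - i.1)) (x : SL2Z ⧸ Γ) (τ : ℍ) :
    cosetSlash K (∑ i ∈ s, r i * gen i) x τ = ∑ i ∈ s, r i τ * evalVec τ i x := by
  rw [cosetSlash, SlashAction.sum_slash, Finset.sum_apply]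
  refine Finset.sum_congr rfl fun i _ => ?_
  have h := cosetSlash_mul_levelOne (k := i.1) (f := gen i) (hr i) x
  rw [sub_add_cancel] at h
  exact congrFun h τ

theorem indep_of_monomials {τ : ℍ} (P : OrbitForm τ) (s : Finset (Gen Γ)) (K : ℤ)
    (m : Gen Γ → ℍ → ℂ) (hm : ∀ i ∈ s, m i ∈ forms ⊤ (K - i.1) ∧ m i τ = 1)
    (c : Gen Γ → ℂ) (h0 : ∑ i ∈ s, c i • evalVec τ i = 0) : ∀ i ∈ s, c i = 0 := by
  classical
  set r : Gen Γ → ℍ → ℂ := fun i => if i ∈ s then c i • m i else 0 with hr_def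
  have hr : ∀ i, r i ∈ forms ⊤ (K - i.1) := fun i => by
    by_cases hi : i ∈ s
    · simp only [hr_def, hi, if_true]; exact Submodule.smul_mem _ _ (hm i hi).1
    · simp only [hr_def, hi, if_false]; exact zero_mem _
  set F := ∑ i ∈ s, r i * gen i with hFdef
  have hF : F ∈ forms Γ K := Submodule.sum_mem _ fun i _ =>
    forms_mul_of_eq (forms_mono le_top (hr i)) (gen_mem i) (by ring)
  have hvan : ∀ x : SL2Z ⧸ Γ, cosetSlash K F x τ = 0 := fun x => by
    rw [hFdef, cosetSlash_sum_gen s r hr]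
    refine Eq.trans ?_ (congrFun h0 x)
    rw [Finset.sum_apply]
    refine Finset.sum_congr rfl fun i hi => ?_
    simp [hr_def, hi, (hm i hi).2]
  obtain ⟨G, hG, hFG⟩ := exists_div P hF hvan
  obtain ⟨g, hg, hgG⟩ := isComb_forms hG
  set rf : Gen Γ →₀ (ℍ → ℂ) := Finsupp.indicator s (fun i _ => r i) with hrf
  set pg : Gen Γ →₀ (ℍ → ℂ) := g.mapRange (fun x => -(P.p * x)) (by simp) with hpg
  have hind := gen_independent (rf + pg) (K := K) (fun i => ?_) ?_
  · intro i hi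
    have h := congrFun (DFunLike.congr_fun hind i) τ
    have hp0 : P.p τ = 0 := (P.zero_iff τ).mpr ⟨1, one_smul _ _⟩
    simp only [Finsupp.add_apply, hrf, hpg, Finsupp.indicator_of_mem hi, Finsupp.mapRange_apply,
      Pi.add_apply, Pi.neg_apply, Pi.mul_apply, hp0, zero_mul, neg_zero, add_zero, Finsupp.zero_apply,
      Pi.zero_apply] at h
    simpa [hr_def, hi, (hm i hi).2] using h
  · refine add_mem ?_ ?_
    · by_cases hi : i ∈ s
      · rw [hrf, Finsupp.indicator_of_mem hi]; exact hr i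
      · rw [hrf, Finsupp.indicator_of_notMem hi]; exact zero_mem _
    · rw [hpg, Finsupp.mapRange_apply]
      exact neg_mem (forms_mul_of_eq P.mem (hg i) (by ring))
  · rw [Finsupp.sum_add_index' (fun _ => zero_mul _) (fun _ _ _ => add_mul _ _ _), hrf,
      Finsupp.sum_indicator_index (fun i => r i) (fun i _ => zero_mul (gen i)), hpg,
      Finsupp.sum_mapRange_index (by simp)]
    rw [← hFdef, hFG, hgG]
    simp only [Finsupp.sum, neg_mul, Finset.sum_neg_distrib, mul_assoc, Finset.mul_sum,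
      add_neg_cancel]

theorem exists_monomial_generic {τ : ℍ} (h4 : e4 τ ≠ 0) (h6 : e6 τ ≠ 0) (j : ℕ) :
    ∃ m ∈ forms ⊤ (2 * ((j : ℤ) + 2)), m τ = 1 := by
  induction j using Nat.strong_induction_on with
  | _ j ih =>
    match j, ih with
    | 0, _ => exact ⟨(e4 τ)⁻¹ • e4, Submodule.smul_mem _ _ e4_mem, by simp [h4]⟩
    | 1, _ => exact ⟨(e6 τ)⁻¹ • e6, Submodule.smul_mem _ _ e6_mem, by simp [h6]⟩
    | j + 2, ih =>
      obtain ⟨m, hm, hm1⟩ := ih j (by omega)
      exact ⟨(e4 τ)⁻¹ • (e4 * m),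
        Submodule.smul_mem _ _ (forms_mul_of_eq e4_mem hm (by push_cast; ring)), by simp [h4, hm1]⟩

/-- The half weight of a generator. -/
def halfWt (i : Gen Γ) : ℕ := (i.1 / 2).toNat

theorem wt_eq_two_mul (hneg : (-1 : SL2Z) ∈ Γ) (i : Gen Γ) : i.1 = 2 * (halfWt i : ℤ) := by
  obtain ⟨m, hm⟩ := wt_even hneg i
  have := wt_nonneg i
  rw [halfWt]
  omega

omit [Γ.FiniteIndex] in
theorem evalVec_stab (g : SL2Z) {τ : ℍ} (hg : g • τ = τ) (i : Gen Γ) (x : SL2Z ⧸ Γ) :
    evalVec τ i (g⁻¹ • x) = denom g τ ^ (-i.1) * evalVec τ i x := by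
  rw [evalVec, evalVec, ← cosetSlash_slash (gen_mem i), ModularForm.SL_slash_apply, hg]
  ring

omit [Γ.FiniteIndex] in
theorem evalVec_smul_point (g : SL2Z) (τ : ℍ) (i : Gen Γ) (x : SL2Z ⧸ Γ) :
    evalVec (g • τ) i x * denom g τ ^ (-i.1) = evalVec τ i (g⁻¹ • x) := by
  rw [evalVec, evalVec, ← cosetSlash_slash (gen_mem i), ModularForm.SL_slash_apply]

omit [Γ.FiniteIndex] in
/-- The relation splits along the residue classes. -/
theorem class_relation {n : ℕ} (hn : 0 < n) {ζ : ℂ} (hζ : IsPrimitiveRoot ζ n) (g : SL2Z)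
    {τ : ℍ} (hg : g • τ = τ) (hd : ∀ i : Gen Γ, denom g τ ^ (-i.1) = ζ ^ halfWt i)
    (s : Finset (Gen Γ)) (c : Gen Γ → ℂ) (h0 : ∑ i ∈ s, c i • evalVec τ i = 0) (r : ℕ) :
    ∑ i ∈ s.filter (fun i => halfWt i % n = r % n), c i • evalVec τ i = 0 := by
  funext x
  have hiter : ∀ (j : ℕ) (i : Gen Γ) (x : SL2Z ⧸ Γ),
      evalVec τ i (g⁻¹ ^ j • x) = ζ ^ (j * halfWt i) * evalVec τ i x := by
    intro j i
    induction j with
    | zero => simp
    | succ j ih =>
      intro x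
      rw [pow_succ', mul_smul, evalVec_stab g hg, hd, ih, Nat.succ_mul, pow_add]
      ring
  have hrel : ∀ j : ℕ, ∑ i ∈ s, c i * (ζ ^ (j * halfWt i) * evalVec τ i x) = 0 := fun j => by
    simp only [← hiter]
    simpa using congrFun h0 (g⁻¹ ^ j • x)
  have hgeom : ∀ i : Gen Γ, ∑ j ∈ Finset.range n, (ζ ^ (j * halfWt i) * ζ ^ (j * ((n - 1) * r)))
      = if halfWt i % n = r % n then (n : ℂ) else 0 := by
    intro i
    have he : ∀ j : ℕ, ζ ^ (j * halfWt i) * ζ ^ (j * ((n - 1) * r))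
        = (ζ ^ (halfWt i + (n - 1) * r)) ^ j := fun j => by
      rw [← pow_add, ← pow_mul]; ring_nf
    simp only [he]
    have hiff : halfWt i % n = r % n ↔ n ∣ halfWt i + (n - 1) * r := by
      rw [← ZMod.natCast_eq_natCast_iff', ← ZMod.natCast_eq_zero_iff, Nat.cast_add, Nat.cast_mul,
        Nat.cast_sub hn, ZMod.natCast_self]
      constructor <;> intro h <;> linear_combination h
    split_ifs with h
    · rw [(hζ.pow_eq_one_iff_dvd _).mpr (hiff.mp h)]
      simp
    · have hne : ζ ^ (halfWt i + (n - 1) * r) ≠ 1 := fun h1 =>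
        h (hiff.mpr ((hζ.pow_eq_one_iff_dvd _).mp h1))
      rw [geom_sum_eq hne, ← pow_mul, mul_comm _ n, pow_mul, hζ.pow_eq_one, one_pow, sub_self,
        zero_div]
  have hsum : ∑ j ∈ Finset.range n, ∑ i ∈ s,
      ζ ^ (j * ((n - 1) * r)) * (c i * (ζ ^ (j * halfWt i) * evalVec τ i x)) = 0 :=
    Finset.sum_eq_zero fun j _ => by rw [← Finset.mul_sum, hrel, mul_zero]
  rw [Finset.sum_comm] at hsum
  have hsum' : ∑ i ∈ s, (if halfWt i % n = r % n then (n : ℂ) else 0) * (c i * evalVec τ i x) = 0 := by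
    refine Eq.trans (Finset.sum_congr rfl fun i _ => ?_) hsum
    rw [← hgeom, Finset.sum_mul]
    exact Finset.sum_congr rfl fun j _ => by ring
  simp only [ite_mul, zero_mul, ← Finset.sum_filter, ← Finset.mul_sum] at hsum'
  simpa using (mul_eq_zero.mp hsum').resolve_left (Nat.cast_ne_zero.mpr hn.ne')

theorem I_fixed : ModularGroup.S • UpperHalfPlane.I = UpperHalfPlane.I := by
  rw [UpperHalfPlane.modular_S_smul]
  apply UpperHalfPlane.ext
  simp

theorem denom_S_I : denom ModularGroup.S (UpperHalfPlane.I : ℂ) = Complex.I := by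
  rw [ModularGroup.denom_apply]; simp [ModularGroup.coe_S]

theorem e6_I : e6 UpperHalfPlane.I = 0 := by
  have h := top_apply_smul (e6_mem (Γ := ⊤)) ModularGroup.S UpperHalfPlane.I
  rw [I_fixed, denom_S_I, zpow_ofNat, show Complex.I ^ 6 = -1 by
    rw [show (6 : ℕ) = 4 + 2 from rfl, pow_add, Complex.I_pow_four, Complex.I_sq, one_mul]] at h
  linear_combination (1 / 2 : ℂ) * h

/-- The fixed point of `ST`. -/
def rhoPt : ℍ := ⟨⟨-1 / 2, Real.sqrt 3 / 2⟩, by positivity⟩

theorem rhoPt_eq : (rhoPt : ℂ) ^ 2 + rhoPt + 1 = 0 := by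
  have h3 : Real.sqrt 3 * Real.sqrt 3 = 3 := Real.mul_self_sqrt (by norm_num)
  apply Complex.ext <;> simp [rhoPt, sq]
  · linear_combination (-1 / 4 : ℝ) * h3
  · ring

theorem denom_ST_rho :
    denom (ModularGroup.S * ModularGroup.T : SL2Z) (rhoPt : ℂ) = (rhoPt : ℂ) + 1 := by
  rw [ModularGroup.denom_apply,
    show (ModularGroup.S * ModularGroup.T : SL2Z) 1 0 = 1 by decide,
    show (ModularGroup.S * ModularGroup.T : SL2Z) 1 1 = 1 by decide]
  simp

theorem rho_fixed : (ModularGroup.S * ModularGroup.T) • rhoPt = rhoPt := by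
  apply UpperHalfPlane.ext
  rw [mul_smul, UpperHalfPlane.modular_S_smul]
  have hT : ((ModularGroup.T • rhoPt : ℍ) : ℂ) = (rhoPt : ℂ) + 1 := by
    rw [← zpow_one ModularGroup.T, modular_T_zpow_smul, coe_vadd]; push_cast; ring
  simp only [hT]
  have hne : (rhoPt : ℂ) + 1 ≠ 0 := fun h => by
    have := congrArg Complex.im h
    simp [rhoPt] at this
  field_simp
  linear_combination -rhoPt_eq

theorem e4_rho : e4 rhoPt = 0 := by
  have h := top_apply_smul (e4_mem (Γ := ⊤)) (ModularGroup.S * ModularGroup.T) rhoPt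
  rw [rho_fixed, denom_ST_rho, zpow_ofNat] at h
  have h4 : ((rhoPt : ℂ) + 1) ^ 4 = (rhoPt : ℂ) ^ 2 := by
    linear_combination ((rhoPt : ℂ) ^ 2 + 3 * rhoPt + 1) * rhoPt_eq
  rw [h4] at h
  have hne : (rhoPt : ℂ) ^ 2 - 1 ≠ 0 := fun h' => by
    have e : (rhoPt : ℂ) = -2 := by linear_combination rhoPt_eq - h'
    have := congrArg Complex.im e
    simp [rhoPt] at this
  have : ((rhoPt : ℂ) ^ 2 - 1) * e4 rhoPt = 0 := by linear_combination -h
  exact (mul_eq_zero.mp this).resolve_left hne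

theorem hd_I (hneg : (-1 : SL2Z) ∈ Γ) (i : Gen Γ) :
    denom ModularGroup.S (UpperHalfPlane.I : ℂ) ^ (-i.1) = (-1 : ℂ) ^ halfWt i := by
  rw [denom_S_I, wt_eq_two_mul hneg i, zpow_neg, zpow_mul, zpow_natCast, zpow_ofNat, Complex.I_sq,
    ← inv_pow, inv_neg_one]

theorem hd_rho (hneg : (-1 : SL2Z) ∈ Γ) (i : Gen Γ) :
    denom (ModularGroup.S * ModularGroup.T : SL2Z) (rhoPt : ℂ) ^ (-i.1) =
      ((rhoPt : ℂ) ^ 2) ^ halfWt i := by
  have h3 : (rhoPt : ℂ) ^ 3 = 1 := by linear_combination ((rhoPt : ℂ) - 1) * rhoPt_eq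
  have h2 : (((rhoPt : ℂ) + 1) ^ 2)⁻¹ = (rhoPt : ℂ) ^ 2 := by
    rw [show ((rhoPt : ℂ) + 1) ^ 2 = (rhoPt : ℂ) by linear_combination rhoPt_eq]
    refine inv_eq_of_mul_eq_one_right ?_
    linear_combination h3
  rw [denom_ST_rho, wt_eq_two_mul hneg i, zpow_neg, zpow_mul, zpow_natCast, zpow_ofNat,
    ← inv_pow, h2]

theorem rho_sq_primitive : IsPrimitiveRoot ((rhoPt : ℂ) ^ 2) 3 := by
  have h3 : (rhoPt : ℂ) ^ 3 = 1 := by linear_combination ((rhoPt : ℂ) - 1) * rhoPt_eq
  have hne : (rhoPt : ℂ) ^ 2 ≠ 1 := fun h => by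
    have h' : (rhoPt : ℂ) = -2 := by linear_combination rhoPt_eq - h
    have := congrArg Complex.im h'
    simp [rhoPt] at this
  exact IsPrimitiveRoot.iff_orderOf.mpr (orderOf_eq_prime (by rw [← pow_mul, show 2 * 3 = 3 * 2 from rfl, pow_mul, h3, one_pow]) hne)

/-- Independence of the evaluation vectors at every point. -/
theorem evalVec_indep (hneg : (-1 : SL2Z) ∈ Γ) (τ : ℍ) :
    LinearIndependent ℂ (evalVec (Γ := Γ) τ) := by
  classical
  rw [linearIndependent_iff']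
  intro s c h0
  set K : ℕ := 6 * s.sup halfWt + 12 with hK
  have hle : ∀ i ∈ s, halfWt i + 2 ≤ K := fun i hi => by
    have := Finset.le_sup (f := halfWt) hi
    omega
  -- transport to a standard point
  have htransport : ∀ (γ : SL2Z) (τ₁ : ℍ), γ • τ₁ = τ →
      ∑ i ∈ s, (c i * denom γ (τ₁ : ℂ) ^ i.1) • evalVec τ₁ i = 0 := by
    intro γ τ₁ hγ
    funext x
    have hx := congrFun h0 (γ • x)
    simp only [Finset.sum_apply, Pi.smul_apply, smul_eq_mul, Pi.zero_apply] at hx ⊢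
    rw [← hx]
    refine Finset.sum_congr rfl fun i _ => ?_
    have h := evalVec_smul_point γ τ₁ i (γ • x)
    rw [inv_smul_smul, hγ, zpow_neg] at h
    rw [← h]
    field_simp [zpow_ne_zero i.1 (denom_ne_zero (γ : GL (Fin 2) ℝ) τ₁)]
  by_cases h6 : e6 τ = 0
  · obtain ⟨γ, hγ⟩ : SameOrbit UpperHalfPlane.I τ := by
      apply sameOrbit_of_jfun_eq
      have a := jfun_sub_1728 τ
      have b := jfun_sub_1728 UpperHalfPlane.I
      rw [h6] at a
      rw [e6_I] at b
      linear_combination b - a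
    have h4 : e4 UpperHalfPlane.I ≠ 0 :=
      (e4_ne_or_e6_ne _).resolve_right (by simp [e6_I])
    obtain ⟨P⟩ := exists_orbitForm UpperHalfPlane.I
    intro i hi
    have hcl := class_relation (n := 2) two_pos (IsPrimitiveRoot.neg_one 0 (by norm_num))
      ModularGroup.S I_fixed (hd_I hneg) s _ (htransport γ _ hγ) (halfWt i)
    have h := indep_of_monomials P _ (2 * (halfWt i : ℤ) + 4 * K)
      (fun l => (e4 UpperHalfPlane.I ^ ((halfWt i + 2 * K - halfWt l) / 2))⁻¹ •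
        e4 ^ ((halfWt i + 2 * K - halfWt l) / 2)) ?_ _ hcl i (by simp [hi])
    · exact (mul_eq_zero.mp h).resolve_right (zpow_ne_zero _ (denom_ne_zero _ _))
    · intro l hl
      rw [Finset.mem_filter] at hl
      have hl' := hle l hl.1
      refine ⟨Submodule.smul_mem _ _ ?_, by simp [h4]⟩
      have hex := wt_eq_two_mul hneg l
      obtain ⟨q, hq⟩ : ∃ q, halfWt i + 2 * K - halfWt l = 2 * q := ⟨_, (Nat.two_mul_div_two_of_even
        (by rw [Nat.even_iff]; omega)).symm⟩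
      rw [hq, Nat.mul_div_cancel_left _ two_pos,
        show 2 * (halfWt i : ℤ) + 4 * (K : ℤ) - l.1 = (q : ℤ) * 4 by omega]
      exact forms_pow e4_mem q
  by_cases h4 : e4 τ = 0
  · obtain ⟨γ, hγ⟩ : SameOrbit rhoPt τ := sameOrbit_of_jfun_eq (by simp [jfun, e4_rho, h4])
    have h6' : e6 rhoPt ≠ 0 := (e4_ne_or_e6_ne _).resolve_left (by simp [e4_rho])
    obtain ⟨P⟩ := exists_orbitForm rhoPt
    intro i hi
    have hcl := class_relation (n := 3) (by norm_num) rho_sq_primitive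
      (ModularGroup.S * ModularGroup.T) rho_fixed (hd_rho hneg) s _ (htransport γ _ hγ) (halfWt i)
    have h := indep_of_monomials P _ (2 * (halfWt i : ℤ) + 6 * K)
      (fun l => (e6 rhoPt ^ ((halfWt i + 3 * K - halfWt l) / 3))⁻¹ •
        e6 ^ ((halfWt i + 3 * K - halfWt l) / 3)) ?_ _ hcl i (by simp [hi])
    · exact (mul_eq_zero.mp h).resolve_right (zpow_ne_zero _ (denom_ne_zero _ _))
    · intro l hl
      rw [Finset.mem_filter] at hl
      have hl' := hle l hl.1
      refine ⟨Submodule.smul_mem _ _ ?_, by simp [h6']⟩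
      have hex := wt_eq_two_mul hneg l
      obtain ⟨q, hq⟩ : ∃ q, halfWt i + 3 * K - halfWt l = 3 * q :=
        ⟨(halfWt i + 3 * K - halfWt l) / 3, by omega⟩
      rw [hq, Nat.mul_div_cancel_left _ (by norm_num : 0 < 3),
        show 2 * (halfWt i : ℤ) + 6 * (K : ℤ) - l.1 = (q : ℤ) * 6 by omega]
      exact forms_pow e6_mem q
  obtain ⟨P⟩ := exists_orbitForm τ
  choose m hm hm1 using fun j => exists_monomial_generic h4 h6 j
  refine indep_of_monomials P s (2 * K) (fun i => m (K - halfWt i - 2)) (fun i hi => ⟨?_, hm1 _⟩) c h0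
  have := hle i hi
  have hw := wt_eq_two_mul hneg i
  convert hm (K - halfWt i - 2) using 2
  omega

end FLTAgent.ES
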