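import Mathlib
import Fermat.Agent.ES.Cocycle
import Fermat.Agent.ES.Evaluation

/-!
Counting generators by weight classes, from a point where the values span everything.
-/

set_option autoImplicit false

noncomputable section

open UpperHalfPlane Complex Function
open scoped MatrixGroups ModularForm

namespace FLTAgent.ES

local notation "SL2Z" => Matrix.SpecialLinearGroup (Fin 2) ℤ

variable {Γ : Subgroup SL2Z} [Γ.FiniteIndex]

/-- The hypothesis that at some point the values of the generators span all functions. -/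
def ValuesSpan (Γ : Subgroup SL2Z) : Prop :=
  ∃ τ : ℍ, Submodule.span ℂ (Set.range (evalVec (Γ := Γ) τ)) = ⊤

theorem finite_gen (hneg : (-1 : SL2Z) ∈ Γ) : Finite (Gen Γ) := by
  have : Fintype (SL2Z ⧸ Γ) := Fintype.ofFinite _
  exact (evalVec_indep hneg UpperHalfPlane.I).finite

theorem card_gen (hneg : (-1 : SL2Z) ∈ Γ) (hspan : ValuesSpan Γ) :
    Nat.card (Gen Γ) = Nat.card (SL2Z ⧸ Γ) := by
  have : Fintype (SL2Z ⧸ Γ) := Fintype.ofFinite _
  have := finite_gen hneg
  have : Fintype (Gen Γ) := Fintype.ofFinite _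
  obtain ⟨τ, hτ⟩ := hspan
  have h := finrank_span_eq_card (evalVec_indep hneg τ)
  rw [hτ, finrank_top, Module.finrank_pi] at h
  simp only [Nat.card_eq_fintype_card, h]

theorem span_all (hneg : (-1 : SL2Z) ∈ Γ) (hspan : ValuesSpan Γ) (τ : ℍ) :
    Submodule.span ℂ (Set.range (evalVec (Γ := Γ) τ)) = ⊤ := by
  have : Fintype (SL2Z ⧸ Γ) := Fintype.ofFinite _
  have := finite_gen hneg
  have : Fintype (Gen Γ) := Fintype.ofFinite _
  apply Submodule.eq_top_of_finrank_eq
  rw [finrank_span_eq_card (evalVec_indep hneg τ), Module.finrank_pi,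
    ← Nat.card_eq_fintype_card, ← Nat.card_eq_fintype_card, card_gen hneg hspan]

/-- Functions transforming by `μ` under `g⁻¹`. -/
def eigFun (Γ : Subgroup SL2Z) (g : SL2Z) (μ : ℂ) : Submodule ℂ (SL2Z ⧸ Γ → ℂ) :=
  LinearMap.ker (pullBy Γ g⁻¹ - μ • LinearMap.id)

omit [Γ.FiniteIndex] in
theorem mem_eigFun {g : SL2Z} {μ : ℂ} {v : SL2Z ⧸ Γ → ℂ} :
    v ∈ eigFun Γ g μ ↔ ∀ x, v (g⁻¹ • x) = μ * v x := by
  simp [eigFun, funext_iff, sub_eq_zero]

omit [Γ.FiniteIndex] in
theorem eigFun_one (g : SL2Z) : eigFun Γ g 1 = fixedFun Γ g := by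
  ext v
  rw [mem_eigFun, mem_fixedFun]
  simp only [one_mul]
  exact ⟨fun h x => by simpa using (h (g • x)).symm, fun h x => by simpa using (h (g⁻¹ • x)).symm⟩

variable {n : ℕ} {ζ : ℂ} {g : SL2Z} {τ : ℍ}

theorem card_class_eq [Fintype (Gen Γ)] (hneg : (-1 : SL2Z) ∈ Γ) (hspan : ValuesSpan Γ)
    (hn : 0 < n) (hζ : IsPrimitiveRoot ζ n) (hg : g • τ = τ)
    (hd : ∀ i : Gen Γ, denom g τ ^ (-i.1) = ζ ^ halfWt i) {r : ℕ} (hr : r < n) :
    (Finset.univ.filter fun i : Gen Γ => halfWt i % n = r).card =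
      Module.finrank ℂ (eigFun Γ g (ζ ^ r)) := by
  classical
  set F := Finset.univ.filter fun i : Gen Γ => halfWt i % n = r
  have hval : ∀ i x, evalVec τ i (g⁻¹ • x) = ζ ^ halfWt i * evalVec τ i x := fun i x => by
    rw [evalVec_stab g hg, hd]
  have heig : eigFun Γ g (ζ ^ r) = Submodule.span ℂ (Set.range fun i : F => evalVec τ (i : Gen Γ)) := by
    apply le_antisymm
    · intro v hv
      have hv' : v ∈ Submodule.span ℂ (Set.range (evalVec (Γ := Γ) τ)) := by
        rw [span_all hneg hspan]; exact Submodule.mem_top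
      obtain ⟨c, rfl⟩ := (Submodule.mem_span_range_iff_exists_fun ℂ).mp hv'
      have hz : ∑ i, (c i * (ζ ^ halfWt i - ζ ^ r)) • evalVec τ i = 0 := by
        funext x
        have h := (mem_eigFun).mp hv x
        simp only [Finset.sum_apply, Pi.smul_apply, smul_eq_mul, hval, Finset.mul_sum] at h
        simp only [Finset.sum_apply, Pi.smul_apply, smul_eq_mul, Pi.zero_apply]
        rw [← sub_eq_zero, ← Finset.sum_sub_distrib] at h
        rw [← h]
        exact Finset.sum_congr rfl fun i _ => by ring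
      have hc := Fintype.linearIndependent_iff.mp (evalVec_indep hneg τ) _ hz
      refine Submodule.sum_mem _ fun i _ => ?_
      by_cases hi : i ∈ F
      · exact Submodule.smul_mem _ _ (Submodule.subset_span ⟨⟨i, hi⟩, rfl⟩)
      · have hne : ζ ^ halfWt i ≠ ζ ^ r := by
          intro he
          rw [← pow_mod_orderOf, ← hζ.eq_orderOf] at he
          exact hi (Finset.mem_filter.mpr ⟨Finset.mem_univ _,
            hζ.pow_inj (Nat.mod_lt _ hn) hr he⟩)
        rw [(mul_eq_zero.mp (hc i)).resolve_right (sub_ne_zero.mpr hne), zero_smul]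
        exact zero_mem _
    · rw [Submodule.span_le]
      rintro _ ⟨⟨i, hi⟩, rfl⟩
      rw [SetLike.mem_coe, mem_eigFun]
      intro x
      show evalVec τ i (g⁻¹ • x) = ζ ^ r * evalVec τ i x
      rw [hval, ← (Finset.mem_filter.mp hi).2, hζ.eq_orderOf, pow_mod_orderOf]
  have hli : LinearIndependent ℂ fun i : F => evalVec τ (i : Gen Γ) :=
    (evalVec_indep hneg τ).comp _ Subtype.val_injective
  rw [heig, finrank_span_eq_card hli, Fintype.card_coe]

theorem card_class_le_opposite [Fintype (Gen Γ)] (hneg : (-1 : SL2Z) ∈ Γ) (hspan : ValuesSpan Γ)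
    (hn : 0 < n) (hζ : IsPrimitiveRoot ζ n) (hg : g • τ = τ)
    (hd : ∀ i : Gen Γ, denom g τ ^ (-i.1) = ζ ^ halfWt i) {a b : ℕ} (ha : a < n) (hb : b < n)
    (hab : n ∣ a + b) :
    (Finset.univ.filter fun i : Gen Γ => halfWt i % n = a).card ≤
      (Finset.univ.filter fun i : Gen Γ => halfWt i % n = b).card := by
  classical
  have : Fintype (SL2Z ⧸ Γ) := Fintype.ofFinite _
  rw [card_class_eq hneg hspan hn hζ hg hd ha]
  set F := Finset.univ.filter fun i : Gen Γ => halfWt i % n = b
  let Λ : eigFun Γ g (ζ ^ a) →ₗ[ℂ] (F → ℂ) :=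
    { toFun := fun w i => ∑ x, w.1 x * evalVec τ (i : Gen Γ) x
      map_add' := fun u w => by funext i; simp [add_mul, Finset.sum_add_distrib]
      map_smul' := fun c w => by funext i; simp [Finset.mul_sum, mul_assoc] }
  refine (LinearMap.finrank_le_finrank_of_injective (f := Λ) ?_).trans (by rw [Module.finrank_pi]; simp)
  rw [← LinearMap.ker_eq_bot, Submodule.eq_bot_iff]
  rintro ⟨w, hw⟩ h0
  have horth : ∀ i : Gen Γ, ∑ x, w x * evalVec τ i x = 0 := by
    intro i
    by_cases hi : i ∈ F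
    · exact congrFun (LinearMap.mem_ker.mp h0) ⟨i, hi⟩
    · have hμ : ζ ^ a * ζ ^ halfWt i ≠ 1 := by
        rw [← pow_add, Ne, hζ.pow_eq_one_iff_dvd]
        intro hdvd
        refine hi (Finset.mem_filter.mpr ⟨Finset.mem_univ _, ?_⟩)
        rw [← ZMod.natCast_eq_zero_iff, Nat.cast_add] at hdvd hab
        rw [← Nat.mod_eq_of_lt hb, ← ZMod.natCast_eq_natCast_iff']
        linear_combination hdvd - hab
      have hsum : (ζ ^ a * ζ ^ halfWt i) * ∑ x, w x * evalVec τ i x = ∑ x, w x * evalVec τ i x := by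
        conv_rhs => rw [← Equiv.sum_comp (MulAction.toPerm g⁻¹) (fun x => w x * evalVec τ i x)]
        rw [Finset.mul_sum]
        refine Finset.sum_congr rfl fun x _ => ?_
        rw [MulAction.toPerm_apply, mem_eigFun.mp hw x, evalVec_stab g hg, hd]
        ring
      have : (ζ ^ a * ζ ^ halfWt i - 1) * ∑ x, w x * evalVec τ i x = 0 := by linear_combination hsum
      exact (mul_eq_zero.mp this).resolve_left (sub_ne_zero.mpr hμ)
  apply Subtype.ext
  funext y
  have hy : (Pi.single y 1 : SL2Z ⧸ Γ → ℂ) ∈ Submodule.span ℂ (Set.range (evalVec (Γ := Γ) τ)) := by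
    rw [span_all hneg hspan]; exact Submodule.mem_top
  obtain ⟨c, hc⟩ := (Submodule.mem_span_range_iff_exists_fun ℂ).mp hy
  have : ∑ x, w x * (Pi.single y 1 : SL2Z ⧸ Γ → ℂ) x = 0 := by
    rw [← hc]
    simp only [Finset.sum_apply, Pi.smul_apply, smul_eq_mul, Finset.mul_sum]
    rw [Finset.sum_comm]
    refine Finset.sum_eq_zero fun i _ => ?_
    rw [show ∑ x, w x * (c i * evalVec τ i x) = c i * ∑ x, w x * evalVec τ i x by
      rw [Finset.mul_sum]; exact Finset.sum_congr rfl fun x _ => by ring, horth, mul_zero]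
  simpa [Pi.single_apply] using this

/-- The class counts at the two elliptic points. -/
theorem class_counts [Fintype (Gen Γ)] (hneg : (-1 : SL2Z) ∈ Γ) (hspan : ValuesSpan Γ) :
    (Finset.univ.filter fun i : Gen Γ => halfWt i % 2 = 0).card =
      Module.finrank ℂ (fixedFun Γ ModularGroup.S) ∧
    (Finset.univ.filter fun i : Gen Γ => halfWt i % 3 = 0).card =
      Module.finrank ℂ (fixedFun Γ (ModularGroup.S * ModularGroup.T)) ∧
    (Finset.univ.filter fun i : Gen Γ => halfWt i % 3 = 1).card =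
      (Finset.univ.filter fun i : Gen Γ => halfWt i % 3 = 2).card := by
  refine ⟨?_, ?_, le_antisymm ?_ ?_⟩
  · rw [card_class_eq hneg hspan two_pos (IsPrimitiveRoot.neg_one 0 (by norm_num)) I_fixed
      (hd_I hneg) two_pos, pow_zero, eigFun_one]
  · rw [card_class_eq hneg hspan (by norm_num) rho_sq_primitive rho_fixed (hd_rho hneg)
      (by norm_num), pow_zero, eigFun_one]
  · exact card_class_le_opposite hneg hspan (by norm_num) rho_sq_primitive rho_fixed (hd_rho hneg)
      (by norm_num) (by norm_num) (by norm_num)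
  · exact card_class_le_opposite hneg hspan (by norm_num) rho_sq_primitive rho_fixed (hd_rho hneg)
      (by norm_num) (by norm_num) (by norm_num)

end FLTAgent.ES
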