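import Mathlib
import Fermat.Agent.ES.Primitive
import Fermat.Agent.ES.Classes

/-!
The exact order at infinity of the determinant of the values of the generators.
-/

set_option autoImplicit false

noncomputable section

open UpperHalfPlane Filter Topology Complex Function
open scoped MatrixGroups ModularForm Manifold Matrix

namespace FLTAgent.ES

local notation "SL2Z" => Matrix.SpecialLinearGroup (Fin 2) ℤ

/-! ### Averaging projectors of a matrix of finite order -/

section Projector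

variable {ι : Type*} [Fintype ι] [DecidableEq ι] {L : ℕ} {ζ : ℂ} {P : Matrix ι ι ℂ}

/-- The projector onto the `μ`-eigenspace. -/
def specProj (P : Matrix ι ι ℂ) (L : ℕ) (μ : ℂ) : Matrix ι ι ℂ :=
  (L : ℂ)⁻¹ • ∑ j ∈ Finset.range L, (μ⁻¹) ^ j • P ^ j

theorem mul_specProj (hP : P ^ L = 1) (μ : ℂ) (hμ : μ ^ L = 1) (hL : L ≠ 0) :
    P * specProj P L μ = μ • specProj P L μ := by
  have hμ0 : μ ≠ 0 := fun h => by simp [h, zero_pow hL] at hμ
  rw [specProj, Matrix.mul_smul, Matrix.mul_sum, smul_comm μ, Finset.smul_sum (r := μ)]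
  congr 1
  have hf : ∀ j : ℕ, P * ((μ⁻¹) ^ j • P ^ j) = μ • ((μ⁻¹) ^ (j + 1) • P ^ (j + 1)) := fun j => by
    rw [Matrix.mul_smul, ← pow_succ', smul_smul, pow_succ' μ⁻¹, ← mul_assoc, mul_inv_cancel₀ hμ0,
      one_mul]
  simp only [hf]
  rw [← Finset.smul_sum, ← Finset.smul_sum]
  congr 1
  have h1 := Finset.sum_range_succ' (fun j => (μ⁻¹) ^ j • P ^ j) L
  have h2 := Finset.sum_range_succ (fun j => (μ⁻¹) ^ j • P ^ j) L
  rw [hP, inv_pow, hμ, inv_one] at h2
  simp only [pow_zero] at h1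
  rw [h2] at h1
  exact (add_right_cancel h1).symm

theorem specProj_mul_eigen {M : Matrix ι ι ℂ} {ν : ℂ} (h : P * M = ν • M) (μ : ℂ) :
    specProj P L μ * M = ((L : ℂ)⁻¹ * ∑ j ∈ Finset.range L, (μ⁻¹ * ν) ^ j) • M := by
  have hj : ∀ j : ℕ, P ^ j * M = ν ^ j • M := by
    intro j
    induction j with
    | zero => simp
    | succ j ih =>
      rw [pow_succ, Matrix.mul_assoc, h, Matrix.mul_smul, ih, smul_smul, pow_succ']
  rw [specProj, Matrix.smul_mul, Matrix.sum_mul, mul_smul, Finset.sum_smul]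
  congr 1
  exact Finset.sum_congr rfl fun j _ => by rw [Matrix.smul_mul, hj, smul_smul, mul_pow]

theorem average_pow (hζ : IsPrimitiveRoot ζ L) (hL : 0 < L) (m : ℕ) :
    (L : ℂ)⁻¹ * ∑ j ∈ Finset.range L, (ζ ^ m) ^ j = if L ∣ m then 1 else 0 := by
  split_ifs with h
  · rw [(hζ.pow_eq_one_iff_dvd _).mpr h]
    simp [hL.ne']
  · rw [geom_sum_eq (fun h1 => h ((hζ.pow_eq_one_iff_dvd _).mp h1)), ← pow_mul, mul_comm m,
      pow_mul, hζ.pow_eq_one]
    simp

theorem specProj_orth (hζ : IsPrimitiveRoot ζ L) (hP : P ^ L = 1) (hL : 0 < L) {r s : ℕ}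
    (hr : r < L) (hs : s < L) :
    specProj P L (ζ ^ r) * specProj P L (ζ ^ s) =
      if r = s then specProj P L (ζ ^ s) else 0 := by
  rw [specProj_mul_eigen (mul_specProj hP _ (by rw [← pow_mul, mul_comm, pow_mul, hζ.pow_eq_one,
    one_pow]) hL.ne')]
  have e : (ζ ^ r)⁻¹ * ζ ^ s = ζ ^ (L - r + s) := by
    rw [pow_add, inv_mul_eq_iff_eq_mul₀ (pow_ne_zero _ (hζ.ne_zero hL.ne')), ← mul_assoc, ← pow_add,
      Nat.add_sub_cancel' hr.le, hζ.pow_eq_one, one_mul]
  rw [e, average_pow hζ hL]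
  have : L ∣ L - r + s ↔ r = s := by
    constructor
    · rintro ⟨c, hc⟩
      rcases lt_trichotomy c 1 with h | h | h
      · interval_cases c; omega
      · subst h; omega
      · have : L * 2 ≤ L * c := Nat.mul_le_mul_left _ h
        omega
    · rintro rfl
      exact ⟨1, by omega⟩
  by_cases h : r = s
  · rw [if_pos (this.mpr h), if_pos h, one_smul]
  · rw [if_neg (mt this.mp h), if_neg h, zero_smul]

theorem sum_specProj (hζ : IsPrimitiveRoot ζ L) (hL : 0 < L) :
    ∑ r ∈ Finset.range L, specProj P L (ζ ^ r) = 1 := by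
  simp only [specProj, ← Finset.smul_sum]
  rw [Finset.sum_comm]
  simp only [← Finset.sum_smul]
  have hj : ∀ j ∈ Finset.range L, (∑ r ∈ Finset.range L, ((ζ ^ r)⁻¹) ^ j)
      = if j = 0 then (L : ℂ) else 0 := by
    intro j hj
    rw [Finset.mem_range] at hj
    have e : ∀ r : ℕ, ((ζ ^ r)⁻¹) ^ j = ((ζ ^ j)⁻¹) ^ r := fun r => by
      rw [inv_pow, inv_pow, ← pow_mul, ← pow_mul, mul_comm]
    simp only [e]
    by_cases h : j = 0
    · simp [h]
    · rw [geom_sum_eq (by rw [Ne, inv_eq_one]; exact hζ.pow_ne_one_of_pos_of_lt h hj), inv_pow, ← pow_mul,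
        mul_comm j, pow_mul, hζ.pow_eq_one]
      simp [h]
  rw [Finset.sum_congr rfl fun j hj' => by rw [hj j hj']]
  simp [ite_smul, hL, smul_smul, hL.ne']

theorem specProj_mul_transpose (hζ : IsPrimitiveRoot ζ L) (hP : P ^ L = 1) (hL : 0 < L)
    (hT : P * Pᵀ = 1) {r s : ℕ} :
    specProj P L (ζ ^ r) * (specProj P L (ζ ^ s))ᵀ =
      if L ∣ r + s then (specProj P L (ζ ^ s))ᵀ else 0 := by
  have hζ0 := hζ.ne_zero hL.ne'
  have h1 := mul_specProj hP (ζ ^ s) (by rw [← pow_mul, mul_comm, pow_mul, hζ.pow_eq_one, one_pow])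
    hL.ne'
  have hcomm : P * specProj P L (ζ ^ s) = specProj P L (ζ ^ s) * P := by
    rw [specProj, Matrix.mul_smul, Matrix.smul_mul, Matrix.mul_sum, Matrix.sum_mul]
    congr 1
    exact Finset.sum_congr rfl fun j _ => by
      rw [Matrix.mul_smul, Matrix.smul_mul, ← pow_succ', ← pow_succ]
  have h2 : Pᵀ * (specProj P L (ζ ^ s))ᵀ = ζ ^ s • (specProj P L (ζ ^ s))ᵀ := by
    rw [← Matrix.transpose_mul, ← hcomm, h1, Matrix.transpose_smul]
  have h3 : P * (specProj P L (ζ ^ s))ᵀ = (ζ ^ s)⁻¹ • (specProj P L (ζ ^ s))ᵀ := by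
    have h4 := congrArg (fun M => P * M) h2
    simp only [Matrix.mul_smul, ← Matrix.mul_assoc, hT, Matrix.one_mul] at h4
    calc P * (specProj P L (ζ ^ s))ᵀ
        = (ζ ^ s)⁻¹ • ζ ^ s • (P * (specProj P L (ζ ^ s))ᵀ) := by
          rw [inv_smul_smul₀ (pow_ne_zero _ hζ0)]
      _ = _ := by rw [← h4]
  rw [specProj_mul_eigen h3]
  have e : (ζ ^ r)⁻¹ * (ζ ^ s)⁻¹ = ζ ^ ((r + s) * (L - 1)) := by
    rw [← mul_inv, ← pow_add, inv_eq_of_mul_eq_one_right]
    rw [← pow_add, show r + s + (r + s) * (L - 1) = L * (r + s) by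
      obtain ⟨l, rfl⟩ : ∃ l, L = l + 1 := ⟨L - 1, by omega⟩
      simp; ring, pow_mul, hζ.pow_eq_one, one_pow]
  rw [e, average_pow hζ hL]
  have hdiv : L ∣ (r + s) * (L - 1) ↔ L ∣ r + s := by
    refine ⟨fun h => (Nat.Coprime.dvd_of_dvd_mul_right ?_ h), fun h => Dvd.dvd.mul_right h _⟩
    obtain ⟨l, rfl⟩ : ∃ l, L = l + 1 := ⟨L - 1, by omega⟩
    simp
  by_cases h : L ∣ r + s <;> simp [hdiv, h]

/-- The diagonal twist. -/
def twist (P : Matrix ι ι ℂ) (L : ℕ) (ζ u : ℂ) : Matrix ι ι ℂ :=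
  ∑ r ∈ Finset.range L, u ^ r • specProj P L (ζ ^ r)

theorem det_twist_sq (hζ : IsPrimitiveRoot ζ L) (hP : P ^ L = 1) (hL : 0 < L) (hT : P * Pᵀ = 1)
    (u : ℂ) :
    (twist P L ζ u).det ^ 2 =
      (specProj P L 1 + u ^ L • (1 - specProj P L 1)).det := by
  set π := fun r : ℕ => specProj P L (ζ ^ r) with hπ
  have hprod : twist P L ζ u * (twist P L ζ u)ᵀ =
      (specProj P L 1 + u ^ L • (1 - specProj P L 1))ᵀ := by
    have hrow : ∀ r ∈ Finset.range L, ∑ s ∈ Finset.range L, (u ^ r • π r) * (u ^ s • π s)ᵀ =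
        if r = 0 then (π 0)ᵀ else u ^ L • (π (L - r))ᵀ := by
      intro r hr
      rw [Finset.mem_range] at hr
      simp only [hπ, Matrix.transpose_smul, Matrix.smul_mul, Matrix.mul_smul, smul_smul, ← pow_add,
        specProj_mul_transpose hζ hP hL hT, smul_ite, smul_zero]
      rw [Finset.sum_eq_single (if r = 0 then 0 else L - r)]
      · by_cases h : r = 0
        · simp [h]
        · simp only [h, if_false]
          rw [if_pos ⟨1, by omega⟩, show L - r + r = L by omega]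
      · intro s hs hne
        rw [Finset.mem_range] at hs
        rw [if_neg]
        rintro ⟨c, hc⟩
        rcases lt_trichotomy c 1 with h | h | h
        · interval_cases c
          rw [if_pos (by omega)] at hne
          omega
        · subst h
          rw [if_neg (by omega)] at hne
          omega
        · have : L * 2 ≤ L * c := Nat.mul_le_mul_left _ h
          omega
      · intro h
        exact absurd (Finset.mem_range.mpr (by split_ifs <;> omega)) h
    rw [twist, Matrix.transpose_sum, Matrix.sum_mul]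
    simp only [Matrix.mul_sum]
    rw [Finset.sum_congr rfl hrow]
    have htot : ∑ r ∈ Finset.range L, π r = 1 := sum_specProj hζ hL
    obtain ⟨l, rfl⟩ : ∃ l, L = l + 1 := ⟨L - 1, by omega⟩
    rw [Finset.sum_range_succ'] at htot ⊢
    simp only [Nat.succ_ne_zero, if_false, if_true]
    have hre : ∑ k ∈ Finset.range l, π (l + 1 - (k + 1)) = ∑ k ∈ Finset.range l, π (k + 1) := by
      rw [← Finset.sum_range_reflect (fun k => π (k + 1)) l]
      refine Finset.sum_congr rfl fun k hk => ?_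
      rw [Finset.mem_range] at hk
      congr 1
      omega
    have h0 : π 0 = specProj P (l + 1) 1 := by simp [hπ]
    rw [← Finset.smul_sum, ← Matrix.transpose_sum, hre, ← h0, Matrix.transpose_add,
      Matrix.transpose_smul, ← htot, add_sub_cancel_right, add_comm]
  rw [sq]
  nth_rewrite 2 [← Matrix.det_transpose]
  rw [← Matrix.det_mul, hprod, Matrix.det_transpose]

end Projector

theorem det_proj_add_smul {V : Type*} [AddCommGroup V] [Module ℂ V] [FiniteDimensional ℂ V]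
    (p : V →ₗ[ℂ] V) (hp : p ∘ₗ p = p) (q : ℂ) :
    LinearMap.det (p + q • (LinearMap.id - p)) = q ^ Module.finrank ℂ (LinearMap.ker p) := by
  have hproj : LinearMap.IsProj (LinearMap.range p) p :=
    ⟨fun x => ⟨x, rfl⟩, by rintro _ ⟨y, rfl⟩; exact LinearMap.congr_fun hp y⟩
  set e := Submodule.prodEquivOfIsCompl _ _ hproj.isCompl
  have hc : p + q • (LinearMap.id - p) = (e : _ →ₗ[ℂ] V) ∘ₗ
      ((LinearMap.id : LinearMap.range p →ₗ[ℂ] _).prodMap (q • LinearMap.id)) ∘ₗ
        (e.symm.toLinearMap) := by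
    refine LinearMap.ext fun v => ?_
    obtain ⟨⟨a, b⟩, rfl⟩ := e.surjective v
    have ha : p (a : V) = a := hproj.map_id _ a.2
    have hb : p (b : V) = 0 := b.2
    simp [e, ha, hb]
  rw [hc, LinearMap.det_conj, LinearMap.det_prodMap, LinearMap.det_id, one_mul, LinearMap.det_smul,
    LinearMap.det_id, mul_one]

variable {Γ : Subgroup SL2Z} [Γ.FiniteIndex]

/-- The permutation matrix of translation by one. -/
def shiftMat (Γ : Subgroup SL2Z) [DecidableEq (SL2Z ⧸ Γ)] :
    Matrix (SL2Z ⧸ Γ) (SL2Z ⧸ Γ) ℂ :=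
  Matrix.of fun x y => if y = ModularGroup.T⁻¹ • x then 1 else 0

omit [Γ.FiniteIndex] in
theorem shiftMat_mulVec [Fintype (SL2Z ⧸ Γ)] [DecidableEq (SL2Z ⧸ Γ)] (v : SL2Z ⧸ Γ → ℂ) :
    shiftMat Γ *ᵥ v = fun x => v (ModularGroup.T⁻¹ • x) := by
  funext x
  simp [shiftMat, Matrix.mulVec, dotProduct]

omit [Γ.FiniteIndex] in
theorem shiftMat_pow_mulVec [Fintype (SL2Z ⧸ Γ)] [DecidableEq (SL2Z ⧸ Γ)] (j : ℕ)
    (v : SL2Z ⧸ Γ → ℂ) :
    shiftMat Γ ^ j *ᵥ v = fun x => v ((ModularGroup.T⁻¹) ^ j • x) := by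
  induction j generalizing v with
  | zero => simp
  | succ j ih =>
    rw [pow_succ, ← Matrix.mulVec_mulVec, ih, shiftMat_mulVec]
    funext x
    show v (ModularGroup.T⁻¹ • (ModularGroup.T⁻¹) ^ j • x) = _
    rw [smul_smul, ← pow_succ']

omit [Γ.FiniteIndex] in
theorem T_inv_pow_period (x : SL2Z ⧸ Γ) : (ModularGroup.T⁻¹) ^ globalPeriod Γ • x = x := by
  rw [inv_pow, inv_smul_eq_iff, T_pow_globalPeriod_smul]

omit [Γ.FiniteIndex] in
theorem shiftMat_pow_period [Fintype (SL2Z ⧸ Γ)] [DecidableEq (SL2Z ⧸ Γ)] :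
    shiftMat Γ ^ globalPeriod Γ = 1 := by
  refine Matrix.ext_of_mulVec_single fun x => ?_
  rw [shiftMat_pow_mulVec, Matrix.one_mulVec]
  funext y
  show (Pi.single x 1 : SL2Z ⧸ Γ → ℂ) _ = _
  rw [T_inv_pow_period]

omit [Γ.FiniteIndex] in
theorem shiftMat_mul_transpose [Fintype (SL2Z ⧸ Γ)] [DecidableEq (SL2Z ⧸ Γ)] :
    shiftMat Γ * (shiftMat Γ)ᵀ = 1 := by
  ext x y
  simp [shiftMat, Matrix.mul_apply, Matrix.one_apply, eq_comm]

theorem det_proj_shift [Fintype (SL2Z ⧸ Γ)] [DecidableEq (SL2Z ⧸ Γ)] (q : ℂ) :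
    ∃ c : ℕ, c + Module.finrank ℂ (fixedFun Γ ModularGroup.T) = Nat.card (SL2Z ⧸ Γ) ∧
      (specProj (shiftMat Γ) (globalPeriod Γ) 1 +
        q • (1 - specProj (shiftMat Γ) (globalPeriod Γ) 1)).det = q ^ c := by
  set L := globalPeriod Γ
  have hL : 0 < L := globalPeriod_pos
  set π₀ := specProj (shiftMat Γ) L 1
  set p := Matrix.toLin' π₀
  have hidem : π₀ * π₀ = π₀ := by
    rw [specProj_mul_eigen (mul_specProj shiftMat_pow_period 1 (one_pow _) hL.ne')]
    simp [hL.ne']
    rfl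
  have hp : p ∘ₗ p = p := by rw [← Matrix.toLin'_mul, hidem]
  have hpsum : p = (L : ℂ)⁻¹ • orbitSum Γ ModularGroup.T⁻¹ L := by
    refine LinearMap.ext fun v => ?_
    funext x
    simp only [p, π₀, specProj, inv_one, one_pow, one_smul, Matrix.toLin'_apply, Matrix.smul_mulVec,
      Matrix.sum_mulVec, shiftMat_pow_mulVec, LinearMap.smul_apply, Pi.smul_apply, orbitSum_apply,
      Finset.sum_apply]
  have hker : LinearMap.ker p = LinearMap.ker (orbitSum Γ ModularGroup.T⁻¹ L) := by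
    rw [hpsum, LinearMap.ker_smul _ _ (inv_ne_zero (Nat.cast_ne_zero.mpr hL.ne'))]
  refine ⟨Module.finrank ℂ (LinearMap.ker p), ?_, ?_⟩
  · have hfix : fixedFun Γ ModularGroup.T⁻¹ = fixedFun Γ ModularGroup.T := by
      ext v
      rw [mem_fixedFun, mem_fixedFun]
      exact ⟨fun h x => by simpa using (h (ModularGroup.T • x)).symm,
        fun h x => by simpa using (h (ModularGroup.T⁻¹ • x)).symm⟩
    rw [hker, ← hfix, finrank_ker_orbitSum Γ hL.ne' T_inv_pow_period]
  · rw [← det_proj_add_smul p hp q, ← LinearMap.det_toLin']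
    simp [p, map_add, map_sub, map_smul]

omit [Γ.FiniteIndex] in
theorem evalVec_T (i : Gen Γ) (τ : ℍ) (x : SL2Z ⧸ Γ) :
    evalVec (ModularGroup.T • τ) i x = evalVec τ i (ModularGroup.T⁻¹ • x) := by
  have h := evalVec_smul_point ModularGroup.T τ i x
  rwa [show denom (ModularGroup.T : GL (Fin 2) ℝ) (τ : ℂ) = 1 by
    rw [ModularGroup.denom_apply]; simp [ModularGroup.coe_T], one_zpow, mul_one] at h

omit [Γ.FiniteIndex] in
theorem evalVec_T_pow (i : Gen Γ) (τ : ℍ) (j : ℕ) (x : SL2Z ⧸ Γ) :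
    evalVec (ModularGroup.T ^ j • τ) i x = evalVec τ i ((ModularGroup.T⁻¹) ^ j • x) := by
  induction j generalizing x with
  | zero => simp
  | succ j ih => rw [pow_succ', mul_smul, evalVec_T, ih, ← mul_smul, ← pow_succ]

/-- Taylor expansion at zero with continuous remainder. -/
theorem exists_taylor {C : ℂ → ℂ} (hC : DifferentiableOn ℂ C (Metric.ball 0 1)) (L : ℕ) :
    ∃ (a : ℕ → ℂ) (R : ℂ → ℂ), DifferentiableOn ℂ R (Metric.ball 0 1) ∧
      ∀ z, C z = ∑ m ∈ Finset.range L, a m * z ^ m + z ^ L * R z := by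
  induction L with
  | zero => exact ⟨0, C, hC, fun z => by simp⟩
  | succ L ih =>
    obtain ⟨a, R, hR, h⟩ := ih
    refine ⟨Function.update a L (R 0), dslope R 0,
      (Complex.differentiableOn_dslope (Metric.ball_mem_nhds _ one_pos)).mpr hR, fun z => ?_⟩
    rw [h z, Finset.sum_range_succ, update_self]
    have hs : ∑ m ∈ Finset.range L, Function.update a L (R 0) m * z ^ m
        = ∑ m ∈ Finset.range L, a m * z ^ m :=
      Finset.sum_congr rfl fun m hm => by
        rw [update_of_ne (Finset.mem_range.mp hm).ne]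
    rw [hs]
    have hd : R z = R 0 + z * dslope R 0 z := by
      rcases eq_or_ne z 0 with rfl | hz
      · simp
      · rw [dslope_of_ne _ hz, slope_def_field, sub_zero, mul_div_cancel₀ _ hz]; ring
    rw [hd, pow_succ]
    ring

variable (Γ) in
/-- The local parameter of width the global period. -/
def uPar (τ : ℍ) : ℂ := Periodic.qParam (globalPeriod Γ : ℝ) (τ : ℂ)

theorem uPar_tendsto : Tendsto (uPar Γ) atImInfty (𝓝 0) :=
  qParam_tendsto_atImInfty (by exact_mod_cast globalPeriod_pos)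

theorem uPar_mem_ball (τ : ℍ) : uPar Γ τ ∈ Metric.ball (0 : ℂ) 1 :=
  mem_ball_zero_iff.mpr (Periodic.norm_qParam_lt_one (by exact_mod_cast globalPeriod_pos) τ.im_pos)

omit [Γ.FiniteIndex] in
theorem uPar_ne_zero (τ : ℍ) : uPar Γ τ ≠ 0 := Periodic.qParam_ne_zero _

theorem uPar_pow_period (τ : ℍ) : uPar Γ τ ^ globalPeriod Γ = Periodic.qParam 1 (τ : ℂ) := by
  rw [uPar, Periodic.qParam, Periodic.qParam, ← Complex.exp_nat_mul]
  congr 1
  have : ((globalPeriod Γ : ℕ) : ℂ) ≠ 0 := Nat.cast_ne_zero.mpr globalPeriod_pos.ne'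
  push_cast
  field_simp

variable (Γ) in
/-- The root of unity of order the global period. -/
def zetaPer : ℂ := Complex.exp (2 * Real.pi * Complex.I / (globalPeriod Γ : ℂ))

theorem zetaPer_primitive : IsPrimitiveRoot (zetaPer Γ) (globalPeriod Γ) :=
  Complex.isPrimitiveRoot_exp _ globalPeriod_pos.ne'

omit [Γ.FiniteIndex] in
theorem uPar_T_pow (τ : ℍ) (j : ℕ) :
    uPar Γ (ModularGroup.T ^ j • τ) = zetaPer Γ ^ j * uPar Γ τ := by
  rw [uPar, uPar, zetaPer, coe_T_pow_smul, Periodic.qParam, Periodic.qParam,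
    ← Complex.exp_nat_mul, ← Complex.exp_add]
  congr 1
  push_cast
  ring

theorem evalVec_expansion (i : Gen Γ) (x : SL2Z ⧸ Γ) :
    ∃ (a : ℕ → ℂ) (R : ℂ → ℂ), DifferentiableOn ℂ R (Metric.ball 0 1) ∧ ∀ τ : ℍ,
      evalVec τ i x = ∑ m ∈ Finset.range (globalPeriod Γ), a m * uPar Γ τ ^ m +
        uPar Γ τ ^ globalPeriod Γ * R (uPar Γ τ) := by
  have hL : (0 : ℝ) < globalPeriod Γ := by exact_mod_cast globalPeriod_pos
  have hper : Periodic (cosetSlash i.1 (gen i) x ∘ ofComplex) (globalPeriod Γ : ℝ) := by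
    rw [cosetSlash]; exact periodic_slash (gen_mem i) _
  obtain ⟨a, R, hR, h⟩ := exists_taylor (differentiableOn_cuspFunction_ball hL hper
    (cosetSlash_mdiff (gen_mem i) x) (cosetSlash_bdd (gen_mem i) x)) (globalPeriod Γ)
  exact ⟨a, R, hR, fun τ => by rw [evalVec, ← eq_cuspFunction τ hL.ne' hper]; exact h _⟩

theorem levelOne_expansion {k : ℤ} {m : ℍ → ℂ} (hm : m ∈ forms ⊤ k) :
    ∃ R : ℂ → ℂ, DifferentiableOn ℂ R (Metric.ball 0 1) ∧
      ∀ τ : ℍ, m τ = valInf m + Periodic.qParam 1 (τ : ℂ) * R (Periodic.qParam 1 (τ : ℂ)) := by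
  have hd := differentiableOn_cuspFunction_ball one_pos (top_periodic hm) hm.2.1 (top_bdd hm)
  refine ⟨dslope (UpperHalfPlane.cuspFunction 1 m) 0,
    (Complex.differentiableOn_dslope (Metric.ball_mem_nhds _ one_pos)).mpr hd, fun τ => ?_⟩
  rw [dslope_of_ne _ (Periodic.qParam_ne_zero _), slope_def_field, sub_zero,
    mul_div_cancel₀ _ (Periodic.qParam_ne_zero _), valInf,
    eq_cuspFunction τ one_ne_zero (top_periodic hm)]
  ring

theorem dlt_div_q :
    Tendsto (fun τ : ℍ => dlt τ / Periodic.qParam 1 (τ : ℂ)) atImInfty (𝓝 1) := by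
  obtain ⟨R, hR, hRd⟩ := levelOne_expansion (dlt_mem (Γ := ⊤))
  have hv : valInf dlt = 0 := tendsto_nhds_unique (tendsto_valInf dlt_mem) dlt_tendsto
  have hlim : Tendsto (fun τ : ℍ => dlt τ / Periodic.qParam 1 (τ : ℂ)) atImInfty (𝓝 (R 0)) := by
    refine ((hR.continuousOn.continuousAt (Metric.ball_mem_nhds _ one_pos)).tendsto.comp
      (qParam_tendsto_atImInfty one_pos)).congr fun τ => ?_
    rw [comp_apply, hRd τ, hv, zero_add, mul_div_cancel_left₀ _ (Periodic.qParam_ne_zero _)]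
  suffices h1 : R 0 = 1 by rwa [h1] at hlim
  have hd1 : deriv (UpperHalfPlane.cuspFunction 1 dlt) 0 = 1 := by
    simpa [qExpansion_coeff, iteratedDeriv_one, dlt] using
      ModularForm.discriminant_qExpansion_coeff_one
  have hd0 : UpperHalfPlane.cuspFunction 1 dlt 0 = 0 := hv
  have han := analyticAt_cuspFunction_zero one_pos (top_periodic dlt_mem) (dlt_mem (Γ := ⊤)).2.1
    (top_bdd dlt_mem)
  refine tendsto_nhds_unique hlim ?_
  have hs := (hasDerivAt_iff_tendsto_slope.mp han.differentiableAt.hasDerivAt).comp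
    (tendsto_nhdsWithin_iff.mpr ⟨qParam_tendsto_atImInfty one_pos,
      Eventually.of_forall fun τ : ℍ => Periodic.qParam_ne_zero _⟩)
  rw [hd1] at hs
  refine hs.congr fun τ => ?_
  rw [comp_apply, slope_def_field, hd0, sub_zero, sub_zero,
    eq_cuspFunction τ one_ne_zero (top_periodic dlt_mem)]

theorem exists_monomial_one (j : ℕ) :
    ∃ m ∈ forms ⊤ (2 * ((j : ℤ) + 2)), valInf m = 1 := by
  have h : ∃ m ∈ forms ⊤ (2 * ((j : ℤ) + 2)), Tendsto m atImInfty (𝓝 1) := by
    induction j using Nat.strong_induction_on with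
    | _ j ih =>
      match j, ih with
      | 0, _ => exact ⟨e4, e4_mem, e4_tendsto⟩
      | 1, _ => exact ⟨e6, e6_mem, e6_tendsto⟩
      | j + 2, ih =>
        obtain ⟨m, hm, hm1⟩ := ih j (by omega)
        refine ⟨e4 * m, forms_mul_of_eq e4_mem hm (by push_cast; ring), ?_⟩
        simpa [Pi.mul_def] using e4_tendsto.mul hm1
  obtain ⟨m, hm, hm1⟩ := h
  exact ⟨m, hm, tendsto_nhds_unique (tendsto_valInf hm) hm1⟩

theorem bdd_comp_ball {R : ℂ → ℂ} (hR : DifferentiableOn ℂ R (Metric.ball 0 1)) {u : ℍ → ℂ}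
    (hu : Tendsto u atImInfty (𝓝 0)) : IsBoundedAtImInfty fun τ => R (u τ) :=
  ((hR.continuousOn.continuousAt (Metric.ball_mem_nhds _ one_pos)).tendsto.comp hu).isBigO_one ℝ

/-- The order of the determinant at infinity. -/
theorem det_order [Fintype (SL2Z ⧸ Γ)] [DecidableEq (SL2Z ⧸ Γ)] (hneg : (-1 : SL2Z) ∈ Γ)
    (e : SL2Z ⧸ Γ ≃ Gen Γ) :
    ∃ (c : ℕ) (L₀ : ℂ), L₀ ≠ 0 ∧
      c + Module.finrank ℂ (fixedFun Γ ModularGroup.T) = Nat.card (SL2Z ⧸ Γ) ∧
      Tendsto (fun τ => (Matrix.of fun x y => evalVec τ (e y) x).det ^ 2 / dlt τ ^ c)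
        atImInfty (𝓝 L₀) := by
  classical
  set L := globalPeriod Γ with hLdef
  have hL : 0 < L := globalPeriod_pos
  set ζ := zetaPer Γ
  have hζ : IsPrimitiveRoot ζ L := zetaPer_primitive
  set P := shiftMat Γ
  have hP : P ^ L = 1 := shiftMat_pow_period
  set M : ℍ → Matrix (SL2Z ⧸ Γ) (SL2Z ⧸ Γ) ℂ := fun τ => Matrix.of fun x y => evalVec τ (e y) x
  choose a R hR hexp using fun (i : Gen Γ) (x : SL2Z ⧸ Γ) => evalVec_expansion i x
  set u := uPar Γ
  -- translates
  have hPM : ∀ (j : ℕ) (τ : ℍ), P ^ j * M τ = M (ModularGroup.T ^ j • τ) := by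
    intro j τ
    ext x y
    show (P ^ j *ᵥ fun z => evalVec τ (e y) z) x = _
    rw [shiftMat_pow_mulVec]
    exact (evalVec_T_pow _ τ j x).symm
  -- leading coefficients and error terms
  set A : ℕ → Matrix (SL2Z ⧸ Γ) (SL2Z ⧸ Γ) ℂ := fun r => Matrix.of fun x y => a (e y) x r
  set E : ℕ → ℍ → Matrix (SL2Z ⧸ Γ) (SL2Z ⧸ Γ) ℂ := fun r τ => Matrix.of fun x y =>
    (L : ℂ)⁻¹ * ∑ j ∈ Finset.range L, ((ζ ^ r)⁻¹) ^ j * R (e y) x (ζ ^ j * u τ)
  have hproj : ∀ r < L, ∀ τ : ℍ,
      specProj P L (ζ ^ r) * M τ = u τ ^ r • A r + u τ ^ L • E r τ := by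
    intro r hr τ
    rw [specProj, Matrix.smul_mul, Matrix.sum_mul]
    simp only [Matrix.smul_mul, hPM]
    ext x y
    simp only [Matrix.smul_apply, Matrix.sum_apply, Matrix.add_apply, M, A, E, Matrix.of_apply,
      smul_eq_mul, hexp, u, uPar_T_pow]
    have hsplit : ∀ j ∈ Finset.range L, ((ζ ^ r)⁻¹) ^ j *
        (∑ m ∈ Finset.range L, a (e y) x m * (ζ ^ j * uPar Γ τ) ^ m +
          (ζ ^ j * uPar Γ τ) ^ L * R (e y) x (ζ ^ j * uPar Γ τ))
        = ∑ m ∈ Finset.range L, a (e y) x m * uPar Γ τ ^ m * ((ζ ^ (L - r + m)) ^ j) +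
          uPar Γ τ ^ L * (((ζ ^ r)⁻¹) ^ j * R (e y) x (ζ ^ j * uPar Γ τ)) := by
      intro j _
      have hinv : (ζ ^ r)⁻¹ = ζ ^ (L - r) := by
        rw [inv_eq_of_mul_eq_one_right]
        rw [← pow_add, Nat.add_sub_cancel' hr.le, hζ.pow_eq_one]
      have hζj : (ζ ^ j) ^ L = 1 := by rw [← pow_mul, mul_comm, pow_mul, hζ.pow_eq_one, one_pow]
      rw [mul_add, Finset.mul_sum, mul_pow (ζ ^ j), hζj]
      congr 1
      · refine Finset.sum_congr rfl fun m _ => ?_
        rw [hinv, mul_pow, pow_add, mul_pow, ← pow_mul, ← pow_mul, mul_comm j m, pow_mul, pow_mul]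
        ring
      · ring
    rw [Finset.sum_congr rfl hsplit, Finset.sum_add_distrib, mul_add, Finset.sum_comm,
      ← Finset.mul_sum]
    congr 1
    · rw [Finset.mul_sum]
      have hm : ∀ m ∈ Finset.range L,
          (L : ℂ)⁻¹ * ∑ j ∈ Finset.range L, a (e y) x m * uPar Γ τ ^ m * (ζ ^ (L - r + m)) ^ j
          = if m = r then uPar Γ τ ^ r * a (e y) x r else 0 := by
        intro m hm
        rw [Finset.mem_range] at hm
        rw [← Finset.mul_sum, mul_left_comm, average_pow hζ hL]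
        have : L ∣ L - r + m ↔ m = r := by
          constructor
          · rintro ⟨c, hc⟩
            rcases lt_trichotomy c 1 with h | h | h
            · interval_cases c; omega
            · subst h; omega
            · have : L * 2 ≤ L * c := Nat.mul_le_mul_left _ h
              omega
          · rintro rfl
            exact ⟨1, by omega⟩
        by_cases h : m = r
        · subst h; simp [this]; ring
        · simp [this, h]
      rw [Finset.sum_congr rfl hm, Finset.sum_ite_eq' (Finset.range L) r (fun _ =>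
        uPar Γ τ ^ r * a (e y) x r), if_pos (Finset.mem_range.mpr hr)]
    · ring
  set B : ℕ → ℍ → Matrix (SL2Z ⧸ Γ) (SL2Z ⧸ Γ) ℂ := fun r τ => A r + u τ ^ (L - r) • E r τ
  have hB : ∀ r < L, ∀ τ, specProj P L (ζ ^ r) * M τ = u τ ^ r • B r τ := by
    intro r hr τ
    rw [hproj r hr τ, smul_add, smul_smul, ← pow_add, Nat.add_sub_cancel' hr.le]
  have hBfix : ∀ r < L, ∀ s < L, ∀ τ,
      specProj P L (ζ ^ r) * B s τ = if r = s then B s τ else 0 := by
    intro r hr s hs τ
    have h : u τ ^ s • (specProj P L (ζ ^ r) * B s τ) = u τ ^ s • (if r = s then B s τ else 0) := by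
      rw [← Matrix.mul_smul, ← hB s hs τ, ← Matrix.mul_assoc, specProj_orth hζ hP hL hr hs]
      by_cases h : r = s
      · subst h; simp only [if_true, hB r hr]
      · simp [h]
    exact smul_right_injective _ (pow_ne_zero _ (uPar_ne_zero τ)) h
  set W : ℍ → Matrix (SL2Z ⧸ Γ) (SL2Z ⧸ Γ) ℂ := fun τ => ∑ r ∈ Finset.range L, B r τ
  have hfac : ∀ τ, twist P L ζ (u τ) * W τ = M τ := by
    intro τ
    simp only [twist, W, Matrix.sum_mul, Matrix.mul_sum, Matrix.smul_mul]
    try rw [Finset.sum_comm]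
    have h1 : ∀ r ∈ Finset.range L,
        ∑ s ∈ Finset.range L, u τ ^ r • (specProj P L (ζ ^ r) * B s τ) = specProj P L (ζ ^ r) * M τ := by
      intro r hr
      rw [Finset.sum_congr rfl fun s hs => by rw [hBfix r (Finset.mem_range.mp hr) s (Finset.mem_range.mp hs) τ]]
      rw [← Finset.smul_sum, Finset.sum_ite_eq, if_pos hr, hB r (Finset.mem_range.mp hr)]
    rw [Finset.sum_congr rfl h1, ← Matrix.sum_mul, sum_specProj hζ hL, Matrix.one_mul]
  have hEb : ∀ r x y, IsBoundedAtImInfty fun τ => E r τ x y := by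
    intro r x y
    have ht : ∀ j : ℕ, Tendsto (fun τ => R (e y) x (ζ ^ j * u τ)) atImInfty (𝓝 (R (e y) x 0)) := by
      intro j
      refine ((hR (e y) x).continuousOn.continuousAt (Metric.ball_mem_nhds _ one_pos)).tendsto.comp ?_
      simpa using (uPar_tendsto (Γ := Γ)).const_mul (ζ ^ j)
    exact (((tendsto_finsetSum (Finset.range L) fun j _ => (ht j).const_mul (((ζ ^ r)⁻¹) ^ j))).const_mul
      ((L : ℂ)⁻¹)).isBigO_one ℝ
  have hBlim : ∀ r < L, Tendsto (B r) atImInfty (𝓝 (A r)) := by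
    intro r hr
    refine tendsto_pi_nhds.mpr fun x => tendsto_pi_nhds.mpr fun y => ?_
    have h0 : Tendsto (fun τ => u τ ^ (L - r)) atImInfty (𝓝 0) := by
      simpa [zero_pow (Nat.sub_pos_of_lt hr).ne'] using (uPar_tendsto (Γ := Γ)).pow (L - r)
    have h1 : ZeroAtFilter atImInfty (fun τ => u τ ^ (L - r) * E r τ x y) :=
      Asymptotics.isLittleO_one_iff ℝ |>.mp (by
        simpa using ((Asymptotics.isLittleO_one_iff ℝ).mpr h0).mul_isBigO (hEb r x y))
    have := h1.const_add (A r x y)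
    simpa [B] using this

  have hAfix : ∀ r < L, ∀ s < L,
      specProj P L (ζ ^ r) * A s = if r = s then A s else 0 := by
    intro r hr s hs
    refine tendsto_nhds_unique (((continuous_const.matrix_mul continuous_id).tendsto (A s)).comp (hBlim s hs)) ?_
    simp only [comp_def, id_eq, hBfix r hr s hs]
    by_cases h : r = s
    · simpa [h] using hBlim s hs
    · simpa [h] using tendsto_const_nhds
  set W₀ := ∑ r ∈ Finset.range L, A r
  have hW : Tendsto W atImInfty (𝓝 W₀) :=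
    tendsto_finsetSum _ fun r hr => hBlim r (Finset.mem_range.mp hr)
  have hW0 : W₀.det ≠ 0 := by
    intro hdet
    obtain ⟨c, hc0, hc⟩ := Matrix.exists_mulVec_eq_zero_iff.mpr hdet
    have hAc : ∀ r < L, A r *ᵥ c = 0 := by
      intro r hr
      have h := congrArg (fun v => specProj P L (ζ ^ r) *ᵥ v) hc
      simp only [Matrix.mulVec_mulVec, Matrix.mulVec_zero, W₀, Matrix.mul_sum] at h
      rwa [Finset.sum_congr rfl (fun s hs => hAfix r hr s (Finset.mem_range.mp hs)),
        Finset.sum_ite_eq, if_pos (Finset.mem_range.mpr hr)] at h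
    set d : Gen Γ → ℂ := fun i => c (e.symm i)
    have : Fintype (Gen Γ) := Fintype.ofEquiv _ e
    set K : ℕ := Finset.univ.sup (halfWt (Γ := Γ)) + 2
    choose m hm hm1 using fun i : Gen Γ => exists_monomial_one (K - halfWt i - 2)
    set r₀ : Gen Γ → ℍ → ℂ := fun i => d i • m i
    have hr₀ : ∀ i, r₀ i ∈ forms ⊤ (2 * (K : ℤ) - i.1) := fun i => by
      refine Submodule.smul_mem _ _ ?_
      have h1 := Finset.le_sup (f := halfWt (Γ := Γ)) (Finset.mem_univ i)
      have h2 := wt_eq_two_mul hneg i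
      convert hm i using 2
      omega
    set F := ∑ i, r₀ i * gen i with hFdef
    have hF : F ∈ forms Γ (2 * (K : ℤ)) := Submodule.sum_mem _ fun i _ =>
      forms_mul_of_eq (forms_mono le_top (hr₀ i)) (gen_mem i) (by ring)
    choose Rm hRm hRme using fun i : Gen Γ => levelOne_expansion (hm i)
    have hFx : ∀ (x : SL2Z ⧸ Γ) (τ : ℍ), cosetSlash (2 * (K : ℤ)) F x τ =
        Periodic.qParam 1 (τ : ℂ) * ∑ i, d i * (Rm i (Periodic.qParam 1 (τ : ℂ)) * evalVec τ i x +
          R i x (u τ)) := by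
      intro x τ
      rw [hFdef, cosetSlash_sum_gen Finset.univ r₀ hr₀, Finset.mul_sum]
      have hz : ∑ i, d i * ∑ j ∈ Finset.range L, a i x j * u τ ^ j = 0 := by
        simp only [Finset.mul_sum]
        rw [Finset.sum_comm]
        refine Finset.sum_eq_zero fun j hj => ?_
        have h := congrFun (hAc j (Finset.mem_range.mp hj)) x
        simp only [Matrix.mulVec, dotProduct, A, Matrix.of_apply, Pi.zero_apply] at h
        rw [← Equiv.sum_comp e, show (0 : ℂ) = u τ ^ j * 0 by ring, ← h, Finset.mul_sum]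
        exact Finset.sum_congr rfl fun y _ => by simp [d]; ring
      rw [← sub_eq_zero, ← Finset.sum_sub_distrib, ← hz]
      refine Finset.sum_congr rfl fun i _ => ?_
      simp only [r₀, Pi.smul_apply, smul_eq_mul, hRme i τ, hm1]
      have he := hexp i x τ
      simp only [← hLdef] at he
      rw [show Periodic.qParam 1 (τ : ℂ) = uPar Γ τ ^ L from (uPar_pow_period τ).symm]
      linear_combination d i * he
    set G : ℍ → ℂ := fun τ => F τ / dlt τ
    have hFG : F = dlt * G := funext fun τ => (mul_div_cancel₀ _ (dlt_ne_zero τ)).symm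
    have hGslash : ∀ σ : SL2Z, G ∣[2 * (K : ℤ) - 12] σ = fun τ => (F ∣[2 * (K : ℤ)] σ) τ / dlt τ := by
      intro σ
      funext τ
      have h := congrFun (congrArg (fun f => f ∣[2 * (K : ℤ)] σ) hFG) τ
      rw [show (2 * (K : ℤ)) = 12 + (2 * (K : ℤ) - 12) by ring, ModularForm.mul_slash_SL2,
        (dlt_mem (Γ := ⊤)).1 σ (Subgroup.mem_top σ)] at h
      rw [eq_div_iff (dlt_ne_zero τ)]
      simp only [Pi.mul_apply] at h
      rw [mul_comm, ← h, show 12 + (2 * (K : ℤ) - 12) = 2 * (K : ℤ) by ring]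
    have hG : G ∈ forms Γ (2 * (K : ℤ) - 12) := by
      refine ⟨fun γ hγ => by rw [hGslash, hF.1 γ hγ], ?_, fun σ => ?_⟩
      · rw [UpperHalfPlane.mdifferentiable_iff]
        exact (UpperHalfPlane.mdifferentiable_iff.mp hF.2.1).div
          (UpperHalfPlane.mdifferentiable_iff.mp (dlt_mem (Γ := ⊤)).2.1) fun z _ => dlt_ne_zero _
      · set x : SL2Z ⧸ Γ := ((σ⁻¹ : SL2Z) : SL2Z ⧸ Γ) with hx
        have hσ : cosetSlash (2 * (K : ℤ)) F x = F ∣[2 * (K : ℤ)] σ := by
          rw [hx, cosetSlash_mk hF, inv_inv]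
        rw [hGslash, ← hσ]
        refine bdd_of_mul (p := fun τ => dlt τ / Periodic.qParam 1 (τ : ℂ)) dlt_div_q ?_
        have hb : IsBoundedAtImInfty fun τ : ℍ =>
            ∑ i, d i * (Rm i (Periodic.qParam 1 (τ : ℂ)) * evalVec τ i x + R i x (u τ)) := by
          refine Asymptotics.IsBigO.fun_sum fun i _ => ?_
          have h1 : IsBoundedAtImInfty ((fun τ : ℍ => Rm i (Periodic.qParam 1 (τ : ℂ))) *
              cosetSlash i.1 (gen i) x) :=
            (bdd_comp_ball (hRm i) (qParam_tendsto_atImInfty one_pos)).mul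
              (cosetSlash_bdd (gen_mem i) x)
          exact (h1.add (bdd_comp_ball (hR i x) (uPar_tendsto (Γ := Γ)))).const_mul_left (d i)
        refine hb.congr_left fun τ => ?_
        simp only [Pi.mul_apply, hFx]
        have := dlt_ne_zero τ
        have := Periodic.qParam_ne_zero (h := 1) (τ : ℂ)
        field_simp
    obtain ⟨g, hg, hgG⟩ := isComb_forms hG
    set rf : Gen Γ →₀ (ℍ → ℂ) := Finsupp.indicator Finset.univ (fun i _ => r₀ i) with hrf
    set pg : Gen Γ →₀ (ℍ → ℂ) := g.mapRange (fun f => -(dlt * f)) (by simp) with hpg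
    have hind := gen_independent (rf + pg) (K := 2 * (K : ℤ)) (fun i => ?_) ?_
    · refine hc0 (funext fun x => ?_)
      have h := congrFun (DFunLike.congr_fun hind (e x))
      have hl : Tendsto (fun τ => d (e x) * m (e x) τ - dlt τ * g (e x) τ) atImInfty
          (𝓝 (d (e x))) := by
        have h1 := (tendsto_valInf (hm (e x))).const_mul (d (e x))
        have h2 := dlt_tendsto.mul (tendsto_valInf (hg (e x)))
        simpa [hm1] using h1.sub h2
      have hzero : ∀ τ, d (e x) * m (e x) τ - dlt τ * g (e x) τ = 0 := fun τ => by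
        have := h τ
        simp only [Finsupp.add_apply, hrf, hpg, Finsupp.indicator_of_mem (Finset.mem_univ _),
          Finsupp.mapRange_apply, Pi.add_apply, Pi.neg_apply, Pi.mul_apply, Finsupp.zero_apply,
          Pi.zero_apply, r₀, Pi.smul_apply, smul_eq_mul] at this
        linear_combination this
      have := tendsto_nhds_unique (tendsto_const_nhds.congr fun τ => (hzero τ).symm) hl
      simpa [d] using this.symm
    · refine add_mem ?_ ?_
      · rw [hrf, Finsupp.indicator_of_mem (Finset.mem_univ i)]; exact hr₀ i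
      · rw [hpg, Finsupp.mapRange_apply]
        exact neg_mem (forms_mul_of_eq dlt_mem (hg i) (by ring))
    · rw [Finsupp.sum_add_index' (fun _ => zero_mul _) (fun _ _ _ => add_mul _ _ _), hrf,
        Finsupp.sum_indicator_index (fun i => r₀ i) (fun i _ => zero_mul (gen i)), hpg,
        Finsupp.sum_mapRange_index (by simp)]
      rw [← hFdef, hFG, hgG]
      simp only [Finsupp.sum, neg_mul, Finset.sum_neg_distrib, mul_assoc, Finset.mul_sum,
        add_neg_cancel]
  obtain ⟨c₁, hc₁, -⟩ := det_proj_shift (Γ := Γ) 0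
  refine ⟨c₁, W₀.det ^ 2, pow_ne_zero _ hW0, hc₁, ?_⟩
  have hdet : ∀ τ, (M τ).det ^ 2 = Periodic.qParam 1 (τ : ℂ) ^ c₁ * (W τ).det ^ 2 := by
    intro τ
    rw [← hfac τ, Matrix.det_mul, mul_pow, det_twist_sq hζ hP hL shiftMat_mul_transpose]
    obtain ⟨c₂, hc₂, hdet⟩ := det_proj_shift (Γ := Γ) (u τ ^ L)
    rw [hdet, show c₂ = c₁ by omega, show u τ ^ L = Periodic.qParam 1 (τ : ℂ) from uPar_pow_period τ]
  have hcont : Continuous fun A : Matrix (SL2Z ⧸ Γ) (SL2Z ⧸ Γ) ℂ => A.det ^ 2 :=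
    continuous_id.matrix_det.pow 2
  have hlim := ((hcont.tendsto W₀).comp hW).div (dlt_div_q.pow c₁) (by simp)
  simp only [one_pow, div_one] at hlim
  refine hlim.congr fun τ => ?_
  simp only [Pi.div_apply, comp_apply]
  show _ = (M τ).det ^ 2 / dlt τ ^ c₁
  rw [hdet τ, div_pow]
  field_simp

end FLTAgent.ES
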