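import Mathlib
import Fermat.Agent.ES.Infinity

/-!
Weight statistics of the generators and the lower bound for the dimension of weight two cusp forms.
-/

set_option autoImplicit false

noncomputable section

open UpperHalfPlane Filter Topology Complex Function
open scoped MatrixGroups ModularForm Manifold

namespace FLTAgent.ES

local notation "SL2Z" => Matrix.SpecialLinearGroup (Fin 2) ℤ

variable {Γ : Subgroup SL2Z} [Γ.FiniteIndex]

/-- The sum of the half weights. -/
theorem sum_halfWt [Fintype (Gen Γ)] (hneg : (-1 : SL2Z) ∈ Γ) (hspan : ValuesSpan Γ) :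
    (∑ i : Gen Γ, halfWt i) + 3 * Module.finrank ℂ (fixedFun Γ ModularGroup.T) =
      3 * Nat.card (SL2Z ⧸ Γ) := by
  classical
  have : Fintype (SL2Z ⧸ Γ) := Fintype.ofFinite _
  have hcard : Fintype.card (SL2Z ⧸ Γ) = Fintype.card (Gen Γ) := by
    rw [← Nat.card_eq_fintype_card, ← Nat.card_eq_fintype_card, card_gen hneg hspan]
  set e := Fintype.equivOfCardEq hcard
  set M : ℍ → Matrix (SL2Z ⧸ Γ) (SL2Z ⧸ Γ) ℂ := fun τ => Matrix.of fun x y => evalVec τ (e y) x
  obtain ⟨c, L₀, hL₀, hc, hlim⟩ := det_order hneg e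
  set W : ℤ := ∑ y, (e y).1 with hWdef
  set D : ℍ → ℂ := fun τ => (M τ).det ^ 2 with hDdef
  have hsmul : ∀ (γ : SL2Z) (τ : ℍ), D (γ • τ) = denom γ τ ^ (2 * W) * D τ := by
    intro γ τ
    have hM : M (γ • τ) = (M τ).submatrix (MulAction.toPerm γ⁻¹) id *
        Matrix.diagonal fun y => denom γ (τ : ℂ) ^ (e y).1 := by
      ext x y
      rw [Matrix.mul_diagonal]
      simp only [M, Matrix.submatrix_apply, Matrix.of_apply, id_eq, MulAction.toPerm_apply]
      rw [← evalVec_smul_point γ τ (e y) x, mul_assoc, ← zpow_add₀ (denom_ne_zero _ _), neg_add_cancel,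
        zpow_zero, mul_one]
    have hd : denom γ (τ : ℂ) ≠ 0 := denom_ne_zero _ _
    have hprod : ∏ y, denom γ (τ : ℂ) ^ (e y).1 = denom γ (τ : ℂ) ^ W := by
      rw [hWdef]
      induction (Finset.univ : Finset (SL2Z ⧸ Γ)) using Finset.induction_on with
      | empty => simp
      | insert a s ha ih => rw [Finset.prod_insert ha, Finset.sum_insert ha, ih, zpow_add₀ hd]
    have hsign : ((Equiv.Perm.sign (MulAction.toPerm (α := SL2Z) (β := SL2Z ⧸ Γ) γ⁻¹) : ℤ) : ℂ) ^ 2
        = 1 := by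
      rcases Int.units_eq_one_or (Equiv.Perm.sign (MulAction.toPerm (α := SL2Z) (β := SL2Z ⧸ Γ) γ⁻¹))
        with h | h <;> simp [h]
    show (M (γ • τ)).det ^ 2 = _
    rw [hM, Matrix.det_mul, Matrix.det_permute, Matrix.det_diagonal, hprod, mul_pow, mul_pow, hsign,
      one_mul, two_mul W, zpow_add₀ hd, hDdef]
    ring
  have hDne : ∀ τ, D τ ≠ 0 := by
    intro τ h
    have hdet : (M τ).det = 0 := by simpa [D] using h
    obtain ⟨v, hv0, hv⟩ := Matrix.exists_mulVec_eq_zero_iff.mpr hdet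
    refine hv0 (funext fun y => ?_)
    have hli := Fintype.linearIndependent_iff.mp ((evalVec_indep hneg τ).comp e e.injective) v (by
      funext x
      have := congrFun hv x
      simp only [Matrix.mulVec, dotProduct, M, Matrix.of_apply] at this
      simpa [mul_comm] using this)
    exact hli y
  have hinv : ∀ γ : SL2Z, D ∣[2 * W] γ = D := by
    intro γ
    funext τ
    rw [ModularForm.SL_slash_apply, hsmul, mul_comm, ← mul_assoc,
      ← zpow_add₀ (denom_ne_zero _ _), neg_add_cancel, zpow_zero, one_mul]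
  have hDd : MDiff D := by
    rw [UpperHalfPlane.mdifferentiable_iff]
    have : DifferentiableOn ℂ (fun z => (∑ σ : Equiv.Perm (SL2Z ⧸ Γ), ((Equiv.Perm.sign σ : ℤ) : ℂ) *
        ∏ x, (cosetSlash (e x).1 (gen (e x)) (σ x) ∘ ofComplex) z) ^ 2) {z | 0 < z.im} := by
      refine DifferentiableOn.pow (DifferentiableOn.fun_sum fun σ _ => DifferentiableOn.const_mul
        (DifferentiableOn.fun_finsetProd fun x _ => ?_) _) 2
      exact UpperHalfPlane.mdifferentiable_iff.mp (cosetSlash_mdiff (gen_mem (e x)) (σ x))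
    refine this.congr fun z _ => ?_
    simp only [D, comp_apply, Matrix.det_apply, M, Matrix.of_apply, evalVec, Units.smul_def,
      zsmul_eq_mul]
  set n : ℤ := 2 * W - 12 * c with hn
  set G : ℍ → ℂ := fun τ => D τ / dlt τ ^ c with hG
  have hGne : ∀ τ, G τ ≠ 0 := fun τ => div_ne_zero (hDne τ) (pow_ne_zero _ (dlt_ne_zero τ))
  have hGlim : Tendsto G atImInfty (𝓝 L₀) := hlim
  have hGmem : G ∈ forms ⊤ n := by
    have hi : ∀ γ : SL2Z, G ∣[n] γ = G := fun γ => by
      funext τ
      rw [ModularForm.SL_slash_apply, hn]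
      show D (γ • τ) / dlt (γ • τ) ^ c * _ = D τ / dlt τ ^ c
      rw [hsmul, top_apply_smul dlt_mem, mul_pow, zpow_neg, zpow_sub₀ (denom_ne_zero _ _),
        zpow_mul (denom γ (τ : ℂ)) 12 c, zpow_natCast]
      have := dlt_ne_zero τ
      have h2 : denom γ (τ : ℂ) ≠ 0 := denom_ne_zero _ _
      have h3 := zpow_ne_zero (2 * W) h2
      field_simp
    refine ⟨fun γ _ => hi γ, ?_, fun σ => by rw [hi]; exact hGlim.isBigO_one ℝ⟩
    rw [UpperHalfPlane.mdifferentiable_iff]
    exact (UpperHalfPlane.mdifferentiable_iff.mp hDd).div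
      ((UpperHalfPlane.mdifferentiable_iff.mp (dlt_mem (Γ := ⊤)).2.1).pow c)
      fun z _ => pow_ne_zero _ (dlt_ne_zero _)
  have hn0 : n = 0 := by
    rcases lt_trichotomy n 0 with h | h | h
    · exact absurd (congrFun (levelOne_neg h hGmem) UpperHalfPlane.I) (hGne _)
    · exact h
    · exfalso
      obtain ⟨j, hj⟩ : ∃ j : ℕ, n = j := ⟨n.toNat, by omega⟩
      set H : ℍ → ℂ := fun τ => dlt τ ^ j / G τ ^ 12 with hH
      have hHmem : H ∈ forms ⊤ 0 := by
        have hi : ∀ γ : SL2Z, H ∣[(0 : ℤ)] γ = H := fun γ => by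
          funext τ
          rw [ModularForm.SL_slash_apply, neg_zero, zpow_zero, mul_one]
          show dlt (γ • τ) ^ j / G (γ • τ) ^ 12 = _
          rw [top_apply_smul dlt_mem, top_apply_smul hGmem, mul_pow, mul_pow, hj, zpow_natCast,
            zpow_ofNat, ← pow_mul, ← pow_mul, mul_comm 12 j,
            mul_div_mul_left _ _ (pow_ne_zero _ (denom_ne_zero _ _))]
        have hl : Tendsto H atImInfty (𝓝 0) := by
          have := (dlt_tendsto.pow j).div (hGlim.pow 12) (pow_ne_zero _ hL₀)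
          simpa [zero_pow (show j ≠ 0 by omega), Pi.div_def, Pi.pow_def, H] using this
        refine ⟨fun γ _ => hi γ, ?_, fun σ => by rw [hi]; exact hl.isBigO_one ℝ⟩
        rw [UpperHalfPlane.mdifferentiable_iff]
        exact ((UpperHalfPlane.mdifferentiable_iff.mp (dlt_mem (Γ := ⊤)).2.1).pow j).div
          ((UpperHalfPlane.mdifferentiable_iff.mp hGmem.2.1).pow 12)
          fun z _ => pow_ne_zero _ (hGne _)
      obtain ⟨a, ha⟩ := levelOne_zero hHmem
      have hl : Tendsto H atImInfty (𝓝 0) := by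
        have := (dlt_tendsto.pow j).div (hGlim.pow 12) (pow_ne_zero _ hL₀)
        simpa [zero_pow (show j ≠ 0 by omega), Pi.div_def, Pi.pow_def, H] using this
      have ha0 : a = 0 := by
        refine tendsto_nhds_unique ?_ (ha ▸ hl)
        simpa [Pi.smul_def] using tendsto_const_nhds
      have := congrFun ha UpperHalfPlane.I
      simp [H, ha0, dlt_ne_zero, hGne] at this
  have hW2 : W = 2 * ((∑ i : Gen Γ, halfWt i : ℕ) : ℤ) := by
    rw [hWdef, Equiv.sum_comp e (fun i : Gen Γ => i.1), Nat.cast_sum, Finset.mul_sum]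
    exact Finset.sum_congr rfl fun i _ => wt_eq_two_mul hneg i
  omega

/-- The generators of weight two span the forms of weight two. -/
theorem forms_two_le (hneg : (-1 : SL2Z) ∈ Γ) :
    forms Γ 2 ≤ Submodule.span ℂ (gen '' {i : Gen Γ | halfWt i = 1}) := by
  intro f hf
  obtain ⟨r, hr, rfl⟩ := isComb_forms hf
  refine Submodule.sum_mem _ fun i _ => ?_
  show r i * gen i ∈ _
  have hwt := wt_eq_two_mul hneg i
  by_cases hi : halfWt i = 1
  · obtain ⟨a, ha⟩ := levelOne_zero (f := r i) (by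
      have h := hr i
      rwa [hwt, hi, Nat.cast_one, mul_one, sub_self] at h)
    rw [ha, smul_mul_assoc, one_mul]
    exact Submodule.smul_mem _ _ (Submodule.subset_span ⟨i, hi, rfl⟩)
  · have h0 : r i = 0 := by
      rcases Nat.eq_zero_or_pos (halfWt i) with h | h
      · refine levelOne_two ?_
        have h' := hr i
        rwa [hwt, h, Nat.cast_zero, mul_zero, sub_zero] at h'
      · refine levelOne_neg ?_ (hr i)
        omega
    simp [h0]

theorem gen_linearIndependent_two [Fintype (Gen Γ)] (hneg : (-1 : SL2Z) ∈ Γ) :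
    LinearIndependent ℂ fun i : ↥(Finset.univ.filter fun i : Gen Γ => halfWt i = 1) =>
      gen (i : Gen Γ) := by
  classical
  set F := Finset.univ.filter fun i : Gen Γ => halfWt i = 1
  rw [Fintype.linearIndependent_iff]
  intro c hc i
  set d : Gen Γ → ℂ := fun l => if h : l ∈ F then c ⟨l, h⟩ else 0 with hd
  set r : Gen Γ →₀ (ℍ → ℂ) := Finsupp.indicator F (fun l _ => d l • (1 : ℍ → ℂ)) with hr
  have h := gen_independent r (K := 2) (fun l => ?_) ?_
  · have h1 := congrFun (DFunLike.congr_fun h (i : Gen Γ)) UpperHalfPlane.I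
    simpa [hr, hd, Finsupp.indicator_of_mem i.2] using h1
  · by_cases hl : l ∈ F
    · rw [hr, Finsupp.indicator_of_mem hl, wt_eq_two_mul hneg l, (Finset.mem_filter.mp hl).2,
        Nat.cast_one, mul_one, sub_self]
      exact Submodule.smul_mem _ _ forms_one
    · rw [hr, Finsupp.indicator_of_notMem hl]; exact zero_mem _
  · rw [hr, Finsupp.sum_indicator_index (fun l => d l • (1 : ℍ → ℂ)) (fun l _ => zero_mul (gen l)),
      ← Finset.sum_coe_sort, ← hc]
    refine Finset.sum_congr rfl fun l _ => ?_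
    simp [hd]

theorem finrank_forms_two [Fintype (Gen Γ)] (hneg : (-1 : SL2Z) ∈ Γ) :
    FiniteDimensional ℂ (forms Γ 2) ∧ Module.finrank ℂ (forms Γ 2) =
      (Finset.univ.filter fun i : Gen Γ => halfWt i = 1).card := by
  classical
  set F := Finset.univ.filter fun i : Gen Γ => halfWt i = 1
  have hrange : Set.range (fun i : F => gen (i : Gen Γ)) = gen '' {i : Gen Γ | halfWt i = 1} := by
    ext g
    simp [F]
  have heq : forms Γ 2 = Submodule.span ℂ (Set.range fun i : F => gen (i : Gen Γ)) := by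
    rw [hrange]
    refine le_antisymm (forms_two_le hneg) (Submodule.span_le.mpr ?_)
    rintro _ ⟨i, hi, rfl⟩
    rw [SetLike.mem_coe]
    have h := gen_mem i
    rwa [wt_eq_two_mul hneg i, show halfWt i = 1 from hi, Nat.cast_one, mul_one] at h
  refine ⟨?_, ?_⟩
  · rw [heq]; exact FiniteDimensional.span_of_finite ℂ (Set.finite_range _)
  · rw [heq, finrank_span_eq_card (gen_linearIndependent_two hneg), Fintype.card_coe]

theorem card_weight_two_ge [Fintype (Gen Γ)] (hneg : (-1 : SL2Z) ∈ Γ) (hspan : ValuesSpan Γ) :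
    Nat.card (SL2Z ⧸ Γ) + Module.finrank ℂ (fixedFun Γ ModularGroup.T) ≤
      2 * (Finset.univ.filter fun i : Gen Γ => halfWt i = 1).card +
        Module.finrank ℂ (fixedFun Γ ModularGroup.S) +
        Module.finrank ℂ (fixedFun Γ (ModularGroup.S * ModularGroup.T)) := by
  obtain ⟨h2, h3, h12⟩ := class_counts hneg hspan
  have hsum := sum_halfWt hneg hspan
  have hcard := card_gen hneg hspan
  rw [Nat.card_eq_fintype_card] at hcard
  have hpt : ∑ i : Gen Γ, (6 + (if halfWt i % 3 = 1 then 1 else 0)) ≤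
      ∑ i : Gen Γ, (6 * (if halfWt i = 1 then 1 else 0) + 3 * (if halfWt i % 2 = 0 then 1 else 0) +
        3 * (if halfWt i % 3 = 0 then 1 else 0) + halfWt i + (if halfWt i % 3 = 2 then 1 else 0)) := by
    refine Finset.sum_le_sum fun i _ => ?_
    split_ifs <;> omega
  simp only [Finset.sum_add_distrib, ← Finset.mul_sum, Finset.sum_boole, Finset.sum_const,
    Finset.card_univ, smul_eq_mul, Nat.cast_id] at hpt
  omega

/-- Value of a translate at infinity. -/
def cuspVal (k : ℤ) (f : ℍ → ℂ) (x : SL2Z ⧸ Γ) : ℂ :=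
  UpperHalfPlane.cuspFunction (globalPeriod Γ : ℝ) (cosetSlash k f x) 0

theorem tendsto_cuspVal {k : ℤ} {f : ℍ → ℂ} (hf : f ∈ forms Γ k) (x : SL2Z ⧸ Γ) :
    Tendsto (cosetSlash k f x) atImInfty (𝓝 (cuspVal k f x)) :=
  tendsto_of_periodic (by exact_mod_cast globalPeriod_pos)
    (by rw [cosetSlash]; exact periodic_slash hf _) (cosetSlash_mdiff hf x) (cosetSlash_bdd hf x)

theorem cuspVal_T {k : ℤ} {f : ℍ → ℂ} (hf : f ∈ forms Γ k) (x : SL2Z ⧸ Γ) :
    cuspVal k f (ModularGroup.T • x) = cuspVal k f x := by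
  have hshift : Tendsto (fun w : ℍ => ModularGroup.T • w) atImInfty atImInfty :=
    tendsto_smul_atImInfty (by
      show algebraMap ℤ ℝ ((ModularGroup.T : SL2Z) 1 0) = 0
      simp [ModularGroup.coe_T])
  refine tendsto_nhds_unique ((tendsto_cuspVal hf _).comp hshift) ((tendsto_cuspVal hf x).congr ?_)
  intro w
  have h := congrFun (cosetSlash_slash hf (ModularGroup.T • x) ModularGroup.T) w
  rw [inv_smul_smul, ModularForm.SL_slash_apply, show denom (ModularGroup.T : GL (Fin 2) ℝ) (w : ℂ) = 1 by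
    rw [ModularGroup.denom_apply]; simp [ModularGroup.coe_T], one_zpow, mul_one] at h
  exact h.symm

omit [Γ.FiniteIndex] in
theorem sum_cosetSlash_two [Fintype (SL2Z ⧸ Γ)] {f : ℍ → ℂ} (hf : f ∈ forms Γ 2) :
    ∑ x : SL2Z ⧸ Γ, cosetSlash 2 f x = 0 := by
  refine levelOne_two ⟨fun γ _ => ?_, ?_, fun σ => ?_⟩
  · rw [SlashAction.sum_slash]
    simp only [cosetSlash_slash hf]
    exact Equiv.sum_comp (MulAction.toPerm γ⁻¹) (cosetSlash 2 f)
  · exact Finset.sum_induction (cosetSlash 2 f) (fun (g : ℍ → ℂ) => MDiff g)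
      (fun _ _ h h' => h.add h') mdifferentiable_const fun x _ => cosetSlash_mdiff hf x
  · rw [SlashAction.sum_slash]
    refine Finset.sum_induction _ (fun g => IsBoundedAtImInfty g) (fun _ _ h h' => h.add h')
      (const_boundedAtFilter atImInfty (0 : ℂ)) fun x _ => ?_
    rw [cosetSlash_slash hf]
    exact cosetSlash_bdd hf _

theorem finrank_cuspForm_ge (hneg : (-1 : SL2Z) ∈ Γ) (hspan : ValuesSpan Γ) :
    FiniteDimensional ℂ (CuspForm Γ 2) ∧
    Nat.card (SL2Z ⧸ Γ) + 2 ≤ 2 * Module.finrank ℂ (CuspForm Γ 2) +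
      Module.finrank ℂ (fixedFun Γ ModularGroup.S) +
      Module.finrank ℂ (fixedFun Γ (ModularGroup.S * ModularGroup.T)) +
      Module.finrank ℂ (fixedFun Γ ModularGroup.T) := by
  have : Fintype (SL2Z ⧸ Γ) := Fintype.ofFinite _
  have := finite_gen hneg
  have : Fintype (Gen Γ) := Fintype.ofFinite _
  obtain ⟨hfin, hdim⟩ := finrank_forms_two (Γ := Γ) hneg
  have hge := card_weight_two_ge hneg hspan
  have hsmul : ∀ (c : ℂ) (f : forms Γ 2) (x : SL2Z ⧸ Γ),
      cuspVal 2 (c • f.1) x = c * cuspVal 2 f.1 x := fun c f x =>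
    tendsto_nhds_unique (tendsto_cuspVal (Submodule.smul_mem _ c f.2) x)
      (by rw [cosetSlash_smul]; exact (tendsto_cuspVal f.2 x).const_mul c)
  have hadd : ∀ (f g : forms Γ 2) (x : SL2Z ⧸ Γ),
      cuspVal 2 (f.1 + g.1) x = cuspVal 2 f.1 x + cuspVal 2 g.1 x := fun f g x =>
    tendsto_nhds_unique (tendsto_cuspVal (add_mem f.2 g.2) x)
      (by rw [cosetSlash_add]; exact (tendsto_cuspVal f.2 x).add (tendsto_cuspVal g.2 x))
  let Λ : forms Γ 2 →ₗ[ℂ] fixedFun Γ ModularGroup.T :=
    { toFun := fun f => ⟨fun x => cuspVal 2 f.1 x, (mem_fixedFun Γ).mpr (cuspVal_T f.2)⟩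
      map_add' := fun f g => Subtype.ext (funext fun x => hadd f g x)
      map_smul' := fun c f => Subtype.ext (funext fun x => hsmul c f x) }
  let one : fixedFun Γ ModularGroup.T := ⟨fun _ => 1, (mem_fixedFun Γ).mpr fun _ => rfl⟩
  let S : fixedFun Γ ModularGroup.T →ₗ[ℂ] ℂ :=
    { toFun := fun v => ∑ x, v.1 x
      map_add' := fun u v => by simp [Finset.sum_add_distrib]
      map_smul' := fun c v => by simp [Finset.mul_sum] }
  have hrange : LinearMap.range Λ ≤ LinearMap.ker S := by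
    rintro _ ⟨f, rfl⟩
    rw [LinearMap.mem_ker]
    show ∑ x, cuspVal 2 f.1 x = 0
    have h := tendsto_finsetSum Finset.univ fun x (_ : x ∈ (Finset.univ : Finset (SL2Z ⧸ Γ))) =>
      tendsto_cuspVal f.2 x
    refine tendsto_nhds_unique (h.congr fun τ => ?_) tendsto_const_nhds
    rw [← Finset.sum_apply, sum_cosetSlash_two f.2]
    rfl
  have hS : LinearMap.range S = ⊤ := by
    refine LinearMap.range_eq_top.mpr (LinearMap.surjective ?_)
    intro h0
    have := LinearMap.congr_fun h0 one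
    simp [S, one] at this
  have h1 := Λ.finrank_range_add_finrank_ker
  have h2 := S.finrank_range_add_finrank_ker
  rw [hS, finrank_top, Module.finrank_self] at h2
  have h3 := Submodule.finrank_mono hrange
  let ι : CuspForm Γ 2 →ₗ[ℂ] forms Γ 2 :=
    { toFun := fun f => ⟨⇑f, cuspForm_mem f⟩
      map_add' := fun f g => Subtype.ext (by simp)
      map_smul' := fun c f => Subtype.ext (by simp) }
  have hιinj : Function.Injective ι := fun f g h => DFunLike.coe_injective (congrArg Subtype.val h)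
  have hker : LinearMap.ker Λ ≤ LinearMap.range ι := by
    intro f hf
    have hz : ∀ σ : SL2Z, IsZeroAtImInfty (f.1 ∣[(2 : ℤ)] σ) := fun σ => by
      have h := tendsto_cuspVal f.2 ((σ⁻¹ : SL2Z) : SL2Z ⧸ Γ)
      have h0 := congrFun (congrArg Subtype.val (LinearMap.mem_ker.mp hf))
        ((σ⁻¹ : SL2Z) : SL2Z ⧸ Γ)
      simp only [Λ, LinearMap.coe_mk, AddHom.coe_mk, ZeroMemClass.coe_zero, Pi.zero_apply] at h0
      rw [cosetSlash_mk f.2, inv_inv, h0] at h
      exact h
    refine ⟨{ toFun := f.1, slash_action_eq' := ?_, holo' := f.2.2.1, zero_at_cusps' := ?_ }, rfl⟩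
    · rintro _ ⟨γ, hγ, rfl⟩
      exact f.2.1 γ hγ
    · intro c hc
      rw [Subgroup.IsArithmetic.isCusp_iff_isCusp_SL2Z] at hc
      rw [OnePoint.isZeroAt_iff_forall_SL2Z hc]
      exact fun σ _ => hz σ
  have h4 := Submodule.finrank_mono hker
  rw [LinearMap.finrank_range_of_inj hιinj] at h4
  refine ⟨FiniteDimensional.of_injective ι hιinj, ?_⟩
  omega

end FLTAgent.ES
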