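import Mathlib
import Fermat.Agent.ES.Evaluation

/-!
Forms `f(Nτ)` on `Γ₀(N)` separate the cosets at a suitable point.
-/

set_option autoImplicit false

noncomputable section

open UpperHalfPlane Filter Topology Complex Function CongruenceSubgroup
open scoped MatrixGroups ModularForm Manifold

namespace FLTAgent.ES

local notation "SL2Z" => Matrix.SpecialLinearGroup (Fin 2) ℤ

variable (N : ℕ) [NeZero N]

/-- The matrix `diag(N,1)`. -/
def scaleMat : GL (Fin 2) ℝ :=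
  Matrix.GeneralLinearGroup.mkOfDetNeZero !![(N : ℝ), 0; 0, 1]
    (by simp [Matrix.det_fin_two_of, NeZero.ne N])

theorem scaleMat_val : (scaleMat N).val = !![(N : ℝ), 0; 0, 1] := rfl

theorem scaleMat_det_pos : 0 < (scaleMat N).det.val := by
  rw [Matrix.GeneralLinearGroup.val_det_apply, scaleMat_val]
  simpa [Matrix.det_fin_two_of] using Nat.pos_of_ne_zero (NeZero.ne N)

theorem mapGL_val (σ : SL2Z) :
    (Matrix.SpecialLinearGroup.mapGL ℝ σ).val =
      !![((σ 0 0 : ℤ) : ℝ), ((σ 0 1 : ℤ) : ℝ); ((σ 1 0 : ℤ) : ℝ), ((σ 1 1 : ℤ) : ℝ)] := by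
  ext i j
  fin_cases i <;> fin_cases j <;> rfl

theorem scale_mul (σ : SL2Z) :
    ∃ δ : SL2Z, ∃ u : GL (Fin 2) ℝ, u 1 0 = 0 ∧
      scaleMat N * Matrix.SpecialLinearGroup.mapGL ℝ σ = Matrix.SpecialLinearGroup.mapGL ℝ δ * u := by
  have hne : Int.gcd ((N : ℤ) * σ 0 0) (σ 1 0) ≠ 0 := by
    intro h
    rw [Int.gcd_eq_zero_iff] at h
    have hdet := σ.2
    rw [Matrix.det_fin_two] at hdet
    have ha : σ 0 0 = 0 := (mul_eq_zero.mp h.1).resolve_left (by exact_mod_cast NeZero.ne N)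
    rw [ha, h.2] at hdet
    simp at hdet
  obtain ⟨g, p, q, hg, hcop, hp, hq⟩ := Int.exists_gcd_one' (Nat.pos_of_ne_zero hne)
  obtain ⟨x, y, hxy⟩ := Int.isCoprime_iff_gcd_eq_one.mpr hcop
  let δ : SL2Z := ⟨!![p, -y; q, x], by rw [Matrix.det_fin_two_of]; linear_combination hxy⟩
  refine ⟨δ, Matrix.SpecialLinearGroup.mapGL ℝ δ⁻¹ * (scaleMat N * Matrix.SpecialLinearGroup.mapGL ℝ σ),
    ?_, by rw [map_inv, mul_inv_cancel_left]⟩
  rw [Units.val_mul, Units.val_mul, mapGL_val, mapGL_val, scaleMat_val,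
    Matrix.SpecialLinearGroup.coe_inv, show (δ : Matrix (Fin 2) (Fin 2) ℤ) = !![p, -y; q, x] from rfl,
    Matrix.adjugate_fin_two]
  have hp' : (N : ℝ) * (σ 0 0 : ℝ) = (p : ℝ) * (g : ℝ) := by exact_mod_cast hp
  have hq' : ((σ 1 0 : ℤ) : ℝ) = (q : ℝ) * (g : ℝ) := by exact_mod_cast hq
  simp [Matrix.mul_apply, Fin.sum_univ_two]
  linear_combination -(q : ℝ) * hp' + (p : ℝ) * hq'

theorem scale_conj {γ : SL2Z} (hγ : γ ∈ Gamma0 N) :
    ∃ γ' : SL2Z, scaleMat N * Matrix.SpecialLinearGroup.mapGL ℝ γ =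
      Matrix.SpecialLinearGroup.mapGL ℝ γ' * scaleMat N := by
  rw [Gamma0_mem, ZMod.intCast_zmod_eq_zero_iff_dvd] at hγ
  obtain ⟨c, hc⟩ := hγ
  have hdet := γ.2
  rw [Matrix.det_fin_two] at hdet
  let γ' : SL2Z := ⟨!![γ 0 0, N * γ 0 1; c, γ 1 1], by
    rw [Matrix.det_fin_two_of]; linear_combination hdet + γ 0 1 * hc⟩
  refine ⟨γ', ?_⟩
  apply Units.ext
  rw [Units.val_mul, Units.val_mul, mapGL_val γ, mapGL_val γ', scaleMat_val,
    show (γ' : Matrix (Fin 2) (Fin 2) ℤ) = !![γ 0 0, N * γ 0 1; c, γ 1 1] from rfl]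
  have hc' : ((γ 1 0 : ℤ) : ℝ) = (N : ℝ) * (c : ℝ) := by exact_mod_cast hc
  ext i j
  fin_cases i <;> fin_cases j <;> simp [Matrix.mul_apply, Fin.sum_univ_two, hc'] <;> ring

theorem levelMap_mem {k : ℤ} {f : ℍ → ℂ} (hf : f ∈ forms ⊤ k) :
    f ∣[k] scaleMat N ∈ forms (Gamma0 N) k := by
  refine ⟨fun γ hγ => ?_, MDifferentiable.slash hf.2.1 k _, fun σ => ?_⟩
  · obtain ⟨γ', hγ'⟩ := scale_conj N hγ
    show (f ∣[k] scaleMat N) ∣[k] Matrix.SpecialLinearGroup.mapGL ℝ γ = _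
    rw [← SlashAction.slash_mul, hγ', SlashAction.slash_mul]
    congr 1
    exact hf.1 γ' (Subgroup.mem_top γ')
  · obtain ⟨δ, u, hu, hδ⟩ := scale_mul N σ
    show IsBoundedAtImInfty ((f ∣[k] scaleMat N) ∣[k] Matrix.SpecialLinearGroup.mapGL ℝ σ)
    rw [← SlashAction.slash_mul, hδ, SlashAction.slash_mul]
    refine IsBoundedAtImInfty.slash k hu ?_
    rw [show f ∣[k] Matrix.SpecialLinearGroup.mapGL ℝ δ = f from hf.1 δ (Subgroup.mem_top δ)]
    exact top_bdd hf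

/-- The matrix attached to a coset. -/
def cosetMat (x : SL2Z ⧸ Gamma0 N) : GL (Fin 2) ℝ :=
  scaleMat N * Matrix.SpecialLinearGroup.mapGL ℝ (x.out)⁻¹

theorem cosetMat_det_pos (x : SL2Z ⧸ Gamma0 N) : 0 < (cosetMat N x).det.val := by
  rw [cosetMat, map_mul, Units.val_mul]
  refine mul_pos (scaleMat_det_pos N) ?_
  simp

theorem cosetSlash_levelMap {k : ℤ} (f : ℍ → ℂ) (x : SL2Z ⧸ Gamma0 N) (τ : ℍ) :
    cosetSlash k (f ∣[k] scaleMat N) x τ = f (cosetMat N x • τ) *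
      (((cosetMat N x).det.val : ℂ) ^ (k - 1) * denom (cosetMat N x) τ ^ (-k)) := by
  rw [cosetSlash, ModularForm.SL_slash, ← SlashAction.slash_mul]
  show (f ∣[k] cosetMat N x) τ = _
  rw [ModularForm.slash_apply, abs_of_pos (cosetMat_det_pos N x), σ, if_pos (cosetMat_det_pos N x)]
  simp [mul_assoc]

theorem fixed_two_scalar {g : GL (Fin 2) ℝ} (hg : 0 < g.det.val) {a b : ℍ} (hab : a ≠ b)
    (ha : g • a = a) (hb : g • b = b) : g 0 1 = 0 ∧ g 1 0 = 0 ∧ g 0 0 = g 1 1 := by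
  have heq : ∀ τ : ℍ, g • τ = τ →
      ((g 1 0 : ℝ) : ℂ) * (τ : ℂ) ^ 2 + ((g 1 1 : ℝ) - (g 0 0 : ℝ) : ℂ) * τ - (g 0 1 : ℝ) = 0 := by
    intro τ h
    have h' : ((g • τ : ℍ) : ℂ) = (τ : ℂ) := by rw [h]
    rw [coe_smul_of_det_pos hg, div_eq_iff (denom_ne_zero g τ)] at h'
    simp only [num, denom] at h'
    linear_combination -h'
  have h1 := heq a ha
  have h2 := heq b hb
  have hsub : ((a : ℂ) - b) * (((g 1 0 : ℝ) : ℂ) * (a + b) + ((g 1 1 : ℝ) - (g 0 0 : ℝ) : ℂ)) = 0 := by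
    linear_combination h1 - h2
  have hne : (a : ℂ) - b ≠ 0 := sub_ne_zero.mpr fun h => hab (UpperHalfPlane.ext h)
  have hlin := (mul_eq_zero.mp hsub).resolve_left hne
  have him := congrArg Complex.im hlin
  simp only [Complex.add_im, Complex.mul_im, Complex.ofReal_re, Complex.ofReal_im, Complex.sub_im,
    zero_mul, add_zero, sub_zero, Complex.zero_im, UpperHalfPlane.coe_im] at him
  have hc : g 1 0 = 0 :=
    (mul_eq_zero.mp him).resolve_right (add_pos a.im_pos b.im_pos).ne'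
  rw [hc] at hlin h1
  simp only [Complex.ofReal_zero, zero_mul, zero_add, sub_eq_zero, Complex.ofReal_inj] at hlin
  rw [hlin] at h1
  simp at h1
  exact ⟨h1, hc, hlin.symm⟩

theorem sameOrbit_subsingleton {x y : SL2Z ⧸ Gamma0 N} (hxy : x ≠ y) (γ : SL2Z) :
    {τ : ℍ | γ • cosetMat N x • τ = cosetMat N y • τ}.Subsingleton := by
  intro a ha b hb
  by_contra hab
  set h : GL (Fin 2) ℝ :=
    (cosetMat N y)⁻¹ * (Matrix.SpecialLinearGroup.mapGL ℝ γ * cosetMat N x) with hh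
  have hfix : ∀ τ : ℍ, γ • cosetMat N x • τ = cosetMat N y • τ → h • τ = τ := fun τ hτ => by
    rw [hh, mul_smul, mul_smul, inv_smul_eq_iff]
    exact hτ
  have hdet : 0 < h.det.val := by
    rw [hh, map_mul, map_mul, map_inv, Units.val_mul, Units.val_mul, Units.val_inv_eq_inv_val]
    refine mul_pos (inv_pos.mpr (cosetMat_det_pos N y)) (mul_pos ?_ (cosetMat_det_pos N x))
    simp
  obtain ⟨h01, h10, h00⟩ := fixed_two_scalar hdet hab (hfix a ha) (hfix b hb)
  set M : SL2Z := (y.out)⁻¹ * x.out with hM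
  have key : Matrix.SpecialLinearGroup.mapGL ℝ γ * scaleMat N =
      scaleMat N * Matrix.SpecialLinearGroup.mapGL ℝ (y.out)⁻¹ * h *
        Matrix.SpecialLinearGroup.mapGL ℝ x.out := by
    simp only [hh, cosetMat, map_inv]
    group
  have hscal : h.val = h 0 0 • (1 : Matrix (Fin 2) (Fin 2) ℝ) := by
    ext i j
    fin_cases i <;> fin_cases j <;> simp [h01, h10, h00]
  have key' : (Matrix.SpecialLinearGroup.mapGL ℝ γ).val * (scaleMat N).val =
      h 0 0 • ((scaleMat N).val * (Matrix.SpecialLinearGroup.mapGL ℝ M).val) := by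
    rw [← Units.val_mul, key, Units.val_mul, Units.val_mul, hscal, hM, map_mul, Units.val_mul]
    simp [Matrix.mul_assoc]
  set t := h 0 0
  have hdd := congrArg Matrix.det key'
  rw [Matrix.det_smul, Matrix.det_mul, Matrix.det_mul, scaleMat_val, mapGL_val, mapGL_val] at hdd
  have dγ : ((γ 0 0 : ℤ) : ℝ) * γ 1 1 - (γ 0 1 : ℤ) * (γ 1 0 : ℤ) = 1 := by
    have := γ.2
    rw [Matrix.det_fin_two] at this
    exact_mod_cast this
  have dM : ((M 0 0 : ℤ) : ℝ) * M 1 1 - (M 0 1 : ℤ) * (M 1 0 : ℤ) = 1 := by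
    have := M.2
    rw [Matrix.det_fin_two] at this
    exact_mod_cast this
  simp only [Matrix.det_fin_two_of, Fintype.card_fin, dγ, dM, mul_one, one_mul, mul_zero, sub_zero]
    at hdd
  have hN : (N : ℝ) ≠ 0 := by exact_mod_cast NeZero.ne N
  have ht : t = 1 ∨ t = -1 := by
    have : t ^ 2 * N = 1 * N := by linear_combination -hdd
    exact sq_eq_one_iff.mp (mul_right_cancel₀ hN this)
  have h10' := congrFun (congrFun key' 1) 0
  rw [scaleMat_val, mapGL_val, mapGL_val] at h10'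
  simp [Matrix.mul_apply, Fin.sum_univ_two] at h10'
  have hmem : M ∈ Gamma0 N := by
    rw [Gamma0_mem, ZMod.intCast_zmod_eq_zero_iff_dvd]
    rcases ht with ht | ht <;> rw [ht] at h10'
    · refine ⟨γ 1 0, ?_⟩
      rw [one_mul] at h10'
      have : ((M 1 0 : ℤ) : ℝ) = ((N : ℤ) * γ 1 0 : ℤ) := by push_cast; linear_combination -h10'
      exact_mod_cast this
    · refine ⟨-(γ 1 0), ?_⟩
      have : ((M 1 0 : ℤ) : ℝ) = ((N : ℤ) * -(γ 1 0) : ℤ) := by push_cast; linear_combination h10'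
      exact_mod_cast this
  refine hxy ?_
  rw [← QuotientGroup.out_eq' x, ← QuotientGroup.out_eq' y]
  exact (QuotientGroup.eq.mpr hmem).symm

theorem countable_SL2Z : Countable SL2Z := by
  have : Countable (Matrix (Fin 2) (Fin 2) ℤ) := inferInstanceAs (Countable (Fin 2 → Fin 2 → ℤ))
  exact Subtype.countable

theorem exists_separating_point :
    ∃ τ : ℍ, Function.Injective fun x : SL2Z ⧸ Gamma0 N => jfun (cosetMat N x • τ) := by
  have := countable_SL2Z
  set bad : Set ℍ := ⋃ (p : (SL2Z ⧸ Gamma0 N) × (SL2Z ⧸ Gamma0 N)) (_ : p.1 ≠ p.2) (γ : SL2Z),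
    {τ | γ • cosetMat N p.1 • τ = cosetMat N p.2 • τ}
  have hbad : bad.Countable :=
    Set.countable_iUnion fun p => Set.countable_iUnion fun hp => Set.countable_iUnion fun γ =>
      (sameOrbit_subsingleton N hp γ).finite.countable
  obtain ⟨z, hz, hzb⟩ := (Set.Countable.dense_compl ℝ (hbad.image UpperHalfPlane.coe)).inter_open_nonempty
    {z : ℂ | 0 < z.im} isOpen_upperHalfPlaneSet ⟨Complex.I, by simp⟩
  refine ⟨⟨z, hz⟩, fun x y h => ?_⟩
  by_contra hxy
  obtain ⟨γ, hγ⟩ := sameOrbit_of_jfun_eq h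
  exact hzb ⟨⟨z, hz⟩, Set.mem_iUnion.mpr ⟨(x, y), Set.mem_iUnion.mpr ⟨hxy, Set.mem_iUnion.mpr ⟨γ, hγ⟩⟩⟩, rfl⟩

theorem exists_span_eq_top :
    ∃ τ : ℍ, Submodule.span ℂ (Set.range (evalVec (Γ := Gamma0 N) τ)) = ⊤ := by
  classical
  have : Fintype (SL2Z ⧸ Gamma0 N) := Fintype.ofFinite _
  obtain ⟨τ, hτ⟩ := exists_separating_point N
  refine ⟨τ, ?_⟩
  set S := Submodule.span ℂ (Set.range (evalVec (Γ := Gamma0 N) τ))
  set n := Fintype.card (SL2Z ⧸ Gamma0 N)
  set A := (e4 ^ 3) ∣[(12 : ℤ)] scaleMat N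
  set B := dlt ∣[(12 : ℤ)] scaleMat N
  have hA : A ∈ forms (Gamma0 N) 12 := levelMap_mem N (forms_pow e4_mem 3)
  have hB : B ∈ forms (Gamma0 N) 12 := levelMap_mem N dlt_mem
  set D : SL2Z ⧸ Gamma0 N → ℂ := fun x => cosetSlash 12 B x τ with hD
  have hDne : ∀ x, D x ≠ 0 := fun x => by
    simp only [hD, B, cosetSlash_levelMap]
    refine mul_ne_zero (dlt_ne_zero _) (mul_ne_zero (zpow_ne_zero _ ?_) (zpow_ne_zero _ (denom_ne_zero _ _)))
    exact_mod_cast (cosetMat_det_pos N x).ne'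
  set e := Fintype.equivFin (SL2Z ⧸ Gamma0 N)
  set v : Fin n → SL2Z ⧸ Gamma0 N → ℂ := fun m x => jfun (cosetMat N x • τ) ^ (m : ℕ) * D x ^ (n - 1)
    with hv
  have hmem : ∀ m, v m ∈ S := by
    intro m
    set F := A ^ (m : ℕ) * B ^ (n - 1 - m : ℕ) with hFdef
    have hF : F ∈ forms (Gamma0 N) ((n - 1 : ℕ) * 12) :=
      forms_mul_of_eq (forms_pow hA _) (forms_pow hB _) (by omega)
    obtain ⟨r, hr, hFr⟩ := isComb_forms hF
    have hval : v m = fun x => cosetSlash ((n - 1 : ℕ) * 12) F x τ := by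
      funext x
      have hpow : ∀ (f : ℍ → ℂ) (j : ℕ) (σ : SL2Z),
          (f ^ j) ∣[(j : ℤ) * 12] σ = (f ∣[(12 : ℤ)] σ) ^ j := by
        intro f j σ
        induction j with
        | zero => simpa using ModularForm.is_invariant_one σ
        | succ j ih => rw [pow_succ, pow_succ, ← ih, Nat.cast_succ, add_mul, one_mul,
            ModularForm.mul_slash_SL2]
      have hm : ((n - 1 : ℕ) : ℤ) * 12 = ((m : ℕ) : ℤ) * 12 + ((n - 1 - m : ℕ) : ℤ) * 12 := by
        have := m.2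
        omega
      rw [cosetSlash, hm, hFdef, ModularForm.mul_slash_SL2, hpow, hpow, Pi.mul_apply, Pi.pow_apply,
        Pi.pow_apply]
      show _ = cosetSlash 12 A x τ ^ (m : ℕ) * cosetSlash 12 B x τ ^ (n - 1 - m : ℕ)
      have hAx : cosetSlash 12 A x τ = jfun (cosetMat N x • τ) * D x := by
        simp only [hD, A, B, cosetSlash_levelMap, jfun, Pi.pow_apply]
        rw [← mul_assoc (_ / _), div_mul_cancel₀ _ (dlt_ne_zero _)]
      rw [hAx]
      show jfun (cosetMat N x • τ) ^ (m : ℕ) * D x ^ (n - 1) = (jfun (cosetMat N x • τ) * D x) ^ (m : ℕ) * D x ^ (n - 1 - m : ℕ)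
      rw [mul_pow, mul_assoc, ← pow_add]
      congr 2
      have := m.2
      omega
    have hcomb : v m = ∑ i ∈ r.support, r i τ • evalVec τ i := by
      rw [hval]
      funext x
      rw [hFr, Finsupp.sum, cosetSlash_sum_gen r.support (fun i => r i) hr, Finset.sum_apply]
      rfl
    rw [hcomb]
    exact Submodule.sum_mem _ fun i _ => Submodule.smul_mem _ _ (Submodule.subset_span ⟨i, rfl⟩)
  have hind : LinearIndependent ℂ v := by
    rw [Fintype.linearIndependent_iff]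
    intro c hc
    refine congrFun (Matrix.eq_zero_of_forall_index_sum_mul_pow_eq_zero
      (f := fun j : Fin n => jfun (cosetMat N (e.symm j) • τ)) (hτ.comp e.symm.injective) fun j => ?_)
    have h := congrFun hc (e.symm j)
    simp only [Finset.sum_apply, Pi.smul_apply, smul_eq_mul, hv, Pi.zero_apply, ← mul_assoc,
      ← Finset.sum_mul] at h
    exact (mul_eq_zero.mp h).resolve_right (pow_ne_zero _ (hDne _))
  apply Submodule.eq_top_of_finrank_eq
  refine le_antisymm (Submodule.finrank_le _) ?_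
  have h1 : Submodule.span ℂ (Set.range v) ≤ S := Submodule.span_le.mpr (Set.range_subset_iff.mpr hmem)
  refine le_trans ?_ (Submodule.finrank_mono h1)
  rw [finrank_span_eq_card hind, Fintype.card_fin, Module.finrank_pi]

end FLTAgent.ES
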