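import Mathlib
import Fermat.Agent.ES.CosetPairs

/-!
Dimensions of fixed spaces on the coset space of Γ₀(N): elliptic elements by the trace formula,
translation by counting cusps.
-/

set_option autoImplicit false

noncomputable section

open CongruenceSubgroup
open scoped MatrixGroups

namespace FLTAgent.ES

local notation "SL2Z" => Matrix.SpecialLinearGroup (Fin 2) ℤ

theorem burnside_fixed {Γ : Subgroup SL2Z} [Γ.FiniteIndex] {g : SL2Z} {n : ℕ} (hn : n ≠ 0)
    (hg : ∀ x : SL2Z ⧸ Γ, g ^ n • x = x) :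
    n * Module.finrank ℂ (fixedFun Γ g) =
      ∑ j ∈ Finset.range n, Nat.card {x : SL2Z ⧸ Γ // g ^ j • x = x} := by
  classical
  have : Fintype (SL2Z ⧸ Γ) := Fintype.ofFinite _
  set f := (n : ℂ)⁻¹ • orbitSum Γ g n with hf
  have hproj : LinearMap.IsProj (fixedFun Γ g) f := by
    refine ⟨fun v => Submodule.smul_mem _ _ ?_, fun v hv => ?_⟩
    · rw [← range_orbitSum Γ hn hg]; exact LinearMap.mem_range_self _ v
    · funext x
      have hj : ∀ (j : ℕ), v (g ^ j • x) = v x := by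
        intro j
        induction j with
        | zero => simp
        | succ j ih => rw [pow_succ', mul_smul, (mem_fixedFun Γ).mp hv, ih]
      simp [hf, hj, hn]
  have htr := hproj.trace
  rw [hf, map_smul, smul_eq_mul, orbitSum, map_sum] at htr
  have hpull : ∀ j : ℕ, LinearMap.trace ℂ _ (pullBy Γ (g ^ j)) =
      (Nat.card {x : SL2Z ⧸ Γ // g ^ j • x = x} : ℂ) := by
    intro j
    rw [LinearMap.trace_eq_matrix_trace ℂ (Pi.basisFun ℂ (SL2Z ⧸ Γ)), Matrix.trace,
      Nat.card_eq_fintype_card, Fintype.card_subtype, Finset.card_filter]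
    push_cast
    refine Finset.sum_congr rfl fun x _ => ?_
    simp [Pi.single_apply]
  simp only [hpull] at htr
  rw [inv_mul_eq_iff_eq_mul₀ (Nat.cast_ne_zero.mpr hn)] at htr
  exact_mod_cast htr.symm

variable (N : ℕ) [NeZero N]

theorem finrank_fixed_S :
    2 * Module.finrank ℂ (fixedFun (Gamma0 N) ModularGroup.S) =
      Nat.card (SL2Z ⧸ Gamma0 N) + ModularCurve.nuTwo N := by
  have hneg : (-1 : SL2Z) ∈ Gamma0 N := by simp [Gamma0_mem]
  rw [burnside_fixed two_ne_zero fun x => by rw [S_sq_eq, neg_one_smul_coset hneg]]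
  rw [Finset.sum_range_succ, Finset.sum_range_succ, Finset.sum_range_zero, zero_add, pow_one,
    card_fixed_S, pow_zero]
  simp

theorem finrank_fixed_ST :
    3 * Module.finrank ℂ (fixedFun (Gamma0 N) (ModularGroup.S * ModularGroup.T)) =
      Nat.card (SL2Z ⧸ Gamma0 N) + 2 * ModularCurve.nuThree N := by
  have hneg : (-1 : SL2Z) ∈ Gamma0 N := by simp [Gamma0_mem]
  set R := ModularGroup.S * ModularGroup.T
  have h3 : ∀ x : SL2Z ⧸ Gamma0 N, R ^ 3 • x = x := fun x => by
    rw [ST_cube_eq, neg_one_smul_coset hneg]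
  have h2 : ∀ x : SL2Z ⧸ Gamma0 N, R ^ 2 • x = x ↔ R • x = x := by
    intro x
    constructor
    · intro h
      have := h3 x
      rwa [pow_succ', mul_smul, h] at this
    · intro h
      rw [sq, mul_smul, h, h]
  rw [burnside_fixed three_ne_zero h3]
  simp only [Finset.sum_range_succ, Finset.sum_range_zero, zero_add, pow_one, pow_zero]
  rw [Nat.card_congr (Equiv.subtypeEquivRight h2), card_fixed_ST]
  simp
  ring

/-- The index set of cusps. -/
abbrev CuspIndex : Type := Σ d : {d : ℕ // d ∈ N.divisors}, (ZMod (Nat.gcd d.1 (N / d.1)))ˣ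

theorem card_cuspIndex : Nat.card (CuspIndex N) = ModularCurve.cuspCount N := by
  have hne : ∀ d : {d : ℕ // d ∈ N.divisors}, NeZero (Nat.gcd d.1 (N / d.1)) := fun d =>
    ⟨(Nat.gcd_pos_of_pos_left _ (Nat.pos_of_mem_divisors d.2)).ne'⟩
  rw [Nat.card_sigma, ModularCurve.cuspCount, ← Finset.sum_coe_sort N.divisors]
  refine Finset.sum_congr rfl fun d _ => ?_
  have := hne d
  rw [Nat.card_eq_fintype_card, ZMod.card_units_eq_totient]

/-- The gcd of the second coordinate with the level. -/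
def levelGcd (c : ZMod N) : ℕ := Nat.gcd c.val N

theorem levelGcd_unit_mul (u : (ZMod N)ˣ) (c : ZMod N) :
    levelGcd N ((u : ZMod N) * c) = levelGcd N c := by
  rw [levelGcd, levelGcd, ZMod.val_mul, ← Nat.gcd_rec, Nat.gcd_comm N,
    Nat.Coprime.gcd_mul_left_cancel]
  exact (ZMod.val_coe_unit_coprime u)

theorem levelGcd_natCast {d : ℕ} (hd : d ∣ N) : levelGcd N (d : ZMod N) = d := by
  rw [levelGcd, ZMod.val_natCast, ← Nat.gcd_rec, Nat.gcd_eq_right hd]

/-- `d` can be reached from any residue with the same gcd by a unit. -/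
theorem exists_unit_mul_eq (c : ZMod N) :
    ∃ u : (ZMod N)ˣ, (u : ZMod N) * c = (levelGcd N c : ZMod N) := by
  set d := levelGcd N c with hd
  have hdpos : 0 < d := Nat.gcd_pos_of_pos_right _ (Nat.pos_of_ne_zero (NeZero.ne N))
  obtain ⟨c₀, hc₀⟩ : d ∣ c.val := Nat.gcd_dvd_left _ _
  obtain ⟨m, hm⟩ : d ∣ N := Nat.gcd_dvd_right _ _
  have hm0 : m ≠ 0 := fun h => NeZero.ne N (by rw [hm, h, mul_zero])
  have hcop : Nat.Coprime c₀ m := by
    have h : d = Nat.gcd (d * c₀) (d * m) := by rw [← hm, ← hc₀]; rfl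
    rw [Nat.gcd_mul_left] at h
    exact (Nat.eq_of_mul_eq_mul_left hdpos (by rw [mul_one]; exact h.symm) : Nat.gcd c₀ m = 1)
  have : NeZero m := ⟨hm0⟩
  obtain ⟨u, hu⟩ := ZMod.unitsMap_surjective (m := N) (Dvd.intro_left d hm.symm)
    ((ZMod.unitOfCoprime c₀ hcop)⁻¹)
  refine ⟨u, ?_⟩
  have hu' : (((u : ZMod N).val * c₀ : ℕ) : ZMod m) = ((1 : ℕ) : ZMod m) := by
    have h := congrArg (fun v : (ZMod m)ˣ => ((v * ZMod.unitOfCoprime c₀ hcop : (ZMod m)ˣ) : ZMod m)) hu
    simp only [inv_mul_cancel, Units.val_one, Units.val_mul, ZMod.coe_unitOfCoprime] at h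
    rw [ZMod.unitsMap_def, Units.coe_map] at h
    rw [Nat.cast_mul, Nat.cast_one, ← h, ZMod.natCast_val]
    rfl
  rw [ZMod.natCast_eq_natCast_iff] at hu'
  have h2 : ((u : ZMod N).val * c₀ * d) ≡ 1 * d [MOD m * d] := hu'.mul_right' d
  rw [one_mul, mul_comm m d, ← hm, ← ZMod.natCast_eq_natCast_iff] at h2
  rw [← h2, mul_assoc, mul_comm c₀ d, ← hc₀, Nat.cast_mul, ZMod.natCast_zmod_val,
    ZMod.natCast_zmod_val]

/-- The gcd of a cusp index divides the level. -/
theorem gcd_dvd_level (i : CuspIndex N) : Nat.gcd i.1.1 (N / i.1.1) ∣ N :=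
  (Nat.gcd_dvd_left _ _).trans (Nat.dvd_of_mem_divisors i.1.2)

/-- A unit modulo `N` lifting the residue of a cusp index. -/
def cuspUnit (i : CuspIndex N) : (ZMod N)ˣ :=
  (ZMod.unitsMap_surjective (m := N) (gcd_dvd_level N i) i.2).choose

theorem cuspUnit_coprime (i : CuspIndex N) :
    IsCoprime (cuspUnit N i : ZMod N) (i.1.1 : ZMod N) :=
  ⟨(((cuspUnit N i)⁻¹ : (ZMod N)ˣ) : ZMod N), 0, by simp⟩

/-- A coset with the given first column. -/
def cuspRep (i : CuspIndex N) : SL2Z ⧸ Gamma0 N :=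
  ((exists_colPair_eq N (cuspUnit_coprime N i)).choose : SL2Z)

theorem cuspRep_spec (i : CuspIndex N) :
    ∃ (a : (ZMod N)ˣ) (v : (ZMod N)ˣ),
      colPair N (cuspRep N i).out = ((v : ZMod N) * a, (v : ZMod N) * (i.1.1 : ZMod N)) ∧
      ZMod.castHom (gcd_dvd_level N i)
        (ZMod (Nat.gcd i.1.1 (N / i.1.1))) (a : ZMod N) = (i.2 : ZMod (Nat.gcd i.1.1 (N / i.1.1))) := by
  obtain ⟨v, hv⟩ := (coset_eq_iff N (exists_colPair_eq N (cuspUnit_coprime N i)).choose
    (cuspRep N i).out).mp (QuotientGroup.out_eq' (cuspRep N i)).symm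
  refine ⟨cuspUnit N i, v, ?_, ?_⟩
  · rw [hv, (exists_colPair_eq N (cuspUnit_coprime N i)).choose_spec]
  · exact congrArg Units.val (ZMod.unitsMap_surjective (m := N) (gcd_dvd_level N i) i.2).choose_spec

theorem colPair_T_pow (t : ℤ) (σ : SL2Z) :
    colPair N (ModularGroup.T ^ t * σ) =
      ((colPair N σ).1 + (t : ZMod N) * (colPair N σ).2, (colPair N σ).2) := by
  rw [colPair_mul, ModularGroup.coe_T_zpow]
  simp

theorem exists_zpow_cuspRep (x : SL2Z ⧸ Gamma0 N) :
    ∃ (i : CuspIndex N) (t : ℤ), ModularGroup.T ^ t • cuspRep N i = x := by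
  set a := (colPair N x.out).1 with ha_def
  set c := (colPair N x.out).2 with hc_def
  obtain ⟨u₁, hu₁⟩ := exists_unit_mul_eq N c
  set d := levelGcd N c with hd
  have hdN : d ∣ N := Nat.gcd_dvd_right _ _
  set g := Nat.gcd d (N / d)
  have hgN : g ∣ N := (Nat.gcd_dvd_left _ _).trans hdN
  have hcop : IsCoprime ((u₁ : ZMod N) * a) (d : ZMod N) := by
    rw [← hu₁]
    exact (isCoprime_mul_unit_left u₁.isUnit _ _).mpr (colPair_coprime N _)
  set b := (u₁ : ZMod N) * a
  have hbd : IsUnit (ZMod.castHom hdN (ZMod d) b) := by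
    obtain ⟨p, q, hpq⟩ := hcop
    have h := congrArg (ZMod.castHom hdN (ZMod d)) hpq
    rw [map_add, map_mul _ q, map_one, map_natCast, ZMod.natCast_self, mul_zero, add_zero,
      map_mul _ p] at h
    exact IsUnit.of_mul_eq_one _ (by rw [mul_comm]; exact h)
  have hbg : IsUnit (ZMod.castHom hgN (ZMod g) b) := by
    have := hbd.map (ZMod.castHom (Nat.gcd_dvd_left d (N / d)) (ZMod g))
    rwa [← RingHom.comp_apply, ZMod.castHom_comp] at this
  let i : CuspIndex N := ⟨⟨d, Nat.mem_divisors.mpr ⟨hdN, NeZero.ne N⟩⟩, hbg.unit⟩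
  obtain ⟨a', v, hcol, ha'⟩ := cuspRep_spec N i
  have hcol' : colPair N (cuspRep N i).out = ((v : ZMod N) * a', (v : ZMod N) * (d : ZMod N)) := hcol
  have ha'' : ZMod.castHom hgN (ZMod g) (a' : ZMod N) = ZMod.castHom hgN (ZMod g) b := by
    have : ZMod.castHom hgN (ZMod g) (a' : ZMod N) = (hbg.unit : ZMod g) := ha'
    rwa [IsUnit.unit_spec] at this
  -- a unit congruent to `1` mod `N / d` carrying `a'` to `b` modulo `d`
  have hdpos : 0 < d := Nat.gcd_pos_of_pos_right _ (Nat.pos_of_ne_zero (NeZero.ne N))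
  have : NeZero d := ⟨hdpos.ne'⟩
  have ha'd : IsUnit (ZMod.castHom hdN (ZMod d) (a' : ZMod N)) := a'.isUnit.map _
  set w : (ZMod d)ˣ := hbd.unit * ha'd.unit⁻¹
  have hwg : ((w : ZMod d).val) ≡ 1 [MOD Nat.gcd d (N / d)] := by
    rw [← ZMod.natCast_eq_natCast_iff, Nat.cast_one]
    have hw : (w : ZMod d) * ZMod.castHom hdN (ZMod d) (a' : ZMod N) = ZMod.castHom hdN (ZMod d) b := by
      simp [w, mul_assoc]
    have h := congrArg (ZMod.castHom (Nat.gcd_dvd_left d (N / d)) (ZMod g)) hw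
    rw [map_mul, ← RingHom.comp_apply, ← RingHom.comp_apply, ZMod.castHom_comp, ← ha''] at h
    have ha'g : IsUnit (ZMod.castHom hgN (ZMod g) (a' : ZMod N)) := a'.isUnit.map _
    have h1 : ZMod.castHom (Nat.gcd_dvd_left d (N / d)) (ZMod g) (w : ZMod d) = 1 :=
      ha'g.mul_right_cancel (by rw [one_mul]; exact h)
    rw [← h1, ZMod.castHom_apply, ZMod.natCast_val]
  obtain ⟨k, hk1, hk2⟩ := Nat.chineseRemainder' hwg
  have hkN : Nat.Coprime k (Nat.lcm d (N / d)) := by
    refine Nat.Coprime.coprime_dvd_right (Nat.lcm_dvd_mul _ _) (Nat.Coprime.mul_right ?_ ?_)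
    · rw [Nat.Coprime, hk1.gcd_eq]; exact ZMod.val_coe_unit_coprime w
    · rw [Nat.Coprime, hk2.gcd_eq, Nat.gcd_one_left]
  have hlN : Nat.lcm d (N / d) ∣ N := Nat.lcm_dvd hdN (Nat.div_dvd_of_dvd hdN)
  have : NeZero (Nat.lcm d (N / d)) := ⟨fun h => NeZero.ne N (Nat.eq_zero_of_zero_dvd (h ▸ hlN))⟩
  obtain ⟨l, hl⟩ := ZMod.unitsMap_surjective (m := N) hlN (ZMod.unitOfCoprime k hkN)
  have hlk : ((l : ZMod N).val) ≡ k [MOD Nat.lcm d (N / d)] := by
    rw [← ZMod.natCast_eq_natCast_iff]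
    have := congrArg (fun e : (ZMod (Nat.lcm d (N / d)))ˣ => (e : ZMod (Nat.lcm d (N / d)))) hl
    simp only [ZMod.unitsMap_def, Units.coe_map, ZMod.coe_unitOfCoprime] at this
    rw [← this, ZMod.natCast_val]
    rfl
  have hld : ((l : ZMod N) * (d : ZMod N)) = (d : ZMod N) := by
    have h := ((hlk.of_dvd (Nat.dvd_lcm_right _ _)).trans hk2).mul_left' d
    rw [Nat.mul_div_cancel' hdN, mul_one, ← ZMod.natCast_eq_natCast_iff, Nat.cast_mul,
      ZMod.natCast_zmod_val, mul_comm] at h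
    exact h
  have hcastd : ZMod.castHom hdN (ZMod d) ((l : ZMod N) * a' - b) = 0 := by
    have h := (hlk.of_dvd (Nat.dvd_lcm_left _ _)).trans hk1
    rw [← ZMod.natCast_eq_natCast_iff, ZMod.natCast_zmod_val, ZMod.natCast_val] at h
    rw [map_sub, map_mul, sub_eq_zero, ZMod.castHom_apply, h]
    simp [w, mul_assoc]
  obtain ⟨s, hs⟩ : (d : ZMod N) ∣ ((l : ZMod N) * (a' : ZMod N) - b) := by
    rw [← ZMod.natCast_zmod_val ((l : ZMod N) * (a' : ZMod N) - b), map_natCast,
      ZMod.natCast_eq_zero_iff] at hcastd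
    rw [← ZMod.natCast_zmod_val ((l : ZMod N) * (a' : ZMod N) - b)]
    exact_mod_cast map_dvd (Nat.castRingHom (ZMod N)) hcastd
  obtain ⟨t, ht⟩ := ZMod.intCast_surjective (-s)
  refine ⟨i, t, ?_⟩
  rw [← QuotientGroup.out_eq' (cuspRep N i), MulAction.Quotient.smul_coe, smul_eq_mul,
    ← QuotientGroup.out_eq' x, coset_eq_iff, colPair_T_pow, hcol', ht]
  refine ⟨u₁⁻¹ * l * v⁻¹, ?_⟩
  apply Prod.ext
  · show a = _
    simp only [Units.val_mul]
    have e : (l : ZMod N) * (a' + -s * d) = b := by linear_combination hs - s * hld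
    linear_combination -((u₁⁻¹ : (ZMod N)ˣ) : ZMod N) * e - a * u₁.inv_mul
      - ((u₁⁻¹ : (ZMod N)ˣ) : ZMod N) * (l : ZMod N) * (a' + -s * d) * v.inv_mul
  · show c = _
    simp only [Units.val_mul]
    linear_combination -((u₁⁻¹ : (ZMod N)ˣ) : ZMod N) * hld + ((u₁⁻¹ : (ZMod N)ˣ) : ZMod N) * hu₁
      - c * u₁.inv_mul - ((u₁⁻¹ : (ZMod N)ˣ) : ZMod N) * (l : ZMod N) * (d : ZMod N) * v.inv_mul

theorem cuspRep_orbit_inj {i j : CuspIndex N} {t : ℤ}
    (h : ModularGroup.T ^ t • cuspRep N i = cuspRep N j) : i = j := by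
  obtain ⟨a, v, hv, ha⟩ := cuspRep_spec N i
  obtain ⟨b, w, hw, hb⟩ := cuspRep_spec N j
  rw [← QuotientGroup.out_eq' (cuspRep N i), MulAction.Quotient.smul_coe, smul_eq_mul,
    ← QuotientGroup.out_eq' (cuspRep N j), coset_eq_iff, colPair_T_pow, hv, hw] at h
  obtain ⟨u, hu⟩ := h
  simp only [Prod.mk.injEq] at hu
  obtain ⟨⟨d, hdm⟩, x⟩ := i
  obtain ⟨⟨e, hem⟩, y⟩ := j
  simp only at hv hw ha hb hu
  have hdN := Nat.dvd_of_mem_divisors hdm
  have hde : d = e := by
    have h1 : (e : ZMod N) = ((w⁻¹ * u * v : (ZMod N)ˣ) : ZMod N) * (d : ZMod N) := by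
      simp only [Units.val_mul]
      linear_combination ((w⁻¹ : (ZMod N)ˣ) : ZMod N) * hu.2 - (e : ZMod N) * w.inv_mul
    have h2 := congrArg (levelGcd N) h1
    rw [levelGcd_unit_mul, levelGcd_natCast N hdN, levelGcd_natCast N (Nat.dvd_of_mem_divisors hem)] at h2
    exact h2.symm
  subst hde
  set lam : ZMod N := ((w⁻¹ * u * v : (ZMod N)ˣ) : ZMod N) with hlam
  have h1 : lam * (d : ZMod N) = (d : ZMod N) := by
    simp only [hlam, Units.val_mul]
    linear_combination -((w⁻¹ : (ZMod N)ˣ) : ZMod N) * hu.2 + (d : ZMod N) * w.inv_mul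
  have h2 : (b : ZMod N) = lam * (a + t * d) := by
    simp only [hlam, Units.val_mul]
    linear_combination ((w⁻¹ : (ZMod N)ˣ) : ZMod N) * hu.1 - (b : ZMod N) * w.inv_mul
  set φ := ZMod.castHom ((Nat.gcd_dvd_left d (N / d)).trans hdN) (ZMod (Nat.gcd d (N / d)))
  have hφd : φ (d : ZMod N) = 0 := by
    rw [map_natCast, ZMod.natCast_eq_zero_iff]
    exact Nat.gcd_dvd_left _ _
  have hφl : φ lam = 1 := by
    have hdvd : N ∣ d * (lam.val) + (N - d) := by
      rw [← ZMod.natCast_eq_zero_iff, Nat.cast_add, Nat.cast_mul, ZMod.natCast_zmod_val,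
        Nat.cast_sub (Nat.le_of_dvd (Nat.pos_of_ne_zero (NeZero.ne N)) hdN), ZMod.natCast_self,
        mul_comm, h1]
      ring
    obtain ⟨m, hm⟩ := hdN
    have hd0 : 0 < d := Nat.pos_of_mem_divisors hdm
    have hNd : N / d = m := by rw [hm, Nat.mul_div_cancel_left _ hd0]
    obtain ⟨k, hk⟩ := hdvd
    have hm1 : lam.val + m = 1 + m * k := by
      refine Nat.eq_of_mul_eq_mul_left hd0 ?_
      have : d ≤ N := Nat.le_of_dvd (Nat.pos_of_ne_zero (NeZero.ne N)) ⟨m, hm⟩
      have hk' : d * lam.val + (d * m - d) = d * (m * k) := by rw [← hm, ← mul_assoc, ← hm]; exact hk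
      rw [mul_add, mul_add, mul_one]
      omega
    have hz : ((lam.val : ℕ) : ZMod (Nat.gcd d (N / d))) = 1 := by
      have hmz : ((m : ℕ) : ZMod (Nat.gcd d (N / d))) = 0 := by
        rw [ZMod.natCast_eq_zero_iff, ← hNd]
        exact Nat.gcd_dvd_right _ _
      have := congrArg (fun z : ℕ => (z : ZMod (Nat.gcd d (N / d)))) hm1
      simpa [hmz] using this
    rw [← hz, ← map_natCast φ, ZMod.natCast_zmod_val]
  have hxy : (y : ZMod (Nat.gcd d (N / d))) = x := by
    have hb' : φ (b : ZMod N) = y := hb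
    have ha' : φ (a : ZMod N) = x := ha
    rw [← hb', h2, map_mul, map_add, map_mul, hφl, hφd, mul_zero, add_zero, one_mul, ha']
  rw [Units.ext hxy]

theorem finrank_fixed_T :
    Module.finrank ℂ (fixedFun (Gamma0 N) ModularGroup.T) = ModularCurve.cuspCount N := by
  classical
  have : Finite (CuspIndex N) := by
    have : ∀ d : {d : ℕ // d ∈ N.divisors}, NeZero (Nat.gcd d.1 (N / d.1)) := fun d =>
      ⟨(Nat.gcd_pos_of_pos_left _ (Nat.pos_of_mem_divisors d.2)).ne'⟩
    infer_instance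
  have : Fintype (CuspIndex N) := Fintype.ofFinite _
  have hinv : ∀ f ∈ fixedFun (Gamma0 N) ModularGroup.T, ∀ (t : ℤ) (x : SL2Z ⧸ Gamma0 N),
      f (ModularGroup.T ^ t • x) = f x := by
    intro f hf t x
    induction t using Int.induction_on with
    | zero => simp
    | succ n ih => rw [add_comm, zpow_add, zpow_one, mul_smul, (mem_fixedFun _).mp hf, ih]
    | pred n ih =>
      rw [← ih, show -(n : ℤ) = 1 + (-(n : ℤ) - 1) by ring, zpow_add ModularGroup.T 1, zpow_one,
        mul_smul, (mem_fixedFun _).mp hf]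
      congr 2
      ring_nf
  choose idx tt hit using exists_zpow_cuspRep N
  let L : fixedFun (Gamma0 N) ModularGroup.T →ₗ[ℂ] (CuspIndex N → ℂ) :=
    { toFun := fun f i => f.1 (cuspRep N i), map_add' := fun _ _ => rfl, map_smul' := fun _ _ => rfl }
  have hL : Function.Bijective L := by
    refine ⟨fun f g h => Subtype.ext (funext fun x => ?_), fun v => ?_⟩
    · rw [← hit x, hinv _ f.2, hinv _ g.2]
      exact congrFun h (idx x)
    · refine ⟨⟨fun x => v (idx x), (mem_fixedFun _).mpr fun x => ?_⟩, funext fun i => ?_⟩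
      · congr 1
        refine cuspRep_orbit_inj N (t := -(tt x) + (-1 + tt (ModularGroup.T • x))) ?_
        rw [zpow_add, zpow_add, mul_smul, mul_smul, hit, zpow_neg_one, inv_smul_smul, zpow_neg,
          inv_smul_eq_iff, hit]
      · exact congrArg v (cuspRep_orbit_inj N (t := tt (cuspRep N i)) (hit _))
  rw [(LinearEquiv.ofBijective L hL).finrank_eq, Module.finrank_pi, ← card_cuspIndex,
    Nat.card_eq_fintype_card]

end FLTAgent.ES
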